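import Fermat.Agent.TH2.FieldDisc
import Fermat.Agent.R2.Anchor

/-!
Area TH2: an anchor has two-torsion unramified at two.
-/

set_option autoImplicit false
set_option linter.style.haveILetI false

noncomputable section

namespace FLTAgent.TH2

open IsLocalRing
open Local (QBar)

local notation "GalQ" => AlgebraicClosure ℚ ≃ₐ[ℚ] AlgebraicClosure ℚ

variable {W : WeierstrassCurve ℤ}

/-- among three residues in `{0, 1}` with odd sum and vanishing pair sum exactly one is `1` -/
theorem residue_trio {k : Type*} [Field k] (h2 : (2 : k) = 0) (f : Fin 3 → k)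
    (h01 : ∀ i, f i = 0 ∨ f i = 1) (hs : f 0 + f 1 + f 2 = 1)
    (hp : f 0 * f 1 + f 0 * f 2 + f 1 * f 2 = 0) : ∃ i, f i = 1 ∧ ∀ j, f j = 1 → j = i := by
  rcases h01 0 with a | a <;> rcases h01 1 with b | b <;> rcases h01 2 with c | c <;>
    simp only [a, b, c, add_zero, zero_add, mul_zero, zero_mul, mul_one] at hs hp
  · exact absurd hs zero_ne_one
  · exact ⟨2, c, fun j hj => by fin_cases j <;> simp_all⟩
  · exact ⟨1, b, fun j hj => by fin_cases j <;> simp_all⟩
  · exact absurd (hs.symm.trans (one_add_one_eq_two.trans h2)) one_ne_zero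
  · exact ⟨0, a, fun j hj => by fin_cases j <;> simp_all⟩
  · exact absurd (hs.symm.trans (one_add_one_eq_two.trans h2)) one_ne_zero
  · exact absurd (hs.symm.trans (one_add_one_eq_two.trans h2)) one_ne_zero
  · have : (1 : k) + 1 + 1 = 1 := by linear_combination (1 : k) * h2
    exact absurd (show (1 : k) = 0 by linear_combination hp - h2) one_ne_zero

/-- multiplicative at two with `Δ = 4ᵏu`, `u ≡ 1 mod 4`: inertia fixes the two-torsion -/
theorem fixesTwo_of_inertia (hΔ : W.Δ ≠ 0) (hc4 : ¬ (2 : ℤ) ∣ W.c₄) {k : ℕ} {u : ℤ}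
    (hu : W.Δ = 2 ^ (2 * k) * u) (hu4 : (4 : ℤ) ∣ u - 1) {A : ValuationSubring QBar}
    (hA : A.LiesOverPrime 2) {σ : GalQ} (hσ : σ ∈ A.inertiaSubgroupIn ℚ) : FixesTwo W σ := by
  classical
  obtain ⟨D⟩ := nonempty_trio hΔ
  rw [D.fixesTwo_iff_perm hΔ]
  have hu2 : ¬ (2 : ℤ) ∣ u := by omega
  have h2k : ((2 : QBar) ^ k) ≠ 0 := pow_ne_zero _ two_ne_zero
  have hsqrt : σ (sqrtΔ W) = sqrtΔ W := by
    have hr : (sqrtΔ W / 2 ^ k) ^ 2 = (u : QBar) := by
      rw [div_pow, sqrtΔ_sq, hu, ← pow_mul, mul_comm k 2, div_eq_iff (pow_ne_zero _ two_ne_zero)]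
      push_cast; ring
    have hfix := inertia_fix_sqrt Nat.prime_two hA hσ hr hu2 fun _ => hu4
    rw [map_div₀, map_pow, map_ofNat, div_left_inj' h2k] at hfix
    exact hfix
  rw [D.fixes_sqrt_iff hΔ] at hsqrt
  by_contra hne
  have hmove := (perm_three_dich (D.perm σ)).mpr ⟨hsqrt, hne⟩
  have hb2 : ¬ (2 : ℤ) ∣ W.b₂ := fun h => hc4 (by
    rw [WeierstrassCurve.c₄]
    exact dvd_sub (dvd_pow h two_ne_zero) (Dvd.intro (12 * W.b₄) (by ring)))
  have hroot : ∀ i, (4 * D.e i) ^ 3 + (W.b₂ : QBar) * (4 * D.e i) ^ 2 +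
      8 * (W.b₄ : QBar) * (4 * D.e i) + 16 * (W.b₆ : QBar) = 0 := fun i => by
    have h0 : (4 : QBar) * D.e i ^ 3 + (W.b₂ : QBar) * D.e i ^ 2 + 2 * (W.b₄ : QBar) * D.e i +
      (W.b₆ : QBar) = 0 := D.mem i
    linear_combination (16 : QBar) * h0
  have hmem : ∀ i, 4 * D.e i ∈ A := fun i => SS2.integral_mem A
    ⟨Polynomial.X ^ 3 + Polynomial.C W.b₂ * Polynomial.X ^ 2 +
      Polynomial.C (8 * W.b₄) * Polynomial.X + Polynomial.C (16 * W.b₆), by monicity!, by
        simp only [Polynomial.eval₂_add, Polynomial.eval₂_mul, Polynomial.eval₂_X_pow,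
          Polynomial.eval₂_C, Polynomial.eval₂_X]
        simpa using hroot i⟩
  let X : Fin 3 → A := fun i => ⟨4 * D.e i, hmem i⟩
  have hres2 : (2 : (ResidueField A)) = 0 := by
    have h : A.valuation (((2 : ℤ) : QBar)) < 1 :=
      (Local.val_int_lt_one_iff hA Nat.prime_two 2).mpr dvd_rfl
    have h' : residue A (2 : A) = 0 := (residue_eq_zero_iff _).mpr
      ((A.valuation_lt_one_iff _).mpr (by
        rw [show (((2 : A)) : QBar) = 2 from map_ofNat A.subtype 2]; simpa using h))
    rwa [map_ofNat] at h'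
  have hb : ((W.b₂ : ℤ) : (ResidueField A)) = 1 := by
    obtain ⟨c, hc⟩ : (2 : ℤ) ∣ W.b₂ - 1 := by omega
    simp [show W.b₂ = 1 + 2 * c by omega, hres2]
  have hinj : Function.Injective A.subtype := Subtype.val_injective
  have hX : ∀ i, A.subtype (X i) = 4 * D.e i := fun _ => rfl
  let f : Fin 3 → (ResidueField A) := fun i => residue A (X i)
  have h01 : ∀ i, f i = 0 ∨ f i = 1 := fun i => by
    have e : (X i) ^ 3 + (W.b₂ : A) * (X i) ^ 2 + 8 * (W.b₄ : A) * (X i) + 16 * (W.b₆ : A) = 0 :=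
      hinj (by
        simp only [map_add, map_mul, map_pow, map_intCast, map_ofNat, map_zero, hX]
        exact hroot i)
    have e' : f i ^ 2 * (f i + 1) = 0 := by
      have := congrArg (residue A) e
      simp only [map_add, map_mul, map_pow, map_intCast, map_ofNat, map_zero] at this
      rw [hb] at this
      linear_combination this - (4 * ((W.b₄ : ℤ) : (ResidueField A)) * f i + 8 * ((W.b₆ : ℤ) : (ResidueField A))) * hres2
    rcases mul_eq_zero.mp e' with h | h
    · exact Or.inl (pow_eq_zero_iff two_ne_zero |>.mp h)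
    · exact Or.inr (by linear_combination h - hres2)
  have hs : f 0 + f 1 + f 2 = 1 := by
    have e : X 0 + X 1 + X 2 = -(W.b₂ : A) := hinj (by
      simp only [map_add, map_neg, map_intCast, hX]
      linear_combination D.sum)
    have := congrArg (residue A) e
    simp only [map_add, map_neg, map_intCast] at this
    rw [hb] at this
    linear_combination this - hres2
  have hp : f 0 * f 1 + f 0 * f 2 + f 1 * f 2 = 0 := by
    have e : X 0 * X 1 + X 0 * X 2 + X 1 * X 2 = 8 * (W.b₄ : A) := hinj (by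
      simp only [map_add, map_mul, map_intCast, map_ofNat, hX]
      linear_combination 4 * D.pairs)
    have := congrArg (residue A) e
    simp only [map_add, map_mul, map_intCast, map_ofNat] at this
    linear_combination this + 4 * ((W.b₄ : ℤ) : (ResidueField A)) * hres2
  obtain ⟨i, hi, huniq⟩ := residue_trio hres2 f h01 hs hp
  refine hmove i (huniq _ ?_)
  rw [← hi]
  have hI := (Local.inertial_of_mem hσ).2 _ (hmem i)
  have e : ((σ : QBar →+* QBar) (4 * D.e i)) = 4 * D.e (D.perm σ i) := by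
    show σ (4 * D.e i) = _
    rw [map_mul, map_ofNat, D.perm_spec]
  rw [e] at hI
  show residue A (X (D.perm σ i)) = residue A (X i)
  rw [← sub_eq_zero, ← map_sub, residue_eq_zero_iff, A.valuation_lt_one_iff]
  exact hI

theorem int_sq_mod_eight {l : ℕ} (hl : ¬ 2 ∣ l) : ((l : ZMod 8)) ^ 2 = 1 := by
  rw [← ZMod.natCast_mod l 8]
  have h := Nat.mod_lt l (show 0 < 8 by norm_num)
  have h' : ¬ 2 ∣ l % 8 := fun h0 => hl (by omega)
  interval_cases h2 : l % 8 <;> first | (exfalso; revert h'; decide) | decide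

/-- the level of an anchor is `3` modulo `8` -/
theorem level_mod_eight (hu : ∃ (k : ℕ) (u : ℤ), W.Δ = 2 ^ (2 * k) * u ∧ u % 8 = 5)
    (hneg : W.Δ < 0)
    (hodd : ∀ l : ℕ, l.Prime → l ≠ 2 → (l : ℤ) ∣ W.Δ → Odd (padicValInt l W.Δ)) :
    level W % 8 = 3 := by
  obtain ⟨k, u, hΔ, hu8⟩ := hu
  have hun : u < 0 := by
    by_contra h
    have : 0 ≤ W.Δ := by rw [hΔ]; have := pow_pos (two_pos (α := ℤ)) (2 * k); nlinarith
    omega
  have hn : W.Δ.natAbs = 2 ^ (2 * k) * u.natAbs := by rw [hΔ, Int.natAbs_mul, Int.natAbs_pow]; rfl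
  have hu0 : u.natAbs ≠ 0 := by omega
  have hset : W.Δ.natAbs.primeFactors.filter (fun l => l ≠ 2 ∧ Odd (padicValInt l W.Δ)) =
      u.natAbs.primeFactors := by
    ext l
    simp only [Finset.mem_filter, Nat.mem_primeFactors, hn]
    constructor
    · rintro ⟨⟨hl, hd, -⟩, h2, -⟩
      refine ⟨hl, ?_, hu0⟩
      exact (Nat.Coprime.dvd_of_dvd_mul_left
        (((Nat.coprime_primes hl Nat.prime_two).mpr h2).pow_right _) hd)
    · rintro ⟨hl, hd, -⟩
      have hl2 : l ≠ 2 := fun h => by subst h; omega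
      refine ⟨⟨hl, hd.mul_left _, mul_ne_zero (by positivity) hu0⟩, hl2, hodd l hl hl2 ?_⟩
      rw [← Int.dvd_natAbs, hn, Int.natCast_dvd_natCast]
      exact hd.mul_left _
  have hv : ∀ l ∈ u.natAbs.primeFactors, Odd (u.natAbs.factorization l) := by
    intro l hl
    obtain ⟨hlp, hd, -⟩ := Nat.mem_primeFactors.mp hl
    have hl2 : l ≠ 2 := fun h => by subst h; omega
    have := hodd l hlp hl2 (by rw [← Int.dvd_natAbs, hn, Int.natCast_dvd_natCast]; exact hd.mul_left _)
    rw [padicValInt, ← Nat.factorization_def _ hlp, hn,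
      Nat.factorization_mul (by positivity) hu0, Finsupp.add_apply,
      Nat.factorization_pow, Finsupp.smul_apply,
      Nat.factorization_eq_zero_of_not_dvd (fun h => hl2 ((Nat.prime_dvd_prime_iff_eq hlp
        Nat.prime_two).mp h)), smul_zero, zero_add] at this
    exact this
  have h8 : ((level W : ℕ) : ZMod 8) = (u.natAbs : ZMod 8) := by
    rw [level, hset]
    conv_rhs => rw [← Nat.prod_factorization_pow_eq_self hu0, Finsupp.prod, Nat.support_factorization]
    push_cast
    refine Finset.prod_congr rfl fun l hl => ?_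
    obtain ⟨m, hm⟩ := hv l hl
    have hl2 : ¬ 2 ∣ l := fun h => by
      obtain ⟨hlp, hd, -⟩ := Nat.mem_primeFactors.mp hl
      have := (Nat.prime_dvd_prime_iff_eq Nat.prime_two hlp).mp h
      subst this
      omega
    rw [hm, pow_succ, pow_mul, int_sq_mod_eight hl2, one_pow, one_mul]
  rw [ZMod.natCast_eq_natCast_iff'] at h8
  omega

theorem admissible_two_of_anchor (h : R2.IsAnchor W) {A : ValuationSubring QBar}
    (hA : A.LiesOverPrime 2) {σ : GalQ} (hσ : σ ∈ A.inertiaSubgroupIn ℚ) : FixesTwo W σ := by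
  obtain ⟨k, u, hk, hu, hu8⟩ := h.two
  refine fixesTwo_of_inertia h.neg.ne (h.ss 2 Nat.prime_two ?_) hu (by omega) hA hσ
  rw [hu]
  exact Dvd.dvd.mul_right (dvd_pow_self 2 (by omega)) u

end FLTAgent.TH2

end
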