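import Fermat.Agent.TH2.Main
import Fermat.Agent.TH2.Unramified
import Fermat.Agent.R2.Defs

/-!
Area TH2: the residual eigenform of an anchor.
-/

set_option autoImplicit false

noncomputable section

namespace FLTAgent.TH2

variable {W : WeierstrassCurve ℤ}

theorem admissible_of_anchor (hW : R2.IsAnchor W) : Admissible W where
  ss := hW.ss
  irr := hW.irr
  neg := hW.neg
  unramified_two A hA σ hσ := admissible_two_of_anchor hW hA hσ
  odd_prime := by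
    obtain ⟨l, hl, h5, hd⟩ := hW.big
    exact ⟨l, hl, h5, hW.odd_v l hl (by omega) hd⟩

theorem level_eq_badOdd (hW : R2.IsAnchor W) : level W = ∏ l ∈ R2.badOdd W, l := by
  unfold level R2.badOdd
  refine Finset.prod_congr (Finset.filter_congr fun l hl => ?_) fun _ _ => rfl
  obtain ⟨hlp, hd, -⟩ := Nat.mem_primeFactors.mp hl
  exact ⟨fun h => h.1, fun h => ⟨h, hW.odd_v l hlp h (Int.natCast_dvd.mpr hd)⟩⟩

/-- the eigenform of level `D`, the product of the odd bad primes, congruent to an anchor mod two,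
with eigenvalue `1` at two and at `D` -/
theorem anchor_eigenform (hW : R2.IsAnchor W) {D : ℕ} (hD : D = ∏ l ∈ R2.badOdd W, l) :
    ∃ (f : CuspForm (CongruenceSubgroup.Gamma0 D) 2) (𝔪 : Ideal (integralClosure ℤ ℂ)),
      f.IsNormalizedEigenform ∧ 𝔪.IsMaximal ∧ ((2 : ℕ) : integralClosure ℤ ℂ) ∈ 𝔪 ∧
      ∀ ℓ : ℕ, ℓ.Prime → ∃ c : integralClosure ℤ ℂ,
        (c : ℂ) = ModularFormClass.qCoeff f ℓ ∧
          c - ((if ℓ = 2 ∨ ℓ ∣ D then 1 else W.apOfModel ℓ : ℤ) : integralClosure ℤ ℂ) ∈ 𝔪 := by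
  rw [← level_eq_badOdd hW] at hD
  subst hD
  have h5 : level W % 8 = 3 := by
    obtain ⟨k, u, -, hu, hu8⟩ := hW.two
    exact level_mod_eight ⟨k, u, hu, hu8⟩ hW.neg hW.odd_v
  obtain ⟨f, 𝔪, hf, hm, h2, hbad, hgood⟩ :=
    exists_residual_eigenform (admissible_of_anchor hW) h5
  refine ⟨f, 𝔪, hf, hm, h2, fun ℓ hℓ => ?_⟩
  by_cases hd : ℓ = 2 ∨ ℓ ∣ level W
  · rw [if_pos hd, Int.cast_one]
    exact hbad ℓ hℓ hd
  · rw [if_neg hd]
    push_neg at hd
    refine hgood ℓ hℓ (fun hbad' => hd.2 ?_) hd.1 hd.2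
    exact (dvd_level_iff hW.neg.ne hℓ).mpr ⟨hd.1, hW.odd_v ℓ hℓ hd.1 hbad'⟩

end FLTAgent.TH2

end
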