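import Fermat.Agent.TH2.FieldGal
import Fermat.Agent.Common.EverywhereUnramified
import Fermat.Agent.SS2.Unramified

/-!
Area TH2, parcel FIELD: the squarefree part of the discriminant.
-/

set_option autoImplicit false
set_option linter.unusedSectionVars false
set_option linter.style.haveILetI false

noncomputable section

namespace FLTAgent.TH2

open WeierstrassCurve
open Local (QBar QPoint)

local notation "GalQ" => AlgebraicClosure ℚ ≃ₐ[ℚ] AlgebraicClosure ℚ

variable {W : WeierstrassCurve ℤ}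

/-- a square root of an integer is fixed by inertia away from twice the integer -/
theorem inertia_fix_sqrt {q : ℕ} (hq : q.Prime) {V : ValuationSubring QBar}
    (hV : V.LiesOverPrime q) {σ : GalQ} (hσ : σ ∈ V.inertiaSubgroupIn ℚ) {r : QBar} {D : ℤ}
    (hr : r ^ 2 = (D : QBar)) (hD : ¬ (q : ℤ) ∣ D) (h2 : q = 2 → (4 : ℤ) ∣ D - 1) : σ r = r := by
  rcases sq_eq_sq_iff_eq_or_eq_neg.mp
    (show (σ r) ^ 2 = r ^ 2 by rw [← map_pow, hr, map_intCast]) with h | h
  · exact h
  exfalso
  have hI := (Local.inertial_of_mem hσ).2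
  have hvD : V.valuation r ^ 2 = 1 := by
    rw [← map_pow, hr]; exact Local.val_int_eq_one hV hq hD
  have hvr : V.valuation r = 1 := (pow_eq_one_iff.mp hvD).resolve_right two_ne_zero
  by_cases hq2 : q = 2
  · obtain ⟨c, hc⟩ := h2 hq2
    have hw : ((1 + r) / 2) ∈ V := by
      refine SS2.integral_mem V ?_
      refine ⟨Polynomial.X ^ 2 - Polynomial.X - Polynomial.C c, ?_, ?_⟩
      · monicity!
      · have hD' : (D : QBar) = 1 + 4 * (c : QBar) := by
          rw [show D = 1 + 4 * c by linarith]; push_cast; ring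
        rw [Polynomial.eval₂_sub, Polynomial.eval₂_sub, Polynomial.eval₂_X_pow, Polynomial.eval₂_X,
          Polynomial.eval₂_C, eq_intCast]
        linear_combination (1 / 4 : QBar) * (hr.trans hD')
    have hlt := hI _ hw
    rw [show ((σ : QBar →+* QBar) ((1 + r) / 2)) = (1 - r) / 2 by
      show σ ((1 + r) / 2) = _
      rw [map_div₀, map_add, map_one, map_ofNat, h, sub_eq_add_neg],
      show (1 - r) / 2 - (1 + r) / 2 = -r by ring, Valuation.map_neg, hvr] at hlt
    exact lt_irrefl _ hlt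
  · have hlt := hI r ((V.valuation_le_one_iff _).mp hvr.le)
    rw [show ((σ : QBar →+* QBar) r) = -r from h, show -r - r = -(((2 : ℤ) : QBar) * r) by
      push_cast; ring, Valuation.map_neg, map_mul, hvr, mul_one,
      Local.val_int_lt_one_iff hV hq] at hlt
    exact hq2 ((Nat.prime_dvd_prime_iff_eq hq Nat.prime_two).mp (by exact_mod_cast hlt))

/-- a fixed square root of a small non-square is absurd -/
theorem not_sq_small {e : ℤ} (he : e = -1 ∨ e = 2 ∨ e = -2) {r : ℚ} (hr : r ^ 2 = e) : False := by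
  rcases he with rfl | rfl | rfl
  · push_cast at hr; nlinarith [sq_nonneg r]
  · have hs : IsSquare ((2 : ℕ) : ℚ) := ⟨r, by rw [← pow_two, hr]; norm_num⟩
    rw [Rat.isSquare_natCast_iff] at hs
    exact Nat.prime_two.not_isSquare hs
  · push_cast at hr; nlinarith [sq_nonneg r]

/-- if inertia at two fixes `√Δ` then the squarefree part of `-Δ` is three mod four -/
theorem mod_four_eq_three {a : ℕ} (ha : Squarefree a) {s : QBar}
    (hs : s ^ 2 = -(a : QBar))
    (hfix : ∀ A : ValuationSubring QBar, A.LiesOverPrime 2 →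
      ∀ σ ∈ A.inertiaSubgroupIn ℚ, σ s = s) : a % 4 = 3 := by
  by_contra hne
  have h4 : ¬ 4 ∣ a := fun hd =>
    absurd (ha 2 (by simpa using hd)) (by rw [Nat.isUnit_iff]; norm_num)
  obtain ⟨e, D, he, haD, hD⟩ : ∃ e D : ℤ, (e = -1 ∨ e = 2 ∨ e = -2) ∧ -(a : ℤ) = e * D ∧
      (4 : ℤ) ∣ D - 1 := by
    rcases (show a % 4 = 1 ∨ a % 8 = 2 ∨ a % 8 = 6 by omega) with h | h | h
    · exact ⟨-1, a, Or.inl rfl, by ring, by omega⟩
    · exact ⟨-2, (a / 2 : ℕ), Or.inr (Or.inr rfl), by omega, by omega⟩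
    · exact ⟨2, -((a / 2 : ℕ) : ℤ), Or.inr (Or.inl rfl), by omega, by omega⟩
  have he0 : e ≠ 0 := by omega
  have hD0 : D ≠ 0 := by omega
  obtain ⟨r, hr⟩ := IsAlgClosed.exists_pow_nat_eq (e : QBar) (n := 2) two_pos
  have hr0 : r ≠ 0 := fun h => by rw [h] at hr; simp at hr; exact he0 (by exact_mod_cast hr.symm)
  have hu : (s / r) ^ 2 = (D : QBar) := by
    rw [div_pow, hs, hr, div_eq_iff (Int.cast_ne_zero.mpr he0), mul_comm]
    exact_mod_cast haD
  let H : Subgroup GalQ := MulAction.stabilizer GalQ r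
  haveI : H.Normal := ⟨fun σ (hσ : σ r = r) τ => by
    show τ (σ (τ⁻¹ r)) = r
    have h2 : (τ⁻¹ r) ^ 2 = r ^ 2 := by rw [← map_pow, hr, map_intCast]
    have h3 : σ (τ⁻¹ r) = τ⁻¹ r := by
      rcases sq_eq_sq_iff_eq_or_eq_neg.mp h2 with e' | e' <;> rw [e'] <;> simp [hσ]
    rw [h3, ← AlgEquiv.mul_apply, mul_inv_cancel, AlgEquiv.one_apply]⟩
  haveI : FiniteDimensional ℚ (IntermediateField.adjoin ℚ {r}) :=
    IntermediateField.adjoin.finiteDimensional
      ((AlgebraicClosure.isAlgebraic ℚ).isAlgebraic r).isIntegral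
  have hH : H = ⊤ := Common.eq_top_of_inertia_le (IntermediateField.adjoin ℚ {r}) H
    (fun σ hσ => (IntermediateField.mem_fixingSubgroup_iff _ σ).mp hσ r
      (IntermediateField.subset_adjoin ℚ _ rfl))
    (fun q hq V hV σ hσ => by
      show σ r = r
      by_cases hq2 : q = 2
      · subst hq2
        have h1 : σ (s / r) = s / r :=
          inertia_fix_sqrt hq hV hσ hu (by omega) fun _ => hD
        rw [map_div₀, hfix V hV σ hσ] at h1
        have hs0 : s ≠ 0 := fun h => by
          rw [h] at hs; simp at hs; exact ha.ne_zero hs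
        have hσr : σ r ≠ 0 := (map_ne_zero σ).mpr hr0
        field_simp at h1
        exact h1.symm
      · refine inertia_fix_sqrt hq hV hσ hr (fun hd => ?_) (fun h => absurd h hq2)
        have hd2 : q ∣ 2 := by
          rcases he with rfl | rfl | rfl
          · exact absurd (Int.natCast_dvd.mp hd) (by simpa using hq.ne_one)
          · exact_mod_cast hd
          · exact Int.natCast_dvd.mp hd
        exact hq2 ((Nat.prime_dvd_prime_iff_eq hq Nat.prime_two).mp hd2))
  obtain ⟨t, ht⟩ := Local.exists_rat_of_fixed (x := r) fun σ => (hH ▸ Subgroup.mem_top σ : σ ∈ H)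
  rw [← ht] at hr
  exact not_sq_small he (r := t) (by exact_mod_cast hr)

/-- the squarefree part of the discriminant is minus the level, which is three mod four -/
theorem exists_sq_level (h : Admissible W) :
    ∃ (b : ℕ) (s : QBar), b ≠ 0 ∧ sqrtΔ W = (b : QBar) * s ∧
      s ^ 2 = -((level W : ℕ) : QBar) ∧ level W % 4 = 3 ∧ 5 ≤ level W := by
  obtain ⟨a, b, hab, hsq⟩ := Nat.sq_mul_squarefree W.Δ.natAbs
  have hn : (W.Δ.natAbs : ℤ) = -W.Δ := by have := h.neg; omega
  have hb : b ≠ 0 := fun hb => by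
    have := h.neg
    rw [hb] at hab; omega
  have hbq : (b : QBar) ≠ 0 := Nat.cast_ne_zero.mpr hb
  have hΔq : (W.Δ : QBar) = -((b : QBar) ^ 2 * (a : QBar)) := by
    rw [show W.Δ = -(((b ^ 2 * a : ℕ) : ℤ)) by omega]; push_cast; ring
  set s : QBar := sqrtΔ W / (b : QBar) with hs
  have hs2 : s ^ 2 = -(a : QBar) := by
    rw [hs, div_pow, sqrtΔ_sq, hΔq]; field_simp
  obtain ⟨D⟩ := nonempty_trio h.neg.ne
  have hmod : a % 4 = 3 := mod_four_eq_three hsq hs2 fun A hA σ hσ => by
    rw [hs, map_div₀, map_natCast, (D.fixes_sqrt_iff h.neg.ne σ).mpr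
      (by rw [(D.fixesTwo_iff_perm h.neg.ne σ).mp (h.unramified_two A hA σ hσ), map_one])]
  have hv : ∀ l : ℕ, l.Prime → (Odd (padicValInt l W.Δ) ↔ l ∣ a) := by
    intro l hl
    haveI : Fact l.Prime := ⟨hl⟩
    have ha0 := hsq.ne_zero
    rw [padicValInt, ← hab, padicValNat.mul (pow_ne_zero 2 hb) ha0, padicValNat.pow,
      Nat.odd_add']
    by_cases hd : l ∣ a
    · have h1 : padicValNat l a = 1 := by
        rw [← Nat.factorization_def a hl]
        exact le_antisymm (hsq.natFactorization_le_one l)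
          (hl.factorization_pos_of_dvd ha0 hd)
      simp [hd, h1]
    · simp [hd, padicValNat.eq_zero_of_not_dvd hd]
  have hlevel : level W = a := by
    conv_rhs => rw [← Nat.prod_primeFactors_of_squarefree hsq]
    unfold level
    refine Finset.prod_congr (Finset.ext fun l => ?_) fun _ _ => rfl
    simp only [Finset.mem_filter, Nat.mem_primeFactors]
    constructor
    · rintro ⟨⟨hl, -, -⟩, -, ho⟩
      exact ⟨hl, (hv l hl).mp ho, hsq.ne_zero⟩
    · rintro ⟨hl, hd, -⟩
      refine ⟨⟨hl, hab ▸ hd.mul_left _, by have := h.neg; omega⟩, ?_, (hv l hl).mpr hd⟩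
      rintro rfl
      omega
  obtain ⟨l, hl, hl5, hlo⟩ := h.odd_prime
  refine ⟨b, s, hb, by rw [hs]; field_simp, by rw [hlevel]; exact hs2, hlevel ▸ hmod, ?_⟩
  rw [hlevel]
  exact hl5.trans (Nat.le_of_dvd hsq.ne_zero.bot_lt ((hv l hl).mp hlo))

end FLTAgent.TH2

end
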