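import Fermat.Agent.TH2.Defs
import Fermat.Agent.Torsion.Reducible
import Fermat.Prelude.Def_EllipticCurve_FrobeniusTrace

/-!
Area TH2, parcel FIELD: the points of order two and the action of Galois on their abscissae.
-/

set_option autoImplicit false
set_option linter.unusedSectionVars false
set_option linter.unusedSimpArgs false

noncomputable section

namespace FLTAgent.TH2

open WeierstrassCurve
open Local (QBar QPoint)
open WeierstrassCurve.Affine.Point (galoisTrace galoisRepModuleEnd galoisRepModuleEnd_apply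
  IsGaloisStable)
open scoped WeierstrassCurve.Affine

local notation "GalQ" => AlgebraicClosure ℚ ≃ₐ[ℚ] AlgebraicClosure ℚ

variable {W : WeierstrassCurve ℤ}

theorem smul_some (σ : GalQ) {x y : QBar}
    (h : ((W.map (Int.castRingHom ℚ))⁄(AlgebraicClosure ℚ)).toAffine.Nonsingular x y) :
    ∃ h', σ • (Affine.Point.some x y h : QPoint W) = Affine.Point.some (σ x) (σ y) h' :=
  ⟨_, Affine.Point.map_some σ.toAlgHom h⟩

theorem two_nsmul_some {x y : QBar}
    (h : ((W.map (Int.castRingHom ℚ))⁄(AlgebraicClosure ℚ)).toAffine.Nonsingular x y) :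
    2 • (Affine.Point.some x y h : QPoint W) = 0 ↔ 2 * y + W.a₁ * x + W.a₃ = 0 := by
  rw [two_nsmul, add_eq_zero_iff_eq_neg, Affine.Point.neg_some, Affine.Point.some.injEq]
  simp only [Affine.negY, WeierstrassCurve.baseChange, WeierstrassCurve.map, true_and,
    Int.coe_castRingHom, eq_intCast, map_intCast]
  constructor <;> intro e <;> linear_combination e

theorem equation_iff' (x y : QBar) :
    ((W.map (Int.castRingHom ℚ))⁄(AlgebraicClosure ℚ)).toAffine.Equation x y ↔
      y ^ 2 + W.a₁ * x * y + W.a₃ * y = x ^ 3 + W.a₂ * x ^ 2 + W.a₄ * x + W.a₆ := by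
  rw [Affine.equation_iff]
  simp [WeierstrassCurve.baseChange, WeierstrassCurve.map]

theorem twoRoot_of_point {x y : QBar}
    (h : ((W.map (Int.castRingHom ℚ))⁄(AlgebraicClosure ℚ)).toAffine.Nonsingular x y)
    (h2 : 2 • (Affine.Point.some x y h : QPoint W) = 0) : x ∈ twoRoots W := by
  have e := (equation_iff' x y).mp h.1
  have e2 := (two_nsmul_some h).mp h2
  show (4 : QBar) * x ^ 3 + (W.b₂ : QBar) * x ^ 2 + 2 * (W.b₄ : QBar) * x + (W.b₆ : QBar) = 0
  simp only [b₂, b₄, b₆]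
  push_cast
  linear_combination (2 * y + W.a₁ * x + W.a₃) * e2 - 4 * e

theorem exists_point_of_twoRoot (hΔ : W.Δ ≠ 0) {x : QBar} (hx : x ∈ twoRoots W) :
    ∃ y h, 2 • (Affine.Point.some x y h : QPoint W) = 0 := by
  let y : QBar := -(W.a₁ * x + W.a₃) / 2
  have hy : 2 * y + W.a₁ * x + W.a₃ = 0 := by simp only [y]; ring
  have hx' : (4 : QBar) * x ^ 3 + (W.b₂ : QBar) * x ^ 2 + 2 * (W.b₄ : QBar) * x +
    (W.b₆ : QBar) = 0 := hx
  simp only [b₂, b₄, b₆] at hx'
  push_cast at hx'
  have he : ((W.map (Int.castRingHom ℚ))⁄(AlgebraicClosure ℚ)).toAffine.Equation x y := by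
    rw [equation_iff']
    linear_combination ((2 * y + W.a₁ * x + W.a₃) / 4) * hy - hx' / 4
  have hns : ((W.map (Int.castRingHom ℚ))⁄(AlgebraicClosure ℚ)).toAffine.Nonsingular x y :=
    (Affine.equation_iff_nonsingular_of_Δ_ne_zero
      (by simp [WeierstrassCurve.baseChange, WeierstrassCurve.map_Δ, hΔ])).mp he
  exact ⟨y, hns, (two_nsmul_some hns).mpr hy⟩

/-- a point of order two is fixed iff its abscissa is -/
theorem smul_two_iff (σ : GalQ) {x y : QBar}
    (h : ((W.map (Int.castRingHom ℚ))⁄(AlgebraicClosure ℚ)).toAffine.Nonsingular x y)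
    (h2 : 2 • (Affine.Point.some x y h : QPoint W) = 0) :
    σ • (Affine.Point.some x y h : QPoint W) = Affine.Point.some x y h ↔ σ x = x := by
  obtain ⟨h', e⟩ := smul_some σ h
  rw [e, Affine.Point.some.injEq]
  refine ⟨And.left, fun hx => ⟨hx, ?_⟩⟩
  have e2 := (two_nsmul_some h).mp h2
  have e3 := congrArg σ e2
  simp only [map_add, map_mul, map_ofNat, map_intCast, map_zero, hx] at e3
  linear_combination (e3 - e2) / 2

theorem fixesTwo_iff_roots (hΔ : W.Δ ≠ 0) (σ : GalQ) :
    FixesTwo W σ ↔ ∀ x ∈ twoRoots W, σ x = x := by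
  constructor
  · intro hσ x hx
    obtain ⟨y, h, h2⟩ := exists_point_of_twoRoot hΔ hx
    exact (smul_two_iff σ h h2).mp (hσ _ h2)
  · intro hσ P hP
    rcases P with _ | ⟨x, y, h⟩
    · rfl
    · exact (smul_two_iff σ h hP).mpr (hσ x (twoRoot_of_point h hP))

/-- `W[2]` has no rational point -/
theorem exists_move (hW : W.ModRepIsIrreducible 2) (hΔ : W.Δ ≠ 0) {x : QBar}
    (hx : x ∈ twoRoots W) : ∃ σ : GalQ, σ x ≠ x := by
  by_contra hcon
  push Not at hcon
  haveI : Fact (Nat.Prime 2) := ⟨Nat.prime_two⟩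
  obtain ⟨y, h, h2⟩ := exists_point_of_twoRoot hΔ hx
  let P : Torsion.Tors W 2 := Torsion.mkTors _ h2
  obtain ⟨hfin, hrank⟩ := Torsion.finrank_tors hΔ 2
  have hP0 : P ≠ 0 := fun e => Affine.Point.some_ne_zero h (congrArg Subtype.val e)
  have hN : IsGaloisStable ℚ (Submodule.span (ZMod 2) {P}) := by
    intro σ z hz
    obtain ⟨c, rfl⟩ := Submodule.mem_span_singleton.mp hz
    rw [Torsion.smul_zmod_smul, show σ • P = P from Subtype.ext ((smul_two_iff σ h h2).mpr (hcon σ))]
    exact hz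
  rcases hW.2 _ hN with e | e
  · exact hP0 (Submodule.span_singleton_eq_bot.mp e)
  · have := finrank_span_singleton (K := ZMod 2) hP0
    rw [e, finrank_top] at this
    exact absurd (this.symm.trans hrank) (by decide)

/-- the abscissae of the points of order two, with the action of Galois and the discriminant -/
structure Trio (W : WeierstrassCurve ℤ) where
  e : Fin 3 → QBar
  inj : Function.Injective e
  mem_iff : ∀ x, x ∈ twoRoots W ↔ ∃ i, e i = x
  sum : 4 * (e 0 + e 1 + e 2) = -(W.b₂ : QBar)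
  pairs : 4 * (e 0 * e 1 + e 0 * e 2 + e 1 * e 2) = 2 * (W.b₄ : QBar)
  disc : (4 * ((e 0 - e 1) * (e 0 - e 2) * (e 1 - e 2))) ^ 2 = (W.Δ : QBar)

theorem nonempty_trio (hΔ : W.Δ ≠ 0) : Nonempty (Trio W) := by
  let P : Cubic ℤ := ⟨4, W.b₂, 2 * W.b₄, W.b₆⟩
  let Q : Cubic QBar := Cubic.map (Int.castRingHom QBar) P
  have ha : Q.a ≠ 0 := by simp [Q, P, Cubic.map]
  obtain ⟨x, y, z, h3⟩ := (Cubic.splits_iff_roots_eq_three (φ := RingHom.id QBar) ha).mp
    (IsAlgClosed.splits _)
  have hdisc := Cubic.discr_eq_prod_three_roots ha h3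
  have hb := Cubic.b_eq_three_roots ha h3
  have hc := Cubic.c_eq_three_roots ha h3
  simp only [RingHom.id_apply] at hdisc hb hc
  have hdQ : Q.discr = 16 * (W.Δ : QBar) := by
    have hP : P.discr = 16 * W.Δ := W.twoTorsionPolynomial_discr
    have := congrArg (Int.castRingHom QBar) hP
    simp only [map_mul, map_ofNat, eq_intCast] at this
    rw [← this]
    simp [Q, Cubic.map, Cubic.discr]
  rw [hdQ] at hdisc
  simp only [Q, P, Cubic.map, Int.coe_castRingHom, Int.cast_ofNat, Int.cast_mul] at hdisc hb hc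
  have hne := (Cubic.discr_ne_zero_iff_roots_ne ha h3).mp (by rw [hdQ]; simp [hΔ])
  refine ⟨⟨![x, y, z], ?_, fun t => ?_, ?_, ?_, ?_⟩⟩
  · intro i j hij
    fin_cases i <;> fin_cases j <;>
      simp [hne.1, hne.1.symm, hne.2.1, hne.2.1.symm, hne.2.2, hne.2.2.symm] at hij ⊢
  · have hQ0 : (Cubic.map (RingHom.id QBar) Q).toPoly ≠ 0 :=
      Cubic.ne_zero_of_a_ne_zero (by simpa [Cubic.map] using ha)
    have hm := Cubic.mem_roots_iff hQ0 t
    rw [h3] at hm
    simp only [Q, P, Cubic.map, RingHom.id_apply, Int.coe_castRingHom, Int.cast_ofNat,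
      Int.cast_mul, Multiset.insert_eq_cons, Multiset.mem_cons, Multiset.mem_singleton] at hm
    show (4 : QBar) * t ^ 3 + (W.b₂ : QBar) * t ^ 2 + 2 * (W.b₄ : QBar) * t + (W.b₆ : QBar) = 0 ↔ _
    rw [← hm]
    simp [Fin.exists_fin_succ, eq_comm]
  · show 4 * (x + y + z) = _
    linear_combination hb
  · show 4 * (x * y + x * z + y * z) = _
    linear_combination -hc
  · show (4 * ((x - y) * (x - z) * (y - z))) ^ 2 = _
    linear_combination (-(1 : QBar) / 16) * hdisc

theorem perm_three_cases : ∀ s : Equiv.Perm (Fin 3), s = 1 ∨ s = Equiv.swap 0 1 ∨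
    s = Equiv.swap 0 2 ∨ s = Equiv.swap 1 2 ∨ s = Equiv.swap 0 1 * Equiv.swap 1 2 ∨
    s = Equiv.swap 1 2 * Equiv.swap 0 1 := by decide

namespace Trio

variable (D : Trio W)

/-- four times the product of the differences -/
def delta : QBar := 4 * ((D.e 0 - D.e 1) * (D.e 0 - D.e 2) * (D.e 1 - D.e 2))

theorem delta_perm (s : Equiv.Perm (Fin 3)) :
    4 * ((D.e (s 0) - D.e (s 1)) * (D.e (s 0) - D.e (s 2)) * (D.e (s 1) - D.e (s 2))) =
      if Equiv.Perm.sign s = 1 then D.delta else -D.delta := by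
  rcases perm_three_cases s with rfl | rfl | rfl | rfl | rfl | rfl <;>
    simp [delta, Equiv.swap_apply_def, map_mul, Equiv.Perm.sign_swap] <;> ring

theorem mem (i : Fin 3) : D.e i ∈ twoRoots W := (D.mem_iff _).mpr ⟨i, rfl⟩

theorem exists_index (σ : GalQ) (i : Fin 3) : ∃ j, σ (D.e i) = D.e j := by
  have h : σ (D.e i) ∈ twoRoots W := by
    have h0 : (4 : QBar) * D.e i ^ 3 + (W.b₂ : QBar) * D.e i ^ 2 + 2 * (W.b₄ : QBar) * D.e i +
      (W.b₆ : QBar) = 0 := D.mem i
    have := congrArg σ h0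
    simp only [map_add, map_mul, map_pow, map_ofNat, map_intCast, map_zero] at this
    exact this
  obtain ⟨j, hj⟩ := (D.mem_iff _).mp h
  exact ⟨j, hj.symm⟩

/-- the permutation of the abscissae -/
def perm (σ : GalQ) : Equiv.Perm (Fin 3) :=
  Equiv.ofBijective (fun i => (D.exists_index σ i).choose)
    (Finite.injective_iff_bijective.mp fun i j h => D.inj (σ.injective (by
      rw [(D.exists_index σ i).choose_spec, (D.exists_index σ j).choose_spec]
      exact congrArg D.e h)))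

theorem perm_spec (σ : GalQ) (i : Fin 3) : σ (D.e i) = D.e (D.perm σ i) :=
  (D.exists_index σ i).choose_spec

theorem perm_mul (σ τ : GalQ) : D.perm (σ * τ) = D.perm σ * D.perm τ :=
  Equiv.ext fun i => D.inj (by
    rw [← perm_spec, Equiv.Perm.mul_apply, ← perm_spec, ← perm_spec, AlgEquiv.mul_apply])

theorem perm_one : D.perm 1 = 1 :=
  Equiv.ext fun i => D.inj (by rw [← perm_spec]; rfl)

/-- the permutation representation -/
def permHom : GalQ →* Equiv.Perm (Fin 3) where
  toFun := D.perm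
  map_one' := D.perm_one
  map_mul' := D.perm_mul

theorem delta_sq : D.delta ^ 2 = (W.Δ : QBar) := D.disc

theorem delta_ne_zero (hΔ : W.Δ ≠ 0) : D.delta ≠ 0 := fun h => by
  have := D.delta_sq
  rw [h, zero_pow two_ne_zero] at this
  exact hΔ (Int.cast_eq_zero.mp this.symm)

theorem sqrt_eq : sqrtΔ W = D.delta ∨ sqrtΔ W = -D.delta :=
  sq_eq_sq_iff_eq_or_eq_neg.mp ((sqrtΔ_sq W).trans D.delta_sq.symm)

theorem fixes_sqrt_iff (hΔ : W.Δ ≠ 0) (σ : GalQ) :
    σ (sqrtΔ W) = sqrtΔ W ↔ Equiv.Perm.sign (D.perm σ) = 1 := by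
  have hd : σ D.delta = if Equiv.Perm.sign (D.perm σ) = 1 then D.delta else -D.delta := by
    rw [← D.delta_perm, delta, map_mul, map_mul, map_mul, map_sub, map_sub, map_sub, map_ofNat,
      perm_spec, perm_spec, perm_spec]
  have h2 : σ (sqrtΔ W) = sqrtΔ W ↔ σ D.delta = D.delta := by
    rcases D.sqrt_eq with e | e <;> rw [e] <;> simp
  rw [h2, hd]
  split_ifs with hs
  · simp [hs]
  · simp only [hs, iff_false]
    exact fun h => D.delta_ne_zero hΔ (by linear_combination (-(1 : QBar) / 2) * h)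

theorem fixesTwo_iff_perm (hΔ : W.Δ ≠ 0) (σ : GalQ) : FixesTwo W σ ↔ D.perm σ = 1 := by
  rw [fixesTwo_iff_roots hΔ]
  constructor
  · exact fun h => Equiv.ext fun i => D.inj (by rw [← perm_spec, h _ (D.mem i)]; rfl)
  · intro h x hx
    obtain ⟨i, rfl⟩ := (D.mem_iff x).mp hx
    rw [perm_spec, h, Equiv.Perm.one_apply]

end Trio

end FLTAgent.TH2

end
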