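import Fermat.Agent.TH2.CFClasses

/-!
Area TH2, parcel CF: a cubic unramified extension gives a cubic class character.
-/

set_option autoImplicit false

noncomputable section

namespace FLTAgent.TH2

open scoped nonZeroDivisors NumberField Pointwise

theorem coe_smul_ringOfIntegers {F L : Type*} [Field F] [Field L] [Algebra F L]
    (s : L ≃ₐ[F] L) (x : 𝓞 L) : ((s • x : 𝓞 L) : L) = s (x : L) := rfl

/-- Hilbert 90 with an integral witness -/
theorem exists_integral_div {F L : Type*} [Field F] [NumberField F] [Field L] [NumberField L]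
    [Algebra F L] [IsGalois F L] (h3 : Module.finrank F L = 3) {s : L ≃ₐ[F] L} (hs : ∀ g, g ∈ Subgroup.zpowers s) {x : L}
    (hx : Algebra.norm F x = 1) : ∃ w : 𝓞 L, w ≠ 0 ∧ x * s (w : L) = (w : L) := by
  classical
  haveI : FiniteDimensional F L := Module.finite_of_finrank_eq_succ h3
  have hG : Nat.card (L ≃ₐ[F] L) = 3 := (IsGalois.card_aut_eq_finrank F L).trans h3
  haveI : Fact (Nat.Prime 3) := ⟨Nat.prime_three⟩
  have hs1 : s ≠ 1 := by
    rintro rfl
    haveI : Subsingleton (L ≃ₐ[F] L) := ⟨fun a b => by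
      have := hs a; have := hs b; simp_all⟩
    rw [Nat.card_of_subsingleton (1 : L ≃ₐ[F] L)] at hG
    norm_num at hG
  have hs3' : s ^ 3 = 1 := by rw [← hG, pow_card_eq_one']
  have hs2 : s ≠ s * s := fun h => hs1 (left_eq_mul.1 h)
  have hs12 : (1 : L ≃ₐ[F] L) ≠ s * s := fun h => hs1 (by
    calc s = s * (s * s) := by rw [← h, mul_one]
      _ = s ^ 3 := by rw [pow_succ, pow_two, mul_assoc]
      _ = 1 := hs3')
  have huniv : (Finset.univ : Finset (L ≃ₐ[F] L)) = {1, s, s * s} := by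
    refine (Finset.eq_of_subset_of_card_le (Finset.subset_univ _) (le_of_eq ?_)).symm
    rw [Finset.card_univ, ← Nat.card_eq_fintype_card, hG,
      Finset.card_insert_of_notMem (by simp [Ne.symm hs1, hs12]), Finset.card_pair hs2]
  have hN : x * (s x * s (s x)) = 1 := by
    have h := Algebra.norm_eq_prod_automorphisms F x
    rw [hx, map_one, huniv, Finset.prod_insert (by simp [Ne.symm hs1, hs12]),
      Finset.prod_pair hs2] at h
    simpa using h.symm
  obtain ⟨z, hz⟩ : ∃ z : L, z + x * s z + x * s x * s (s z) ≠ 0 := by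
    by_contra h
    push Not at h
    let f : Fin 3 → (L →* L) :=
      ![((1 : L ≃ₐ[F] L) : L →* L), ((s : L ≃ₐ[F] L) : L →* L), ((s * s : L ≃ₐ[F] L) : L →* L)]
    have hinj : ∀ g g' : L ≃ₐ[F] L, (g : L →* L) = (g' : L →* L) → g = g' := fun g g' h =>
      AlgEquiv.ext fun y => DFunLike.congr_fun h y
    have hf : Function.Injective f := by
      intro i k hik
      fin_cases i <;> fin_cases k <;> simp only [f, Matrix.cons_val, Fin.isValue] at hik ⊢ <;>
        first
        | rfl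
        | exact absurd (hinj _ _ hik) (Ne.symm hs1)
        | exact absurd (hinj _ _ hik) hs1
        | exact absurd (hinj _ _ hik) hs12
        | exact absurd (hinj _ _ hik) (Ne.symm hs12)
        | exact absurd (hinj _ _ hik) hs2
        | exact absurd (hinj _ _ hik) (Ne.symm hs2)
    have li := Fintype.linearIndependent_iff.1 ((linearIndependent_monoidHom L L).comp f hf)
      ![1, x, x * s x] (funext fun y => by
        simpa [f, Fin.sum_univ_three, Function.comp] using h y)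
    simpa using li 0
  have hy0 : z + x * s z + x * s x * s (s z) ≠ 0 := hz
  have hsy : x * s (z + x * s z + x * s x * s (s z)) = z + x * s z + x * s x * s (s z) := by
    have h3z : s (s (s z)) = z := by
      rw [← AlgEquiv.mul_apply, ← AlgEquiv.mul_apply, show s * s * s = s ^ 3 by rw [pow_succ, pow_two], hs3',
        AlgEquiv.one_apply]
    rw [map_add, map_add, map_mul, map_mul, map_mul, h3z]
    linear_combination z * hN
  generalize z + x * s z + x * s x * s (s z) = y at hy0 hsy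
  obtain ⟨⟨w, m⟩, hw⟩ := IsLocalization.surj (Algebra.algebraMapSubmonoid (𝓞 L) ℤ⁰) y
  obtain ⟨k, hk, hkm⟩ := m.2
  have hm : ((m : 𝓞 L) : L) = (k : L) := by rw [← hkm]; simp
  have hk0 : (k : L) ≠ 0 := Int.cast_ne_zero.2 (nonZeroDivisors.ne_zero hk)
  change y * ((m : 𝓞 L) : L) = (w : L) at hw
  rw [hm] at hw
  refine ⟨w, fun h => ?_, ?_⟩
  · subst h
    exact mul_ne_zero hy0 hk0 (by simpa using hw)
  · rw [← hw, map_mul, map_intCast, ← mul_assoc, hsy]

/-- An everywhere unramified cyclic cubic extension of a number field with units `±1` gives a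
nontrivial cubic class character killing the degree one norms. -/
theorem exists_classChar {F L : Type*} [Field F] [NumberField F] [Field L] [NumberField L]
    [Algebra F L] [IsGalois F L] (h3 : Module.finrank F L = 3)
    (hunr : ∀ P : Ideal (𝓞 L), P.IsPrime → P ≠ ⊥ →
      ¬ (P.under (𝓞 F)).map (algebraMap (𝓞 F) (𝓞 L)) ≤ P ^ 2)
    (hu : ∀ u : (𝓞 F)ˣ, u = 1 ∨ u = -1) (hr : 0 < NumberField.Units.rank L) :
    ∃ χ : ClassGroup (𝓞 F) →* Multiplicative (ZMod 3), χ ≠ 1 ∧
      ∀ P : Ideal (𝓞 L), P.IsPrime → P ≠ ⊥ →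
        Ideal.absNorm P = Ideal.absNorm (P.under (𝓞 F)) →
          classOf χ (P.under (𝓞 F)) = 1 := by
  classical
  haveI : FiniteDimensional F L := Module.finite_of_finrank_eq_succ h3
  have hG : Nat.card (L ≃ₐ[F] L) = 3 := (IsGalois.card_aut_eq_finrank F L).trans h3
  haveI : Fact (Nat.Prime 3) := ⟨Nat.prime_three⟩
  obtain ⟨s, hs1⟩ : ∃ s : L ≃ₐ[F] L, s ≠ 1 := by
    by_contra h
    push Not at h
    haveI : Subsingleton (L ≃ₐ[F] L) := ⟨fun a b => (h a).trans (h b).symm⟩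
    rw [Nat.card_of_subsingleton (1 : L ≃ₐ[F] L)] at hG
    norm_num at hG
  have hs : ∀ g, g ∈ Subgroup.zpowers s := fun g => mem_zpowers_of_prime_card hG hs1
  have hinvariant : ∀ A : Ideal (𝓞 L), s • A = A → ∀ g : L ≃ₐ[F] L, g • A = A := by
    intro A hA g
    have hst : s ∈ MulAction.stabilizer (L ≃ₐ[F] L) A := hA
    exact (Subgroup.zpowers_le.2 hst) (hs g)
  have hfin : Module.finrank (𝓞 F) (𝓞 L) = 3 :=
    (IsFractionRing.finrank_eq (𝓞 F) F (𝓞 L) L).symm.trans h3
  have hN : ∀ x : 𝓞 L, ((Algebra.intNorm (𝓞 F) (𝓞 L) x : 𝓞 F) : F) = Algebra.norm F (x : L) :=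
    fun x => Algebra.algebraMap_intNorm (A := 𝓞 F) (K := F) (L := L) (B := 𝓞 L) x
  have hneg : ∀ x : L, Algebra.norm F (-x) = - Algebra.norm F x := by
    intro x
    have h1 : Algebra.norm F (-1 : L) = -1 := by
      rw [show (-1 : L) = algebraMap F L (-1) by simp, Algebra.norm_algebraMap, h3]
      norm_num
    rw [show -x = (-1 : L) * x by ring, map_mul, h1, neg_one_mul]
  let N := classNormHom (F := F) (L := L)
  let j := ClassGroup.extendedHom (𝓞 F) (𝓞 L)
  have hfix : ∀ c, classSmulHom s c = c → c ∈ j.range := by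
    intro c hc
    obtain ⟨A, rfl⟩ := ClassGroup.mk0_surjective c
    change classSmul s (ClassGroup.mk0 A) = _ at hc
    rw [classSmul_mk0] at hc
    obtain ⟨a, b, ha, hb, hab⟩ := ClassGroup.mk0_eq_mk0_iff.1 hc
    haveI : SMulCommClass (L ≃ₐ[F] L) (𝓞 F) (𝓞 L) :=
      (inferInstance : IsGaloisGroup (L ≃ₐ[F] L) (𝓞 F) (𝓞 L)).commutes
    have h1 := congrArg (Ideal.relNorm (𝓞 F)) hab
    simp only [map_mul, Ideal.relNorm_smul] at h1
    have h2 := mul_right_cancel₀ (nonZeroDivisors.ne_zero (relNorm_mem_nonZero A.2)) h1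
    rw [Ideal.relNorm_singleton, Ideal.relNorm_singleton,
      Ideal.span_singleton_eq_span_singleton] at h2
    obtain ⟨u, hu'⟩ := h2
    have haL : (a : L) ≠ 0 := NumberField.RingOfIntegers.coe_ne_zero_iff.2 ha
    have hbL : (b : L) ≠ 0 := NumberField.RingOfIntegers.coe_ne_zero_iff.2 hb
    obtain ⟨a', hab', hsame, hx⟩ : ∃ a' : 𝓞 L,
        Ideal.span {a'} * (s • (A : Ideal (𝓞 L))) = Ideal.span {b} * (A : Ideal (𝓞 L)) ∧
          (a' : L) ≠ 0 ∧ Algebra.norm F ((b : L) / (a' : L)) = 1 := by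
      have hu'' : Algebra.norm F (b : L) = Algebra.norm F (a : L) * ((u : 𝓞 F) : F) := by
        rw [← hN, ← hN, ← hu']; simp
      have hn0 : Algebra.norm F (a : L) ≠ 0 := Algebra.norm_ne_zero_iff.2 haL
      rcases hu u with rfl | rfl
      · refine ⟨a, hab, haL, ?_⟩
        rw [div_eq_mul_inv, map_mul, Algebra.norm_inv, hu'']; simp [hn0]
      · refine ⟨-a, ?_, ?_, ?_⟩
        · rw [Ideal.span_singleton_neg]; exact hab
        · simpa using haL
        · have hc : ((-a : 𝓞 L) : L) = -(a : L) := by simp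
          rw [hc, div_eq_mul_inv, map_mul, Algebra.norm_inv, hneg, hu'']
          simp [hn0]
    obtain ⟨w, hw0, hw⟩ := exists_integral_div h3 hs hx
    have hw' : b * (s • w) = a' * w := by
      apply NumberField.RingOfIntegers.ext
      push_cast [coe_smul_ringOfIntegers]
      field_simp at hw
      linear_combination hw
    have hb' : Ideal.span {b} ≠ 0 := by simpa using hb
    have hAw : s • (Ideal.span {w} * (A : Ideal (𝓞 L))) = Ideal.span {w} * A := by
      apply mul_left_cancel₀ hb'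
      rw [smul_mul', smul_ideal_span, ← mul_assoc, Ideal.span_singleton_mul_span_singleton, hw',
        ← Ideal.span_singleton_mul_span_singleton, mul_comm (Ideal.span {a'}), mul_assoc, hab',
        mul_left_comm]
    have hwA : Ideal.span {w} * (A : Ideal (𝓞 L)) ≠ ⊥ :=
      mul_ne_zero (by simpa using hw0) (nonZeroDivisors.ne_zero A.2)
    obtain ⟨I, hI⟩ := exists_map_eq_of_invariant hunr _ hwA (hinvariant _ hAw)
    have hI0 : I ∈ (Ideal (𝓞 F))⁰ := mem_nonZeroDivisors_of_ne_zero fun h =>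
      hwA (by rw [← hI, h, Ideal.zero_eq_bot, Ideal.map_bot])
    refine ⟨ClassGroup.mk0 ⟨I, hI0⟩, ?_⟩
    change ClassGroup.extendedHom (𝓞 F) (𝓞 L) _ = _
    rw [ClassGroup.extendedHom_mk0]
    refine ClassGroup.mk0_eq_mk0_iff.2 ⟨1, w, one_ne_zero, hw0, ?_⟩
    rw [Ideal.span_singleton_one, Ideal.top_mul]
    exact hI
  have hker : j.ker ≠ ⊥ := by
    intro hker
    have hinj : Function.Injective j := (MonoidHom.ker_eq_bot_iff j).1 hker
    have hunit : ∀ v : (𝓞 L)ˣ, ∃ (e : 𝓞 L) (z : (𝓞 L)ˣ),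
        (e = 1 ∨ e = -1) ∧ (v : 𝓞 L) * (s • (z : 𝓞 L)) = e * z := by
      intro v
      have hv' : IsUnit (Algebra.intNorm (𝓞 F) (𝓞 L) (v : 𝓞 L)) := v.isUnit.map _
      obtain ⟨n, hn⟩ := hv'
      obtain ⟨e, he, hnorm⟩ : ∃ e : 𝓞 L, (e = 1 ∨ e = -1) ∧
          Algebra.norm F ((e * v : 𝓞 L) : L) = 1 := by
        have hn' := hN (v : 𝓞 L)
        rw [← hn] at hn'
        rcases hu n with rfl | rfl
        · exact ⟨1, Or.inl rfl, by rw [one_mul, ← hn']; simp⟩
        · refine ⟨-1, Or.inr rfl, ?_⟩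
          have hc : (((-1) * (v : 𝓞 L) : 𝓞 L) : L) = -((v : 𝓞 L) : L) := by simp
          rw [hc, hneg, ← hn']
          simp
      obtain ⟨w, hw0, hw⟩ := exists_integral_div h3 hs hnorm
      have hw' : e * v * (s • w) = w := by
        apply NumberField.RingOfIntegers.ext
        push_cast [coe_smul_ringOfIntegers] at hw ⊢
        linear_combination hw
      have heu : IsUnit (e * v) := by
        rcases he with rfl | rfl
        · simpa using v.isUnit
        · simpa using v.isUnit.neg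
      have hsw : s • Ideal.span {w} = Ideal.span {w} := by
        conv_rhs => rw [← hw']
        rw [smul_ideal_span, Ideal.span_singleton_mul_left_unit heu]
      have hw0' : Ideal.span {w} ≠ ⊥ := by simpa using hw0
      obtain ⟨I, hI⟩ := exists_map_eq_of_invariant hunr _ hw0' (hinvariant _ hsw)
      have hI0 : I ∈ (Ideal (𝓞 F))⁰ := mem_nonZeroDivisors_of_ne_zero fun h =>
        hw0' (by rw [← hI, h, Ideal.zero_eq_bot, Ideal.map_bot])
      have hprin : ClassGroup.mk0 ⟨I, hI0⟩ = 1 := hinj (by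
        rw [map_one]
        change ClassGroup.extendedHom (𝓞 F) (𝓞 L) _ = _
        rw [ClassGroup.extendedHom_mk0]
        exact (ClassGroup.mk0_eq_one_iff _).2 ⟨⟨w, hI⟩⟩)
      obtain ⟨⟨c, hc⟩⟩ := (ClassGroup.mk0_eq_one_iff hI0).1 hprin
      change I = Ideal.span {c} at hc
      rw [hc, Ideal.map_span, Set.image_singleton,
        Ideal.span_singleton_eq_span_singleton] at hI
      obtain ⟨z, hz⟩ := hI
      have hc0 : algebraMap (𝓞 F) (𝓞 L) c ≠ 0 := fun h => hw0 (by rw [← hz, h, zero_mul])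
      refine ⟨e, z, he, ?_⟩
      have h := hw'
      rw [← hz, smul_mul', smul_algebraMap] at h
      have h' : e * v * (s • (z : 𝓞 L)) = z :=
        mul_left_cancel₀ hc0 (by linear_combination h)
      have he2 : e * e = 1 := by rcases he with rfl | rfl <;> ring
      linear_combination e * h' - (v : 𝓞 L) * (s • (z : 𝓞 L)) * he2
    obtain ⟨u₀, hu₀⟩ := not_all_cubes L hr
    obtain ⟨e₁, v, he₁, h1⟩ := hunit u₀
    obtain ⟨e₂, w, he₂, h2⟩ := hunit v
    have hse : s • e₂ = e₂ := by rcases he₂ with rfl | rfl <;> simp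
    have h2' : (s • (v : 𝓞 L)) * (s • s • (w : 𝓞 L)) = e₂ * (s • (w : 𝓞 L)) := by
      rw [← smul_mul', h2, smul_mul', hse]
    have he₂2 : e₂ * e₂ = 1 := by rcases he₂ with rfl | rfl <;> ring
    have hu1 : (u₀ : 𝓞 L) * (s • (w : 𝓞 L)) ^ 2 = e₁ * (w * (s • s • (w : 𝓞 L))) := by
      linear_combination (e₂ * (s • (w : 𝓞 L)) * (s • s • (w : 𝓞 L))) * h1 +
        (e₁ * e₂ * (s • s • (w : 𝓞 L))) * h2 - (u₀ * (s • (w : 𝓞 L)) * e₂) * h2' -
        (u₀ * (s • (w : 𝓞 L)) ^ 2 - e₁ * w * (s • s • (w : 𝓞 L))) * he₂2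
    have hW : IsUnit ((w : 𝓞 L) * (s • (w : 𝓞 L)) * (s • s • (w : 𝓞 L))) :=
      (w.isUnit.mul ((w.isUnit).map (MulSemiringAction.toRingHom _ (𝓞 L) s))).mul
        (((w.isUnit).map (MulSemiringAction.toRingHom _ (𝓞 L) s)).map
          (MulSemiringAction.toRingHom _ (𝓞 L) s))
    obtain ⟨t, ht, hWt⟩ : ∃ t : 𝓞 L, (t = 1 ∨ t = -1) ∧
        (w : 𝓞 L) * (s • (w : 𝓞 L)) * (s • s • (w : 𝓞 L)) = t := by
      have hs3 : s • s • s • ((w : 𝓞 L)) = w := by
        rw [smul_smul, smul_smul, show s * s * s = s ^ 3 by rw [pow_succ, pow_two], ← hG, pow_card_eq_one',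
          one_smul]
      have hfixW : ∀ g : L ≃ₐ[F] L, g • ((w : 𝓞 L) * (s • (w : 𝓞 L)) * (s • s • (w : 𝓞 L))) =
          (w : 𝓞 L) * (s • (w : 𝓞 L)) * (s • s • (w : 𝓞 L)) := by
        intro g
        have hst : s ∈ MulAction.stabilizer (L ≃ₐ[F] L)
            ((w : 𝓞 L) * (s • (w : 𝓞 L)) * (s • s • (w : 𝓞 L))) := by
          rw [MulAction.mem_stabilizer_iff, smul_mul', smul_mul', hs3]
          ring
        exact (Subgroup.zpowers_le.2 hst) (hs g)
      obtain ⟨r, hr'⟩ := Algebra.IsInvariant.isInvariant (A := 𝓞 F) (G := L ≃ₐ[F] L) _ hfixW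
      rw [← hr'] at hW
      obtain ⟨r', hr''⟩ : IsUnit r := by
        obtain ⟨y, hy⟩ := hW
        have hy' : IsUnit (Algebra.intNorm (𝓞 F) (𝓞 L) (y : 𝓞 L)) := y.isUnit.map _
        have hn : Algebra.intNorm (𝓞 F) (𝓞 L) (y : 𝓞 L) = r ^ 3 := by
          apply NumberField.RingOfIntegers.ext
          rw [hN, hy]
          change Algebra.norm F (algebraMap F L (r : F)) = _
          rw [Algebra.norm_algebraMap, h3]
          simp
        rw [hn] at hy'
        exact (isUnit_pow_iff (by norm_num)).1 hy'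
      rcases hu r' with rfl | rfl
      · exact ⟨1, Or.inl rfl, by rw [← hr', ← hr'', Units.val_one, map_one]⟩
      · exact ⟨-1, Or.inr rfl, by rw [← hr', ← hr'', Units.val_neg, Units.val_one, map_neg,
          map_one]⟩
    have hswu : IsUnit (s • (w : 𝓞 L)) :=
      (w.isUnit).map (MulSemiringAction.toRingHom _ (𝓞 L) s)
    obtain ⟨y, hy⟩ := hswu
    rw [← hy] at hu1 hWt
    have hu2 : (u₀ : 𝓞 L) = e₁ * t * ((y⁻¹ : (𝓞 L)ˣ) : 𝓞 L) ^ 3 := by
      have hyy : (y : 𝓞 L) * ((y⁻¹ : (𝓞 L)ˣ) : 𝓞 L) = 1 := y.mul_inv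
      linear_combination (y : 𝓞 L) * ((y⁻¹ : (𝓞 L)ˣ) : 𝓞 L) ^ 3 * hu1 +
        e₁ * ((y⁻¹ : (𝓞 L)ˣ) : 𝓞 L) ^ 3 * hWt -
        (u₀ : 𝓞 L) * (((y : 𝓞 L) * ((y⁻¹ : (𝓞 L)ˣ) : 𝓞 L)) ^ 2 +
          (y : 𝓞 L) * ((y⁻¹ : (𝓞 L)ˣ) : 𝓞 L) + 1) * hyy
    rcases he₁ with rfl | rfl <;> rcases ht with rfl | rfl
    · exact hu₀ y⁻¹ (Units.ext (by rw [hu2, Units.val_pow_eq_pow_val]; ring))
    · exact hu₀ (-y⁻¹) (Units.ext (by rw [hu2, Units.val_pow_eq_pow_val, Units.val_neg]; ring))
    · exact hu₀ (-y⁻¹) (Units.ext (by rw [hu2, Units.val_pow_eq_pow_val, Units.val_neg]; ring))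
    · exact hu₀ y⁻¹ (Units.ext (by rw [hu2, Units.val_pow_eq_pow_val]; ring))
  have hrange : N.range ≠ ⊤ :=
    range_ne_top_of_card (classSmulHom s) N j (classNormHom_classSmulHom s) hfix hker
  obtain ⟨χ, hχ, hχN⟩ := exists_cubic_char N.range hrange
    fun c => ⟨j c, by rw [← hfin]; exact classNormHom_extendedHom c⟩
  refine ⟨χ, hχ, fun P hP hP0 hnorm => ?_⟩
  haveI := hP
  haveI : P.IsMaximal := hP.isMaximal hP0
  have hp0 : P.under (𝓞 F) ≠ ⊥ := mt Ideal.eq_bot_of_comap_eq_bot hP0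
  haveI : (P.under (𝓞 F)).IsMaximal := Ideal.IsPrime.isMaximal inferInstance hp0
  rw [classOf, dif_pos (mem_nonZeroDivisors_of_ne_zero hp0)]
  apply hχN
  refine ⟨ClassGroup.mk0 ⟨P, mem_nonZeroDivisors_of_ne_zero hP0⟩, ?_⟩
  change classNorm _ = _
  rw [classNorm_mk0]
  congr 2
  obtain ⟨k, hk⟩ := Ideal.exists_relNorm_eq_pow_of_isPrime P (P.under (𝓞 F))
  have h := congrArg Ideal.absNorm hk
  rw [Ideal.absNorm_relNorm, map_pow, hnorm] at h
  have h1 : 1 < Ideal.absNorm (P.under (𝓞 F)) := by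
    have := Ideal.absNorm_eq_zero_iff.not.2 hp0
    have : Ideal.absNorm (P.under (𝓞 F)) ≠ 1 := fun h =>
      Ideal.IsPrime.ne_top inferInstance (Ideal.absNorm_eq_one_iff.1 h)
    omega
  have hk1 : k = 1 := by
    refine ((Nat.pow_right_injective h1) ?_).symm
    simpa using h
  rw [hk, hk1, pow_one]

end FLTAgent.TH2

end
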