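import Fermat.Agent.TH2.CFInvariant

/-!
Area TH2, parcel CF: the action and the norm on class groups, and a count.
-/

set_option autoImplicit false

noncomputable section

namespace FLTAgent.TH2

open scoped nonZeroDivisors NumberField Pointwise

variable {F L : Type*} [Field F] [NumberField F] [Field L] [NumberField L] [Algebra F L]

/-- the action of an automorphism on classes -/
def classSmul (s : L ≃ₐ[F] L) (c : ClassGroup (𝓞 L)) : ClassGroup (𝓞 L) :=
  ClassGroup.mk0 ⟨s • ((Function.surjInv ClassGroup.mk0_surjective c : (Ideal (𝓞 L))⁰) :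
    Ideal (𝓞 L)), smul_mem_nonZero s (Subtype.coe_prop _)⟩

theorem classSmul_mk0 (s : L ≃ₐ[F] L) (A : (Ideal (𝓞 L))⁰) :
    classSmul s (ClassGroup.mk0 A) = ClassGroup.mk0 ⟨s • (A : Ideal (𝓞 L)),
      smul_mem_nonZero s A.2⟩ := by
  unfold classSmul
  obtain ⟨x, y, hx, hy, h⟩ := ClassGroup.mk0_eq_mk0_iff.1
    (Function.surjInv_eq ClassGroup.mk0_surjective (ClassGroup.mk0 A))
  refine ClassGroup.mk0_eq_mk0_iff.2 ⟨s • x, s • y, (smul_ne_zero_iff_ne s).2 hx,
    (smul_ne_zero_iff_ne s).2 hy, ?_⟩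
  rw [← smul_ideal_span, ← smul_ideal_span, ← smul_mul', h, smul_mul']

/-- the action of an automorphism on classes, as a homomorphism -/
def classSmulHom (s : L ≃ₐ[F] L) : ClassGroup (𝓞 L) →* ClassGroup (𝓞 L) :=
  MonoidHom.mk' (classSmul s) fun a b => by
    obtain ⟨A, rfl⟩ := ClassGroup.mk0_surjective a
    obtain ⟨B, rfl⟩ := ClassGroup.mk0_surjective b
    rw [← map_mul, classSmul_mk0, classSmul_mk0, classSmul_mk0, ← map_mul]
    exact congrArg _ (Subtype.ext (smul_mul' s (A : Ideal (𝓞 L)) (B : Ideal (𝓞 L))))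

theorem relNorm_mem_nonZero {A : Ideal (𝓞 L)} (hA : A ∈ (Ideal (𝓞 L))⁰) :
    Ideal.relNorm (𝓞 F) A ∈ (Ideal (𝓞 F))⁰ :=
  mem_nonZeroDivisors_of_ne_zero fun h =>
    nonZeroDivisors.ne_zero hA (Ideal.relNorm_eq_bot_iff.1 h)

/-- the norm of a class -/
def classNorm (c : ClassGroup (𝓞 L)) : ClassGroup (𝓞 F) :=
  ClassGroup.mk0 ⟨Ideal.relNorm (𝓞 F)
    ((Function.surjInv ClassGroup.mk0_surjective c : (Ideal (𝓞 L))⁰) : Ideal (𝓞 L)),
    relNorm_mem_nonZero (Subtype.coe_prop _)⟩

theorem classNorm_mk0 (A : (Ideal (𝓞 L))⁰) :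
    classNorm (F := F) (ClassGroup.mk0 A) = ClassGroup.mk0
      ⟨Ideal.relNorm (𝓞 F) (A : Ideal (𝓞 L)), relNorm_mem_nonZero A.2⟩ := by
  unfold classNorm
  obtain ⟨x, y, hx, hy, h⟩ := ClassGroup.mk0_eq_mk0_iff.1
    (Function.surjInv_eq ClassGroup.mk0_surjective (ClassGroup.mk0 A))
  refine ClassGroup.mk0_eq_mk0_iff.2
    ⟨Algebra.intNorm (𝓞 F) (𝓞 L) x, Algebra.intNorm (𝓞 F) (𝓞 L) y, ?_, ?_, ?_⟩
  · exact Algebra.intNorm_ne_zero.2 hx
  · exact Algebra.intNorm_ne_zero.2 hy
  · rw [← Ideal.relNorm_singleton, ← Ideal.relNorm_singleton, ← map_mul, h, map_mul]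

/-- the norm of a class, as a homomorphism -/
def classNormHom : ClassGroup (𝓞 L) →* ClassGroup (𝓞 F) :=
  MonoidHom.mk' classNorm fun a b => by
    obtain ⟨A, rfl⟩ := ClassGroup.mk0_surjective a
    obtain ⟨B, rfl⟩ := ClassGroup.mk0_surjective b
    rw [← map_mul, classNorm_mk0, classNorm_mk0, classNorm_mk0, ← map_mul]
    exact congrArg _ (Subtype.ext (map_mul _ _ _))

theorem classNormHom_classSmulHom [IsGalois F L] (s : L ≃ₐ[F] L) (c : ClassGroup (𝓞 L)) :
    classNormHom (F := F) (classSmulHom s c) = classNormHom c := by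
  obtain ⟨A, rfl⟩ := ClassGroup.mk0_surjective c
  show classNorm (classSmul s _) = classNorm _
  rw [classSmul_mk0, classNorm_mk0, classNorm_mk0]
  haveI : SMulCommClass (L ≃ₐ[F] L) (𝓞 F) (𝓞 L) :=
    (inferInstance : IsGaloisGroup (L ≃ₐ[F] L) (𝓞 F) (𝓞 L)).commutes
  exact congrArg _ (Subtype.ext (Ideal.relNorm_smul (𝓞 F) s (A : Ideal (𝓞 L))))

theorem classNormHom_extendedHom (c : ClassGroup (𝓞 F)) :
    classNormHom (L := L) (ClassGroup.extendedHom (𝓞 F) (𝓞 L) c) =
      c ^ Module.finrank (𝓞 F) (𝓞 L) := by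
  obtain ⟨I, rfl⟩ := ClassGroup.mk0_surjective c
  show classNorm _ = _
  rw [ClassGroup.extendedHom_mk0, classNorm_mk0, ← map_pow]
  exact congrArg _ (Subtype.ext (by simpa using Ideal.relNorm_algebraMap (𝓞 L) (I : Ideal (𝓞 F))))

/-- the count: few fixed points give a proper norm image -/
theorem range_ne_top_of_card {A B : Type*} [CommGroup A] [Finite A] [CommGroup B] [Finite B]
    (s : A →* A) (N : A →* B) (j : B →* A) (hN : ∀ a, N (s a) = N a)
    (hj : ∀ a, s a = a → a ∈ j.range) (hker : j.ker ≠ ⊥) : N.range ≠ ⊤ := by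
  let ψ : A →* A := s / MonoidHom.id A
  have hψ : ψ.range ≤ N.ker := by
    rintro _ ⟨a, rfl⟩
    simp [ψ, MonoidHom.mem_ker, hN]
  have hker' : ψ.ker ≤ j.range := fun a ha => hj a (by simpa [ψ, MonoidHom.mem_ker, div_eq_one] using ha)
  intro htop
  have hB : Nat.card N.range = Nat.card B := by rw [htop, Subgroup.card_top]
  have e1 := Subgroup.card_eq_card_quotient_mul_card_subgroup N.ker
  rw [Nat.card_congr (QuotientGroup.quotientKerEquivRange N).toEquiv, hB] at e1
  have e2 := Subgroup.card_eq_card_quotient_mul_card_subgroup ψ.ker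
  rw [Nat.card_congr (QuotientGroup.quotientKerEquivRange ψ).toEquiv] at e2
  have e3 := Subgroup.card_eq_card_quotient_mul_card_subgroup j.ker
  rw [Nat.card_congr (QuotientGroup.quotientKerEquivRange j).toEquiv] at e3
  have l1 := Subgroup.card_le_of_le hψ
  have l2 := Subgroup.card_le_of_le hker'
  have l3 := (Subgroup.one_lt_card_iff_ne_bot _).2 hker
  have p1 : 0 < Nat.card N.ker := Nat.card_pos
  have p2 : 0 < Nat.card j.range := Nat.card_pos
  nlinarith [Nat.mul_le_mul l1 l2]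

/-- a proper subgroup containing all cubes is killed by a nontrivial cubic character -/
theorem exists_cubic_char {B : Type*} [CommGroup B] (H : Subgroup B) (hH : H ≠ ⊤)
    (h3 : ∀ b : B, b ^ 3 ∈ H) : ∃ χ : B →* Multiplicative (ZMod 3), χ ≠ 1 ∧ ∀ b ∈ H, χ b = 1 := by
  obtain ⟨b, hb⟩ : ∃ b, b ∉ H := by
    by_contra h
    push Not at h
    exact hH (eq_top_iff.2 fun x _ => h x)
  letI : Module (ZMod 3) (Additive (B ⧸ H)) := AddCommGroup.zmodModule fun x => by
    obtain ⟨y, hy⟩ := QuotientGroup.mk'_surjective H (Additive.toMul x)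
    apply Additive.toMul.injective
    rw [toMul_nsmul, ← hy, ← map_pow]
    exact (QuotientGroup.eq_one_iff _).2 (h3 y)
  haveI : Fact (Nat.Prime 3) := ⟨Nat.prime_three⟩
  let v : Additive (B ⧸ H) := Additive.ofMul (QuotientGroup.mk' H b)
  have hv : v ≠ 0 := fun h => hb ((QuotientGroup.eq_one_iff b).1 (congrArg Additive.toMul h))
  obtain ⟨φ, hφ⟩ : ∃ φ : Module.Dual (ZMod 3) (Additive (B ⧸ H)), φ v ≠ 0 := by
    by_contra h
    push Not at h
    exact hv ((Module.forall_dual_apply_eq_zero_iff (ZMod 3) v).1 h)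
  let χ' : B ⧸ H →* Multiplicative (ZMod 3) := AddMonoidHom.toMultiplicativeRight φ.toAddMonoidHom
  refine ⟨χ'.comp (QuotientGroup.mk' H), fun h => hφ ?_, fun x hx => ?_⟩
  · have := DFunLike.congr_fun h b
    exact congrArg Multiplicative.toAdd this
  · show χ' (QuotientGroup.mk' H x) = 1
    rw [QuotientGroup.mk'_apply, (QuotientGroup.eq_one_iff x).2 hx, map_one]

/-- a finitely generated free abelian group of positive rank is not `3`-divisible -/
theorem not_all_cubes (L : Type*) [Field L] [NumberField L] (hr : 0 < NumberField.Units.rank L) :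
    ∃ u : (𝓞 L)ˣ, ∀ z : (𝓞 L)ˣ, z ^ 3 ≠ u := by
  classical
  by_contra h
  push Not at h
  let i : Fin (NumberField.Units.rank L) := ⟨0, hr⟩
  obtain ⟨z, hz⟩ := h (NumberField.Units.fundSystem L i)
  obtain ⟨⟨ζ, e⟩, he, -⟩ := NumberField.Units.exist_unique_eq_mul_prod L z
  obtain ⟨w, -, huniq⟩ :=
    NumberField.Units.exist_unique_eq_mul_prod L (NumberField.Units.fundSystem L i)
  have h1 := huniq (ζ ^ 3, fun k => 3 * e k) (by
    simp only at he ⊢
    rw [← hz, he, mul_pow, ← Finset.prod_pow, SubmonoidClass.coe_pow]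
    congr 1
    exact Finset.prod_congr rfl fun k _ => by
      rw [← zpow_natCast, ← zpow_mul, mul_comm]; norm_num)
  have h2 := huniq (1, fun k => if k = i then 1 else 0) (by
    simp only [OneMemClass.coe_one, one_mul]
    rw [Finset.prod_eq_single i (fun k _ hk => by simp [hk])
      (fun h => absurd (Finset.mem_univ i) h)]
    simp)
  have h3 := congrFun (congrArg Prod.snd (h1.trans h2.symm)) i
  replace h3 : 3 * e i = 1 := by simpa using h3
  omega

end FLTAgent.TH2

end
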