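import Fermat.Agent.TH2.Defs

/-!
Area TH2, parcel CF: invariant ideals and invariant classes of an unramified cyclic extension.
-/

set_option autoImplicit false

noncomputable section

namespace FLTAgent.TH2

open scoped nonZeroDivisors NumberField Pointwise

variable {F L : Type*} [Field F] [NumberField F] [Field L] [NumberField L] [Algebra F L]

theorem smul_ideal_span (s : L ≃ₐ[F] L) (a : 𝓞 L) :
    s • Ideal.span {a} = Ideal.span {s • a} := by
  rw [Ideal.pointwise_smul_def, Ideal.map_span, Set.image_singleton]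
  rfl

theorem smul_mem_nonZero (s : L ≃ₐ[F] L) {A : Ideal (𝓞 L)} (hA : A ∈ (Ideal (𝓞 L))⁰) :
    s • A ∈ (Ideal (𝓞 L))⁰ := by
  refine mem_nonZeroDivisors_of_ne_zero fun h => nonZeroDivisors.ne_zero hA ?_
  rw [← inv_smul_smul s A, h, smul_zero]

/-- in an everywhere unramified Galois extension an invariant ideal is an extended ideal -/
theorem exists_map_eq_of_invariant [IsGalois F L]
    (hunr : ∀ P : Ideal (𝓞 L), P.IsPrime → P ≠ ⊥ →
      ¬ (P.under (𝓞 F)).map (algebraMap (𝓞 F) (𝓞 L)) ≤ P ^ 2)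
    (A : Ideal (𝓞 L)) (hA : A ≠ ⊥) (hinv : ∀ s : L ≃ₐ[F] L, s • A = A) :
    ∃ I : Ideal (𝓞 F), I.map (algebraMap (𝓞 F) (𝓞 L)) = A := by
  induction hn : Ideal.absNorm A using Nat.strong_induction_on generalizing A with
  | _ n ih =>
  rcases eq_or_ne A ⊤ with rfl | htop
  · exact ⟨⊤, Ideal.map_top _⟩
  obtain ⟨P, hP, hAP⟩ := Ideal.exists_le_maximal A htop
  set p := P.under (𝓞 F) with hp
  have hP0 : P ≠ ⊥ := fun h => hA (le_bot_iff.1 (h ▸ hAP))
  have hp0 : p ≠ ⊥ := mt Ideal.eq_bot_of_comap_eq_bot hP0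
  set B := p.map (algebraMap (𝓞 F) (𝓞 L)) with hB
  have hB0 : B ≠ ⊥ :=
    (Ideal.map_eq_bot_iff_of_injective (FaithfulSMul.algebraMap_injective _ _)).not.2 hp0
  haveI : p.IsMaximal := Ideal.IsPrime.isMaximal inferInstance hp0
  have key : ∀ Q : Ideal (𝓞 L), Prime Q → Q ∣ B → Q.under (𝓞 F) = p ∧ A ≤ Q := by
    intro Q hQ hQB
    haveI := Ideal.isPrime_of_prime hQ
    have hu : Q.under (𝓞 F) = p :=
      ((‹p.IsMaximal›).eq_of_le (Ideal.IsPrime.ne_top inferInstance)
        (Ideal.map_le_iff_le_comap.1 (Ideal.le_of_dvd hQB))).symm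
    obtain ⟨g, hg⟩ := Algebra.IsInvariant.exists_smul_of_under_eq
      (𝓞 F) (𝓞 L) (L ≃ₐ[F] L) P Q (hp.symm.trans hu.symm)
    refine ⟨hu, ?_⟩
    rw [hg, ← hinv g]
    rw [Ideal.pointwise_smul_def, Ideal.pointwise_smul_def]
    exact Ideal.map_mono hAP
  have hsq : ∀ Q : Ideal (𝓞 L), Prime Q → ¬ Q * Q ∣ B := fun Q hQ h => by
    have hu := (key Q hQ ((dvd_mul_right Q Q).trans h)).1
    exact hunr Q (Ideal.isPrime_of_prime hQ) hQ.ne_zero
      (by rw [hu, sq]; exact Ideal.le_of_dvd h)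
  have hBsf : Squarefree B :=
    (squarefree_iff_no_irreducibles hB0).2 fun Q hQ => hsq Q hQ.prime
  have hdiv : B ∣ A := by
    refine hBsf.isRadical (UniqueFactorizationMonoid.normalizedFactors B).card A ?_
    conv_lhs => rw [← Ideal.prod_normalizedFactors_eq_self hB0]
    rw [← Multiset.prod_replicate, ← Multiset.map_const']
    conv_lhs => rw [← Multiset.map_id (UniqueFactorizationMonoid.normalizedFactors B)]
    refine Multiset.prod_dvd_prod_of_dvd (fun x => x) (fun _ => A) fun Q hQ => ?_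
    exact Ideal.dvd_iff_le.2 (key Q (UniqueFactorizationMonoid.prime_of_normalized_factor Q hQ)
      (UniqueFactorizationMonoid.dvd_of_mem_normalizedFactors hQ)).2
  obtain ⟨A', hA'⟩ := hdiv
  have hA'0 : A' ≠ ⊥ := fun h => hA (by rw [hA', h, Ideal.mul_bot])
  have hinvB : ∀ s : L ≃ₐ[F] L, s • B = B := fun s => by
    rw [hB, Ideal.pointwise_smul_def, Ideal.map_map]
    congr 1
    exact RingHom.ext fun x => smul_algebraMap s x
  have hlt : Ideal.absNorm A' < n := by
    rw [← hn, hA', map_mul]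
    refine lt_mul_left (Nat.pos_of_ne_zero (Ideal.absNorm_eq_zero_iff.not.2 hA'0)) ?_
    have h0 : Ideal.absNorm B ≠ 0 := Ideal.absNorm_eq_zero_iff.not.2 hB0
    have h1 : Ideal.absNorm B ≠ 1 := fun h => hP.ne_top (top_le_iff.1
      ((Ideal.absNorm_eq_one_iff.1 h).ge.trans (Ideal.map_le_iff_le_comap.2 le_rfl)))
    omega
  obtain ⟨I, hI⟩ := ih _ hlt A' hA'0 (fun s => mul_left_cancel₀ hB0
    (by rw [← hA', ← hinvB s, ← smul_mul', ← hA', hinv s])) rfl
  exact ⟨p * I, by rw [Ideal.map_mul, hI, hA']⟩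

end FLTAgent.TH2

end
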