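import Fermat.Agent.TH2.CoeffIdeals

/-!
Area TH2, parcel COEFF: arithmetic of the theta coefficients.
-/

set_option autoImplicit false

noncomputable section

namespace FLTAgent.TH2

open scoped nonZeroDivisors NumberField

variable {F : Type*} [Field F] [NumberField F]

/-- every class has an integral ideal prime to a given number -/
theorem exists_mk0_eq_coprime (C : ClassGroup (𝓞 F)) {m : ℕ} (hm : m ≠ 0) :
    ∃ I : (Ideal (𝓞 F))⁰, ClassGroup.mk0 I = C ∧
      (Ideal.absNorm (I : Ideal (𝓞 F))).Coprime m := by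
  rcases eq_or_ne m 1 with rfl | hm1
  · obtain ⟨I, hI⟩ := ClassGroup.mk0_surjective C
    exact ⟨I, hI, Nat.coprime_one_right _⟩
  obtain ⟨⟨J, hJ⟩, hJC⟩ := ClassGroup.mk0_surjective C⁻¹
  have hJ0 : J ≠ 0 := nonZeroDivisors.ne_zero hJ
  have hm0 : (Ideal.span {(m : 𝓞 F)}) ≠ 0 := by simpa using hm
  obtain ⟨a, ha⟩ := IsDedekindDomain.exists_sup_span_eq
    (Ideal.mul_le_left : J * Ideal.span {(m : 𝓞 F)} ≤ J) (mul_ne_zero hJ0 hm0)
  obtain ⟨K, hK⟩ := Ideal.dvd_iff_le.2 (le_sup_right.trans ha.le : Ideal.span {a} ≤ J)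
  have htop : Ideal.span {(m : 𝓞 F)} ⊔ K = ⊤ := by
    have h : J * (Ideal.span {(m : 𝓞 F)} ⊔ K) = J * ⊤ := by
      rw [Ideal.mul_sup, Ideal.mul_top, ← hK]; exact ha
    exact mul_left_cancel₀ hJ0 h
  have hcop := coprime_absNorm_of_sup_eq_top htop
  have hK0 : Ideal.absNorm K ≠ 0 := fun h => hm1 (by simpa [h] using hcop)
  refine ⟨⟨K, mem_nonZero_of_absNorm hK0⟩, ?_, hcop⟩
  have h1 : ClassGroup.mk0 (⟨J, hJ⟩ * ⟨K, mem_nonZero_of_absNorm hK0⟩ : (Ideal (𝓞 F))⁰) = 1 :=
    (ClassGroup.mk0_eq_one_iff (mul_mem hJ (mem_nonZero_of_absNorm hK0))).2 ⟨⟨a, hK.symm⟩⟩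
  rw [map_mul, hJC] at h1
  exact (inv_mul_eq_one.1 h1).symm

variable (χ : ClassGroup (𝓞 F) →* Multiplicative (ZMod 3))

theorem classOf_mul {I J : Ideal (𝓞 F)} (hI : I ∈ (Ideal (𝓞 F))⁰) (hJ : J ∈ (Ideal (𝓞 F))⁰) :
    classOf χ (I * J) = classOf χ I * classOf χ J := by
  rw [classOf, classOf, classOf, dif_pos (mul_mem hI hJ), dif_pos hI, dif_pos hJ, ← map_mul,
    ← map_mul]
  rfl

theorem classOf_span (a : 𝓞 F) : classOf χ (Ideal.span {a}) = 1 := by
  rw [classOf]
  split_ifs with h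
  · rw [(ClassGroup.mk0_eq_one_iff h).2 ⟨⟨a, rfl⟩⟩, map_one]
  · rfl

theorem classOf_cofactor (h2 : Module.finrank ℚ F = 2) {I J : Ideal (𝓞 F)} {n : ℕ} (hn : n ≠ 0)
    (hI : Ideal.absNorm I = n) (h : I * J = Ideal.span {(n : 𝓞 F)}) :
    classOf χ J = (classOf χ I)⁻¹ := by
  have h1 := classOf_mul χ (mem_nonZero_of_absNorm (hI ▸ hn))
    (mem_nonZero_of_absNorm (absNorm_cofactor h2 hn hI h ▸ hn) : J ∈ _)
  rw [h, classOf_span] at h1
  exact eq_inv_of_mul_eq_one_right h1.symm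

/-- the classes `g` and `g⁻¹` occur equally often among the ideals of norm `n` -/
theorem card_classOf_inv (h2 : Module.finrank ℚ F = 2) (n : ℕ) (g : Multiplicative (ZMod 3)) :
    ((idealsOfNorm F n).filter fun I => classOf χ I = g).card =
      ((idealsOfNorm F n).filter fun I => classOf χ I = g⁻¹).card := by
  rcases eq_or_ne n 0 with rfl | hn
  · simp [idealsOfNorm]
  classical
  let f : Ideal (𝓞 F) → Ideal (𝓞 F) := fun I => (exists_mul_eq_span_absNorm I).choose
  have hf : ∀ I, Ideal.absNorm I = n → I * f I = Ideal.span {(n : 𝓞 F)} := fun I hI =>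
    hI ▸ (exists_mul_eq_span_absNorm I).choose_spec
  have hN : ∀ I, Ideal.absNorm I = n → Ideal.absNorm (f I) = n := fun I hI =>
    absNorm_cofactor h2 hn hI (hf I hI)
  have hff : ∀ I, Ideal.absNorm I = n → f (f I) = I := fun I hI => by
    refine mul_left_cancel₀ (nonZeroDivisors.ne_zero (mem_nonZero_of_absNorm (hN I hI ▸ hn))) ?_
    rw [hf _ (hN I hI), mul_comm, hf I hI]
  refine Finset.card_nbij' f f ?_ ?_ ?_ ?_ <;> intro I hI <;>
    simp only [Finset.coe_filter, Set.mem_ofPred_eq, mem_idealsOfNorm] at hI ⊢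
  · exact ⟨⟨hn, hN I hI.1.2⟩, by rw [classOf_cofactor χ h2 hn hI.1.2 (hf I hI.1.2), hI.2]⟩
  · exact ⟨⟨hn, hN I hI.1.2⟩,
      by rw [classOf_cofactor χ h2 hn hI.1.2 (hf I hI.1.2), hI.2, inv_inv]⟩
  · exact hff I hI.1.2
  · exact hff I hI.1.2

/-- a primitive cube root of unity -/
def cubeRootC : ℂ := Complex.exp (2 * Real.pi * Complex.I / 3)

theorem cubeRootC_spec : IsPrimitiveRoot cubeRootC 3 := by
  simpa [cubeRootC] using Complex.isPrimitiveRoot_exp 3 (by norm_num)

/-- the complex value of a class -/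
def classVal : Multiplicative (ZMod 3) →* ℂ :=
  (AddChar.zmodChar 3 cubeRootC_spec.pow_eq_one).toMonoidHom

theorem classVal_eq (k : ZMod 3) :
    classVal (Multiplicative.ofAdd k) = cubeRootC ^ k.val := rfl

/-- the weighted count of ideals of norm `n` -/
def classSum (n : ℕ) : ℂ := ∑ I ∈ idealsOfNorm F n, classVal (classOf χ I)

theorem classSum_eq (h2 : Module.finrank ℚ F = 2) (n : ℕ) :
    classSum χ n = (thetaCoeff χ n : ℂ) := by
  classical
  rw [classSum, ← Finset.sum_fiberwise_of_maps_to' (t := Finset.univ) (fun _ _ => Finset.mem_univ _)]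
  simp only [Finset.sum_const, nsmul_eq_mul]
  have hu : (Finset.univ : Finset (Multiplicative (ZMod 3))) =
      {1, Multiplicative.ofAdd 1, (Multiplicative.ofAdd 1)⁻¹} := by decide
  rw [hu, Finset.sum_insert (by decide), Finset.sum_insert (by decide), Finset.sum_singleton,
    map_one, ← card_classOf_inv χ h2 n (Multiplicative.ofAdd 1), classVal_eq,
    show ((Multiplicative.ofAdd (1 : ZMod 3))⁻¹) = Multiplicative.ofAdd 2 from rfl, classVal_eq,
    show (1 : ZMod 3).val = 1 from rfl, show (2 : ZMod 3).val = 2 from rfl, pow_one, thetaCoeff]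
  have h3 := cubeRootC_spec.geom_sum_eq_zero (by norm_num)
  simp only [Finset.sum_range_succ, Finset.sum_range_zero, pow_zero, pow_one, zero_add] at h3
  push_cast
  linear_combination
    (((idealsOfNorm F n).filter fun I => classOf χ I = Multiplicative.ofAdd 1).card : ℂ) * h3

theorem thetaCoeff_one : thetaCoeff χ 1 = 1 := by
  classical
  have h : idealsOfNorm F 1 = {⊤} := by
    ext I
    simp [mem_idealsOfNorm, Ideal.absNorm_eq_one_iff]
  have h1 : classOf χ ⊤ = 1 := by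
    rw [← Ideal.span_singleton_one, classOf_span]
  have hne : ¬ (classOf χ ⊤ = Multiplicative.ofAdd (1 : ZMod 3)) := by rw [h1]; decide
  rw [thetaCoeff, h, Finset.filter_singleton, Finset.filter_singleton, if_pos h1, if_neg hne]
  simp

/-- splitting data at a good prime with an ideal of norm `p` -/
theorem exists_split (h2 : Module.finrank ℚ F = 2) {p : ℕ} (hp : p.Prime)
    (hpD : ¬ (p : ℤ) ∣ NumberField.discr F) {P : Ideal (𝓞 F)} (hP : Ideal.absNorm P = p) :
    ∃ P' : Ideal (𝓞 F), Ideal.absNorm P' = p ∧ P ≠ P' ∧ P * P' = Ideal.span {(p : 𝓞 F)} ∧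
      classOf χ P' = (classOf χ P)⁻¹ ∧
      ∀ Q : Ideal (𝓞 F), Ideal.absNorm Q = p → Q = P ∨ Q = P' := by
  obtain ⟨P', hP'⟩ := exists_mul_eq_span_absNorm P
  rw [hP] at hP'
  have hN := absNorm_cofactor h2 hp.ne_zero hP hP'
  refine ⟨P', hN, fun e => sq_ne_span hp hpD hP (e ▸ hP'), hP',
    classOf_cofactor χ h2 hp.ne_zero hP hP', fun Q hQ => ?_⟩
  have hQm := isMaximal_of_prime_absNorm hp hQ
  have hle : P * P' ≤ Q := by
    rw [hP', Ideal.span_singleton_le_iff_mem, ← hQ]
    exact Ideal.absNorm_mem Q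
  rcases hQm.isPrime.mul_le.1 hle with h | h
  · exact Or.inl ((isMaximal_of_prime_absNorm hp hP).eq_of_le hQm.ne_top h).symm
  · exact Or.inr ((isMaximal_of_prime_absNorm hp hN).eq_of_le hQm.ne_top h).symm

/-- recursion at the good primes, mod two -/
theorem thetaCoeff_rec (h2 : Module.finrank ℚ F = 2) {p : ℕ} (hp : p.Prime)
    (hpD : ¬ (p : ℤ) ∣ NumberField.discr F) (n : ℕ) :
    (2 : ℤ) ∣ thetaCoeff χ (p * n) + (if p ∣ n then thetaCoeff χ (n / p) else 0) -
      thetaCoeff χ p * thetaCoeff χ n := by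
  classical
  suffices h : ∃ ε : ℤ, (2 : ℤ) ∣ ε - 1 ∧
      thetaCoeff χ (p * n) + ε * (if p ∣ n then thetaCoeff χ (n / p) else 0) =
        thetaCoeff χ p * thetaCoeff χ n by
    obtain ⟨ε, ⟨k, hk⟩, h⟩ := h
    refine ⟨-k * (if p ∣ n then thetaCoeff χ (n / p) else 0), ?_⟩
    linear_combination h - (if p ∣ n then thetaCoeff χ (n / p) else 0) * hk
  suffices h : ∃ ε : ℤ, (2 : ℤ) ∣ ε - 1 ∧
      classSum χ (p * n) + ε * (if p ∣ n then classSum χ (n / p) else 0) =
        classSum χ p * classSum χ n by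
    obtain ⟨ε, hε, h⟩ := h
    refine ⟨ε, hε, Int.cast_injective (α := ℂ) ?_⟩
    simp only [classSum_eq χ h2] at h
    split_ifs at h ⊢ <;> push_cast <;> exact h
  rcases eq_or_ne n 0 with rfl | hn
  · exact ⟨1, by norm_num, by simp [classSum, idealsOfNorm]⟩
  by_cases hex : ∃ P : Ideal (𝓞 F), Ideal.absNorm P = p
  · obtain ⟨P, hP⟩ := hex
    obtain ⟨P', hP', hne, hPP', hcl, hall⟩ := exists_split χ h2 hp hpD hP
    refine ⟨1, by norm_num, ?_⟩
    have hsp : classSum χ p = classVal (classOf χ P) + classVal (classOf χ P') := by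
      have : idealsOfNorm F p = {P, P'} := by
        ext Q
        simp only [mem_idealsOfNorm, Finset.mem_insert, Finset.mem_singleton, ne_eq, hp.ne_zero,
          not_false_eq_true, true_and]
        exact ⟨hall Q, fun h => h.elim (· ▸ hP) (· ▸ hP')⟩
      rw [classSum, this, Finset.sum_pair hne]
    have hP0 := mem_nonZero_of_absNorm (hP ▸ hp.ne_zero : Ideal.absNorm P ≠ 0)
    have hP'0 := mem_nonZero_of_absNorm (hP' ▸ hp.ne_zero : Ideal.absNorm P' ≠ 0)
    have hsum : ∀ (A : Ideal (𝓞 F)) (m : ℕ), A ∈ (Ideal (𝓞 F))⁰ →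
        ∑ I ∈ (idealsOfNorm F m).image (A * ·), classVal (classOf χ I) =
          classVal (classOf χ A) * classSum χ m := by
      intro A m hA
      rw [Finset.sum_image fun x _ y _ h => mul_left_cancel₀ (nonZeroDivisors.ne_zero hA) h,
        classSum, Finset.mul_sum]
      refine Finset.sum_congr rfl fun I hI => ?_
      rw [mem_idealsOfNorm] at hI
      rw [classOf_mul χ hA (mem_nonZero_of_absNorm (hI.2 ▸ hI.1)), map_mul]
    have hU : idealsOfNorm F (p * n) =
        (idealsOfNorm F n).image (P * ·) ∪ (idealsOfNorm F n).image (P' * ·) := by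
      ext I
      simp only [mem_idealsOfNorm, Finset.mem_union, Finset.mem_image, ne_eq, mul_eq_zero,
        hp.ne_zero, hn, or_self, not_false_eq_true, true_and]
      refine ⟨fun hI => ?_, ?_⟩
      · have h := le_of_prime_dvd_absNorm hp (hI ▸ dvd_mul_right p n : p ∣ Ideal.absNorm I)
        rw [← hPP'] at h
        have h' : I ⊔ P ≠ ⊤ ∨ I ⊔ P' ≠ ⊤ := by
          by_contra hcon
          push Not at hcon
          exact h ((Ideal.sup_mul_eq_of_coprime_left hcon.1).trans hcon.2)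
        have key : ∀ {Q : Ideal (𝓞 F)}, Ideal.absNorm Q = p → I ⊔ Q ≠ ⊤ →
            ∃ J, Ideal.absNorm J = n ∧ Q * J = I := by
          intro Q hQ hIQ
          have hQm := isMaximal_of_prime_absNorm hp hQ
          obtain ⟨J, hJ⟩ := Ideal.dvd_iff_le.2
            ((le_sup_left.trans (hQm.eq_of_le hIQ le_sup_right).ge) : I ≤ Q)
          refine ⟨J, ?_, hJ.symm⟩
          rw [hJ, map_mul, hQ] at hI
          exact Nat.eq_of_mul_eq_mul_left hp.pos hI
        exact h'.imp (key hP) (key hP')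
      · rintro (⟨J, hJ, rfl⟩ | ⟨J, hJ, rfl⟩) <;> rw [map_mul] <;> simp [hP, hP', hJ]
    have hI : (idealsOfNorm F n).image (P * ·) ∩ (idealsOfNorm F n).image (P' * ·) =
        if p ∣ n then (idealsOfNorm F (n / p)).image (Ideal.span {(p : 𝓞 F)} * ·) else ∅ := by
      have hne' : ∀ {J J' : Ideal (𝓞 F)}, Ideal.absNorm J = n → P' * J' = P * J →
          ∃ J'', J = P' * J'' ∧ p ∣ n ∧ Ideal.absNorm J'' = n / p := by
        intro J J' hJ h
        have hm' := isMaximal_of_prime_absNorm hp hP'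
        rcases hm'.isPrime.mul_le.1 (h ▸ Ideal.mul_le_left : P * J ≤ P') with h1 | h1
        · exact absurd ((isMaximal_of_prime_absNorm hp hP).eq_of_le hm'.ne_top h1) hne
        · obtain ⟨J'', rfl⟩ := Ideal.dvd_iff_le.2 h1
          rw [map_mul, hP'] at hJ
          exact ⟨J'', rfl, Dvd.intro _ hJ, (Nat.div_eq_of_eq_mul_right hp.pos hJ.symm).symm⟩
      ext I
      simp only [Finset.mem_inter, Finset.mem_image, mem_idealsOfNorm, ne_eq, hn,
        not_false_eq_true, true_and]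
      refine ⟨?_, fun h => ?_⟩
      · rintro ⟨⟨J, hJ, rfl⟩, ⟨J', -, hJ'⟩⟩
        obtain ⟨J'', rfl, hpn, hJ''⟩ := hne' hJ hJ'
        rw [if_pos hpn]
        refine Finset.mem_image.2 ⟨J'', mem_idealsOfNorm.2 ⟨?_, hJ''⟩, ?_⟩
        · exact (Nat.div_pos (Nat.le_of_dvd (Nat.pos_of_ne_zero hn) hpn) hp.pos).ne'
        · rw [← hPP', mul_assoc]
      · split_ifs at h with hpn
        · obtain ⟨J, hJ, rfl⟩ := Finset.mem_image.1 h
          rw [mem_idealsOfNorm] at hJ
          obtain ⟨k, rfl⟩ := hpn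
          rw [Nat.mul_div_cancel_left k hp.pos] at hJ
          exact ⟨⟨P' * J, by rw [map_mul, hP', hJ.2], by rw [← hPP', mul_assoc]⟩,
            ⟨P * J, by rw [map_mul, hP, hJ.2], by rw [← hPP', mul_comm P P', mul_assoc]⟩⟩
        · simp at h
    have h := Finset.sum_union_inter (s₁ := (idealsOfNorm F n).image (P * ·))
      (s₂ := (idealsOfNorm F n).image (P' * ·)) (f := fun I => classVal (classOf χ I))
    rw [← hU, hI, hsum P n hP0, hsum P' n hP'0] at h
    rw [hsp, add_mul, ← h, classSum, Int.cast_one, one_mul]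
    congr 1
    split_ifs with hpn
    · rw [hsum _ _ (by rw [← hPP']; exact mul_mem hP0 hP'0), classOf_span, map_one, one_mul]
    · simp
  · push Not at hex
    have hmax := span_isMaximal_of_no_norm h2 hp hex
    have hN2 := absNorm_span_nat (F := F) h2 p
    refine ⟨-1, by norm_num, ?_⟩
    have hsp : classSum χ p = 0 := by
      rw [classSum, Finset.sum_eq_zero fun I hI => absurd (mem_idealsOfNorm.1 hI).2 (hex I)]
    have hU : idealsOfNorm F (p * n) =
        if p ∣ n then (idealsOfNorm F (n / p)).image (Ideal.span {(p : 𝓞 F)} * ·) else ∅ := by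
      ext I
      refine ⟨fun hI => ?_, fun h => ?_⟩
      · rw [mem_idealsOfNorm] at hI
        have h := le_of_prime_dvd_absNorm hp (hI.2 ▸ dvd_mul_right p n : p ∣ Ideal.absNorm I)
        obtain ⟨J, rfl⟩ := Ideal.dvd_iff_le.2
          ((le_sup_left.trans (hmax.eq_of_le h le_sup_right).ge) : I ≤ Ideal.span {(p : 𝓞 F)})
        have hJ := hI.2
        rw [map_mul, hN2, sq, mul_assoc] at hJ
        have hJ' := Nat.eq_of_mul_eq_mul_left hp.pos hJ
        rw [if_pos (Dvd.intro _ hJ')]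
        refine Finset.mem_image.2 ⟨J, mem_idealsOfNorm.2
          ⟨?_, (Nat.div_eq_of_eq_mul_right hp.pos hJ'.symm).symm⟩, rfl⟩
        exact (Nat.div_pos (Nat.le_of_dvd (Nat.pos_of_ne_zero hn) (Dvd.intro _ hJ')) hp.pos).ne'
      · split_ifs at h with hpn
        · obtain ⟨J, hJ, rfl⟩ := Finset.mem_image.1 h
          rw [mem_idealsOfNorm] at hJ
          obtain ⟨k, rfl⟩ := hpn
          rw [Nat.mul_div_cancel_left k hp.pos] at hJ
          exact mem_idealsOfNorm.2 ⟨mul_ne_zero hp.ne_zero hn,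
            by rw [map_mul, hN2, hJ.2]; ring⟩
        · simp at h
    rw [hsp, zero_mul, classSum, hU]
    split_ifs with hpn
    · rw [Finset.sum_image fun x _ y _ h => mul_left_cancel₀
        (by simpa using hp.ne_zero : (Ideal.span {(p : 𝓞 F)}) ≠ 0) h]
      push_cast
      rw [classSum, neg_one_mul, add_neg_eq_zero]
      refine Finset.sum_congr rfl fun I hI => ?_
      rw [mem_idealsOfNorm] at hI
      rw [classOf_mul χ (mem_nonZero_of_absNorm (by rw [hN2]; simp [hp.ne_zero]))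
        (mem_nonZero_of_absNorm (hI.2 ▸ hI.1)), classOf_span, one_mul]
    · simp

/-- an odd coefficient at a good prime: the prime splits into nontrivial classes -/
theorem thetaCoeff_odd (h2 : Module.finrank ℚ F = 2) {p : ℕ} (hp : p.Prime)
    (hpD : ¬ (p : ℤ) ∣ NumberField.discr F) (ho : Odd (thetaCoeff χ p)) :
    (∃ I : Ideal (𝓞 F), Ideal.absNorm I = p) ∧
      ∀ I : Ideal (𝓞 F), Ideal.absNorm I = p → classOf χ I ≠ 1 := by
  classical
  have hex : ∃ I : Ideal (𝓞 F), Ideal.absNorm I = p := by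
    by_contra hex
    push Not at hex
    have : idealsOfNorm F p = ∅ := Finset.eq_empty_of_forall_notMem fun I hI =>
      hex I (mem_idealsOfNorm.1 hI).2
    simp [thetaCoeff, this] at ho
  refine ⟨hex, fun I hI h1 => ?_⟩
  obtain ⟨I', hI', hne, -, hcl, hall⟩ := exists_split χ h2 hp hpD hI
  have hs : idealsOfNorm F p = {I, I'} := by
    ext Q
    simp only [mem_idealsOfNorm, Finset.mem_insert, Finset.mem_singleton, ne_eq, hp.ne_zero,
      not_false_eq_true, true_and]
    exact ⟨hall Q, fun h => h.elim (· ▸ hI) (· ▸ hI')⟩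
  rw [h1, inv_one] at hcl
  have h10 : ((1 : Multiplicative (ZMod 3)) = Multiplicative.ofAdd 1) = False :=
    eq_false (by decide)
  simp [thetaCoeff, hs, Finset.filter_insert, Finset.filter_singleton, h1, hcl, h10, hne] at ho
  exact Int.not_odd_iff_even.2 even_two ho

theorem exists_thetaCoeff_odd (h2 : Module.finrank ℚ F = 2) (hχ : χ ≠ 1) (S : Finset ℕ) :
    ∃ p : ℕ, p.Prime ∧ p ∉ S ∧ ¬ (p : ℤ) ∣ NumberField.discr F ∧ Odd (thetaCoeff χ p) := by
  classical
  obtain ⟨C, hC⟩ : ∃ C, χ C ≠ 1 := by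
    by_contra h
    push Not at h
    exact hχ (MonoidHom.ext h)
  obtain ⟨I, hIC, hcop⟩ := exists_mk0_eq_coprime C
    (m := (∏ x ∈ S.erase 0, x) * (NumberField.discr F).natAbs)
    (mul_ne_zero (Finset.prod_ne_zero_iff.2 fun x hx => (Finset.mem_erase.1 hx).1)
      (Int.natAbs_ne_zero.2 (NumberField.discr_ne_zero F)))
  have hI1 : classOf χ (I : Ideal (𝓞 F)) ≠ 1 := by
    rw [classOf, dif_pos I.2]; simpa [hIC] using hC
  obtain ⟨P, hPI, hP1⟩ : ∃ P ∈ UniqueFactorizationMonoid.normalizedFactors (I : Ideal (𝓞 F)),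
      classOf χ P ≠ 1 := by
    by_contra h
    push Not at h
    refine hI1 ?_
    have hI0 : (I : Ideal (𝓞 F)) ≠ 0 := nonZeroDivisors.ne_zero I.2
    rw [← Ideal.prod_normalizedFactors_eq_self hI0]
    generalize hs : UniqueFactorizationMonoid.normalizedFactors (I : Ideal (𝓞 F)) = s at h ⊢
    have h0 : ∀ P ∈ s, P ∈ (Ideal (𝓞 F))⁰ := fun P hP => mem_nonZeroDivisors_of_ne_zero
      (UniqueFactorizationMonoid.prime_of_normalized_factor P (hs ▸ hP)).ne_zero
    clear hs
    induction s using Multiset.induction with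
    | empty => simpa using classOf_span χ (1 : 𝓞 F)
    | cons P s ih =>
      rw [Multiset.prod_cons, classOf_mul χ (h0 P (Multiset.mem_cons_self _ _))
        (Submonoid.multiset_prod_mem _ s fun Q hQ => h0 Q (Multiset.mem_cons_of_mem hQ)),
        h P (Multiset.mem_cons_self _ _), ih (fun Q hQ => h Q (Multiset.mem_cons_of_mem hQ))
          (fun Q hQ => h0 Q (Multiset.mem_cons_of_mem hQ)), one_mul]
  have hPp := (UniqueFactorizationMonoid.prime_of_normalized_factor P hPI)
  have hPprime : P.IsPrime := Ideal.isPrime_of_prime hPp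
  have hdvd : P ∣ (I : Ideal (𝓞 F)) := UniqueFactorizationMonoid.dvd_of_mem_normalizedFactors hPI
  have hPmax : P.IsMaximal := hPprime.isMaximal hPp.ne_zero
  have hN1 : Ideal.absNorm P ≠ 1 := fun h => hPmax.ne_top (Ideal.absNorm_eq_one_iff.1 h)
  obtain ⟨p, hp, hpN⟩ := Nat.exists_prime_and_dvd hN1
  have hpI : p ∣ Ideal.absNorm (I : Ideal (𝓞 F)) :=
    hpN.trans (Ideal.absNorm_dvd_absNorm_of_le (Ideal.le_of_dvd hdvd))
  have hpm : ¬ p ∣ (∏ x ∈ S.erase 0, x) * (NumberField.discr F).natAbs :=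
    fun h => hp.not_dvd_one (hcop ▸ Nat.dvd_gcd hpI h)
  have hpD : ¬ (p : ℤ) ∣ NumberField.discr F := fun h =>
    hpm (dvd_mul_of_dvd_right (Int.natCast_dvd.1 h) _)
  refine ⟨p, hp, fun h => hpm (dvd_mul_of_dvd_left
    (Finset.dvd_prod_of_mem _ (Finset.mem_erase.2 ⟨hp.ne_zero, h⟩)) _), hpD, ?_⟩
  have hP : Ideal.absNorm P = p := by
    obtain ⟨Q, hQ, hpQ, hPQ⟩ := exists_maximal_of_dvd_absNorm hp hpN
    obtain rfl := hPmax.eq_of_le hQ.ne_top hPQ
    by_contra hne
    by_cases hex : ∃ I : Ideal (𝓞 F), Ideal.absNorm I = p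
    · obtain ⟨A, hA⟩ := hex
      obtain ⟨A', hA', -, hAA', -⟩ := exists_split χ h2 hp hpD hA
      rcases hPprime.mul_le.1 (hAA' ▸ (Ideal.span_singleton_le_iff_mem _).2 hpQ : A * A' ≤ P)
        with h | h
      · exact hne ((isMaximal_of_prime_absNorm hp hA).eq_of_le hPmax.ne_top h ▸ hA)
      · exact hne ((isMaximal_of_prime_absNorm hp hA').eq_of_le hPmax.ne_top h ▸ hA')
    · push Not at hex
      have := (span_isMaximal_of_no_norm h2 hp hex).eq_of_le hPmax.ne_top
        ((Ideal.span_singleton_le_iff_mem _).2 hpQ)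
      exact hP1 (this ▸ classOf_span χ _)
  obtain ⟨P', hP', hne, -, hcl, hall⟩ := exists_split χ h2 hp hpD hP
  have hs : idealsOfNorm F p = {P, P'} := by
    ext Q
    simp only [mem_idealsOfNorm, Finset.mem_insert, Finset.mem_singleton, ne_eq, hp.ne_zero,
      not_false_eq_true, true_and]
    exact ⟨hall Q, fun h => h.elim (· ▸ hP) (· ▸ hP')⟩
  rw [thetaCoeff, hs, Finset.filter_insert, Finset.filter_insert, Finset.filter_singleton,
    Finset.filter_singleton, hcl]
  have h3 : ∀ x : Multiplicative (ZMod 3), x = 1 ∨ x = Multiplicative.ofAdd 1 ∨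
      x = Multiplicative.ofAdd 2 := by decide
  rcases h3 (classOf χ P) with h | h | h
  · exact absurd h hP1
  all_goals
    rw [h]
    simp (decide := true)

/-- a ring of integers of rank two has an integral basis starting with one -/
theorem exists_basis_one (h2 : Module.finrank ℚ F = 2) :
    ∃ e : Module.Basis (Fin 2) ℤ (𝓞 F), e 0 = 1 := by
  classical
  have hr : Module.finrank ℤ (𝓞 F) = 2 := by rw [NumberField.RingOfIntegers.rank, h2]
  let b : Module.Basis (Fin 2) ℤ (𝓞 F) := Module.finBasisOfFinrankEq ℤ (𝓞 F) hr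
  obtain ⟨u, v, huv⟩ : ∃ u v : ℤ, (1 : 𝓞 F) = u • b 0 + v • b 1 :=
    ⟨b.repr 1 0, b.repr 1 1, by
      conv_lhs => rw [← b.sum_repr 1]
      rw [Fin.sum_univ_two]⟩
  obtain ⟨a, c, hac⟩ : ∃ a c : ℤ, a * u + c * v = 1 := by
    have hg : Int.gcd u v = 1 := by
      by_contra hne
      obtain ⟨u', hu'⟩ := Int.gcd_dvd_left u v
      obtain ⟨v', hv'⟩ := Int.gcd_dvd_right u v
      generalize Int.gcd u v = d at hne hu' hv'
      subst hu' hv'
      have h1 : (1 : 𝓞 F) = (d : 𝓞 F) * (u' • b 0 + v' • b 1) := by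
        conv_lhs => rw [huv]
        simp only [zsmul_eq_mul]
        push_cast
        ring
      have hu := congrArg (fun x => Ideal.absNorm (Ideal.span {x})) h1
      simp only [Ideal.span_singleton_one, Ideal.absNorm_top, ← Ideal.span_singleton_mul_span_singleton,
        map_mul, Ideal.absNorm_span_natCast, hr] at hu
      exact hne ((Nat.pow_eq_one.1 (Nat.eq_one_of_mul_eq_one_right hu.symm)).resolve_right (by norm_num))
    exact ⟨Int.gcdA u v, Int.gcdB u v, by
      have := Int.gcd_eq_gcd_ab u v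
      rw [hg] at this
      push_cast at this
      linear_combination -this⟩
  let w : Fin 2 → 𝓞 F := ![1, (-c) • b 0 + a • b 1]
  have hspan : ⊤ ≤ Submodule.span ℤ (Set.range w) := by
    rw [← b.span_eq, Submodule.span_le]
    have hmem : ∀ x y : ℤ, x • w 0 + y • w 1 ∈ Submodule.span ℤ (Set.range w) := fun x y =>
      add_mem (Submodule.smul_mem _ _ (Submodule.subset_span ⟨0, rfl⟩))
        (Submodule.smul_mem _ _ (Submodule.subset_span ⟨1, rfl⟩))
    have hac' : (a : 𝓞 F) * (u : 𝓞 F) + (c : 𝓞 F) * (v : 𝓞 F) = 1 := by exact_mod_cast hac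
    have h0 : b 0 = a • w 0 + (-v) • w 1 := by
      simp only [w, Matrix.cons_val_zero, Matrix.cons_val_one, huv, zsmul_eq_mul]
      push_cast
      linear_combination -(b 0) * hac'
    have h1 : b 1 = c • w 0 + u • w 1 := by
      simp only [w, Matrix.cons_val_zero, Matrix.cons_val_one, huv, zsmul_eq_mul]
      push_cast
      linear_combination -(b 1) * hac'
    rintro _ ⟨i, rfl⟩
    fin_cases i
    · exact h0 ▸ hmem a (-v)
    · exact h1 ▸ hmem c u
  exact ⟨basisOfTopLeSpanOfCardEqFinrank w hspan (by simp [hr]), by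
    rw [coe_basisOfTopLeSpanOfCardEqFinrank]; rfl⟩

/-- if the discriminant is five mod eight, no ideal has norm two -/
theorem absNorm_ne_two (h2 : Module.finrank ℚ F = 2) (h5 : NumberField.discr F % 8 = 5)
    (I : Ideal (𝓞 F)) : Ideal.absNorm I ≠ 2 := by
  classical
  intro hI
  obtain ⟨e, he⟩ := exists_basis_one h2
  obtain ⟨c0, c1, hy⟩ : ∃ c0 c1 : ℤ, e 1 * e 1 = c0 • e 0 + c1 • e 1 :=
    ⟨e.repr (e 1 * e 1) 0, e.repr (e 1 * e 1) 1, by
      conv_lhs => rw [← e.sum_repr (e 1 * e 1)]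
      rw [Fin.sum_univ_two]⟩
  have htr1 : Algebra.trace ℤ (𝓞 F) (e 1) = c1 := by
    have h01 : e 1 * e 0 = (1 : ℤ) • e 1 := by rw [he, mul_one, one_smul]
    rw [Algebra.trace_eq_matrix_trace e, Matrix.trace_fin_two, Algebra.leftMulMatrix_eq_repr_mul,
      Algebra.leftMulMatrix_eq_repr_mul, h01, hy]
    simp [Finsupp.single_apply, -zsmul_eq_mul]
  have htr0 : Algebra.trace ℤ (𝓞 F) (e 0) = 2 := by
    rw [he]
    have h := Algebra.trace_algebraMap (R := ℤ) (S := 𝓞 F) (1 : ℤ)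
    rw [map_one, NumberField.RingOfIntegers.rank, h2] at h
    simpa using h
  have htr2 : Algebra.trace ℤ (𝓞 F) (e 1 * e 1) = 2 * c0 + c1 * c1 := by
    rw [hy, map_add, map_smul, map_smul, htr0, htr1, smul_eq_mul, smul_eq_mul]
    ring
  have hdisc : NumberField.discr F = 2 * (2 * c0 + c1 * c1) - c1 * c1 := by
    rw [← NumberField.discr_eq_discr F e, Algebra.discr_def, Matrix.det_fin_two]
    simp only [Algebra.traceMatrix_apply, Algebra.traceForm_apply, he, mul_one, one_mul, htr1, htr2]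
    rw [he] at htr0
    rw [htr0]
  obtain ⟨φ, hφ⟩ : ∃ φ : 𝓞 F →+* ZMod 2, True := by
    haveI : Finite (𝓞 F ⧸ I) := (Ideal.absNorm_ne_zero_iff I).1 (by omega)
    haveI : Fintype (𝓞 F ⧸ I) := Fintype.ofFinite _
    have hc : Fintype.card (𝓞 F ⧸ I) = 2 := by
      rw [← Nat.card_eq_fintype_card, ← Submodule.cardQuot_apply, ← Ideal.absNorm_apply, hI]
    exact ⟨(ZMod.ringEquivOfPrime (𝓞 F ⧸ I) Nat.prime_two hc).symm.toRingHom.comp
      (Ideal.Quotient.mk I), trivial⟩
  have hφy := congrArg φ hy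
  simp only [he, map_mul, map_add, map_zsmul, map_one, map_intCast, zsmul_eq_mul, mul_one] at hφy
  have hodd : c1 % 2 = 1 := by
    rcases Int.emod_two_eq_zero_or_one c1 with h | h
    · exfalso
      have : NumberField.discr F % 2 = 0 := by
        obtain ⟨k, rfl⟩ : ∃ k, c1 = 2 * k := ⟨c1 / 2, by omega⟩
        rw [hdisc, show 2 * k * (2 * k) = 4 * (k * k) by ring]
        omega
      omega
    · exact h
  have heven : c0 % 2 = 0 := by
    have h1 : (c1 : ZMod 2) = 1 := by
      rw [← ZMod.intCast_mod c1 2]; norm_num [hodd]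
    rw [h1, one_mul] at hφy
    have h0 : (c0 : ZMod 2) = 0 := by
      generalize φ (e 1) = z at hφy
      generalize (c0 : ZMod 2) = w at hφy ⊢
      revert z w
      decide
    exact Int.emod_eq_zero_of_dvd ((ZMod.intCast_zmod_eq_zero_iff_dvd c0 2).1 h0)
  obtain ⟨k, rfl⟩ : ∃ k, c1 = 2 * k + 1 := ⟨c1 / 2, by omega⟩
  obtain ⟨m, rfl⟩ : ∃ m, c0 = 2 * m := ⟨c0 / 2, by omega⟩
  have hsq : (2 * k + 1) * (2 * k + 1) % 8 = 1 := by
    have hkk : (2 : ℤ) ∣ k * (k + 1) := even_iff_two_dvd.1 (Int.even_mul_succ_self k)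
    obtain ⟨j, hj⟩ := hkk
    rw [show (2 * k + 1) * (2 * k + 1) = 1 + 8 * j by linear_combination 4 * hj]
    omega
  generalize (2 * k + 1) * (2 * k + 1) = q at hdisc hsq
  omega

theorem thetaCoeff_two (h2 : Module.finrank ℚ F = 2) (h5 : NumberField.discr F % 8 = 5) :
    Even (thetaCoeff χ 2) := by
  have : idealsOfNorm F 2 = ∅ := Finset.eq_empty_of_forall_notMem fun I hI =>
    absNorm_ne_two h2 h5 I (mem_idealsOfNorm.1 hI).2
  simp [thetaCoeff, this]

/-- a ramified prime is the square of a prime -/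
theorem exists_sq_eq_span (h2 : Module.finrank ℚ F = 2) {p : ℕ} (hp : p.Prime)
    (hpD : (p : ℤ) ∣ NumberField.discr F) :
    ∃ P : Ideal (𝓞 F), Ideal.absNorm P = p ∧ P * P = Ideal.span {(p : 𝓞 F)} := by
  classical
  have hpZ : (Ideal.span {(p : ℤ)}) ≠ ⊥ := by simpa using hp.ne_zero
  haveI : (Ideal.span {(p : ℤ)}).IsMaximal :=
    ((Ideal.span_singleton_prime (by exact_mod_cast hp.ne_zero)).2
      (Nat.prime_iff_prime_int.1 hp)).isMaximal hpZ
  haveI : NeZero p := ⟨hp.ne_zero⟩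
  haveI : Finite (ℤ ⧸ Ideal.span {(p : ℤ)}) :=
    Finite.of_equiv _ (Int.quotientSpanNatEquivZMod p).symm.toEquiv
  have hmap : Ideal.map (algebraMap ℤ (𝓞 F)) (Ideal.span {(p : ℤ)}) = Ideal.span {(p : 𝓞 F)} := by
    rw [Ideal.map_span, Set.image_singleton, map_natCast]
  by_contra hcon
  push Not at hcon
  refine (NumberField.not_dvd_discr_iff_forall_mem F (𝓞 F) (Nat.prime_iff_prime_int.1 hp)).2
    (fun Q hQ hpQ => ?_) hpD
  rw [Int.cast_natCast] at hpQ
  have hQ0 : Q ≠ ⊥ := fun h => by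
    rw [h, Ideal.mem_bot] at hpQ
    exact hp.ne_zero (by exact_mod_cast hpQ)
  haveI hQm : Q.IsMaximal := hQ.isMaximal hQ0
  rw [← not_dvd_differentIdeal_iff]
  by_cases hex : ∃ P : Ideal (𝓞 F), Ideal.absNorm P = p
  · obtain ⟨P, hP⟩ := hex
    obtain ⟨P', hP'⟩ := exists_mul_eq_span_absNorm P
    rw [hP] at hP'
    have hN := absNorm_cofactor h2 hp.ne_zero hP hP'
    have hPm := isMaximal_of_prime_absNorm hp hP
    have hP'm := isMaximal_of_prime_absNorm hp hN
    have hne : P ≠ P' := fun e => hcon P hP (e ▸ hP')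
    rcases hQ.mul_le.1 (hP' ▸ (Ideal.span_singleton_le_iff_mem _).2 hpQ : P * P' ≤ Q) with h | h
    · obtain rfl := hPm.eq_of_le hQm.ne_top h
      exact not_dvd_differentIdeal_of_isCoprime ℤ (p := Ideal.span {(p : ℤ)}) P P'
        (Ideal.isCoprime_iff_sup_eq.2 (Ideal.IsMaximal.coprime_of_ne hPm hP'm hne))
        (hP'.trans hmap.symm)
    · obtain rfl := hP'm.eq_of_le hQm.ne_top h
      exact not_dvd_differentIdeal_of_isCoprime ℤ (p := Ideal.span {(p : ℤ)}) P' P
        (Ideal.isCoprime_iff_sup_eq.2 (Ideal.IsMaximal.coprime_of_ne hP'm hPm hne.symm))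
        ((mul_comm P' P).trans (hP'.trans hmap.symm))
  · push Not at hex
    obtain rfl := (span_isMaximal_of_no_norm h2 hp hex).eq_of_le hQm.ne_top
      ((Ideal.span_singleton_le_iff_mem _).2 hpQ)
    refine not_dvd_differentIdeal_of_isCoprime ℤ (p := Ideal.span {(p : ℤ)}) _ ⊤ ?_ ?_
    · exact Ideal.isCoprime_iff_sup_eq.2 (sup_top_eq _)
    · rw [Ideal.mul_top, hmap]

theorem thetaCoeff_ramified (h2 : Module.finrank ℚ F = 2) {p : ℕ} (hp : p.Prime)
    (hpD : (p : ℤ) ∣ NumberField.discr F) (n : ℕ) :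
    (2 : ℤ) ∣ thetaCoeff χ (p * n) - thetaCoeff χ n := by
  classical
  suffices h : thetaCoeff χ (p * n) = thetaCoeff χ n by rw [h, sub_self]; exact dvd_zero _
  obtain ⟨P, hP, hPP⟩ := exists_sq_eq_span h2 hp hpD
  have hcl : classOf χ P = 1 := by
    have h := classOf_cofactor χ h2 hp.ne_zero hP hPP
    revert h
    generalize classOf χ P = x
    revert x
    decide
  have hP0 := mem_nonZero_of_absNorm (hP ▸ hp.ne_zero : Ideal.absNorm P ≠ 0)
  have key : ∀ g, ((idealsOfNorm F (p * n)).filter fun I => classOf χ I = g).card =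
      ((idealsOfNorm F n).filter fun I => classOf χ I = g).card := by
    intro g
    refine (Finset.card_bij (fun J _ => P * J) (fun J hJ => ?_)
      (fun J _ J' _ h => mul_left_cancel₀ (nonZeroDivisors.ne_zero hP0) h) (fun I hI => ?_)).symm
    · simp only [Finset.mem_filter, mem_idealsOfNorm] at hJ ⊢
      obtain ⟨⟨hn, hJn⟩, hJg⟩ := hJ
      refine ⟨⟨mul_ne_zero hp.ne_zero hn, by rw [map_mul, hP, hJn]⟩, ?_⟩
      rw [classOf_mul χ hP0 (mem_nonZero_of_absNorm (hJn ▸ hn)), hcl, one_mul, hJg]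
    · simp only [Finset.mem_filter, mem_idealsOfNorm] at hI
      obtain ⟨⟨hpn, hIn⟩, hIg⟩ := hI
      have hsup := le_of_prime_dvd_absNorm hp (hIn ▸ dvd_mul_right p n : p ∣ Ideal.absNorm I)
      rw [← hPP] at hsup
      have hIP : I ⊔ P ≠ ⊤ := fun h => hsup ((Ideal.sup_mul_eq_of_coprime_left h).trans h)
      have hPm := isMaximal_of_prime_absNorm hp hP
      obtain ⟨J, rfl⟩ := Ideal.dvd_iff_le.2
        ((le_sup_left.trans (hPm.eq_of_le hIP le_sup_right).ge) : I ≤ P)
      rw [map_mul, hP] at hIn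
      have hJn := Nat.eq_of_mul_eq_mul_left hp.pos hIn
      have hn : n ≠ 0 := right_ne_zero_of_mul hpn
      rw [classOf_mul χ hP0 (mem_nonZero_of_absNorm (hJn ▸ hn)), hcl, one_mul] at hIg
      exact ⟨J, Finset.mem_filter.2 ⟨mem_idealsOfNorm.2 ⟨hn, hJn⟩, hIg⟩, rfl⟩
  rw [thetaCoeff, thetaCoeff, key, key]

end FLTAgent.TH2

end
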