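import Fermat.Agent.TH2.Defs

/-!
Area TH2, parcel COEFF: elementary facts on ideals of given norm.
-/

set_option autoImplicit false

noncomputable section

namespace FLTAgent.TH2

open scoped nonZeroDivisors NumberField

variable {F : Type*} [Field F] [NumberField F]

/-- a prime dividing the norm gives a maximal ideal above it and above the ideal -/
theorem exists_maximal_of_dvd_absNorm {p : ℕ} (hp : p.Prime) {I : Ideal (𝓞 F)}
    (h : p ∣ Ideal.absNorm I) :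
    ∃ P : Ideal (𝓞 F), P.IsMaximal ∧ (p : 𝓞 F) ∈ P ∧ I ≤ P := by
  obtain ⟨P, hP, hu, hd⟩ := Ideal.exists_isMaximal_dvd_of_dvd_absNorm' hp I h
  refine ⟨P, hP, ?_, Ideal.le_of_dvd hd⟩
  have h1 : (p : ℤ) ∈ P.under ℤ := by rw [hu]; exact Ideal.mem_span_singleton_self _
  simpa [Ideal.under_def] using h1

theorem coprime_absNorm_of_sup_eq_top {I : Ideal (𝓞 F)} {m : ℕ}
    (h : Ideal.span {(m : 𝓞 F)} ⊔ I = ⊤) : (Ideal.absNorm I).Coprime m := by
  refine Nat.coprime_of_dvd fun p hp hI hm => ?_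
  obtain ⟨P, hP, hpP, hIP⟩ := exists_maximal_of_dvd_absNorm hp hI
  refine hP.ne_top (top_le_iff.1 (h ▸ sup_le ?_ hIP))
  rw [Ideal.span_singleton_le_iff_mem]
  obtain ⟨k, rfl⟩ := hm
  push_cast
  exact P.mul_mem_right _ hpP

/-- the cofactor of an ideal in the ideal of its norm -/
theorem exists_mul_eq_span_absNorm (I : Ideal (𝓞 F)) :
    ∃ J : Ideal (𝓞 F), I * J = Ideal.span {(Ideal.absNorm I : 𝓞 F)} := by
  obtain ⟨J, hJ⟩ := Ideal.dvd_iff_le.2
    ((Ideal.span_singleton_le_iff_mem _).2 (Ideal.absNorm_mem I))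
  exact ⟨J, hJ.symm⟩

theorem absNorm_span_nat (h2 : Module.finrank ℚ F = 2) (n : ℕ) :
    Ideal.absNorm (Ideal.span {(n : 𝓞 F)}) = n ^ 2 := by
  rw [Ideal.absNorm_span_natCast, NumberField.RingOfIntegers.rank, h2]

theorem absNorm_cofactor (h2 : Module.finrank ℚ F = 2) {I J : Ideal (𝓞 F)} {n : ℕ} (hn : n ≠ 0)
    (hI : Ideal.absNorm I = n) (h : I * J = Ideal.span {(n : 𝓞 F)}) : Ideal.absNorm J = n := by
  have h1 := congrArg Ideal.absNorm h
  rw [map_mul, hI, absNorm_span_nat h2, sq] at h1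
  exact Nat.eq_of_mul_eq_mul_left (Nat.pos_of_ne_zero hn) h1

theorem mem_nonZero_of_absNorm {I : Ideal (𝓞 F)} (h : Ideal.absNorm I ≠ 0) :
    I ∈ (Ideal (𝓞 F))⁰ :=
  Ideal.absNorm_ne_zero_iff_mem_nonZeroDivisors.1 h

/-- an ideal of prime norm is prime -/
theorem isMaximal_of_prime_absNorm {p : ℕ} (hp : p.Prime) {I : Ideal (𝓞 F)}
    (h : Ideal.absNorm I = p) : I.IsMaximal := by
  refine Ideal.IsPrime.isMaximal (Ideal.isPrime_of_irreducible_absNorm (h ▸ hp)) ?_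
  rintro rfl
  rw [Ideal.absNorm_bot] at h
  exact hp.ne_zero h.symm

/-- at an unramified prime the ideal of a prime of norm `p` is not the square of a prime -/
theorem sq_ne_span {p : ℕ} (hp : p.Prime) (hpD : ¬ (p : ℤ) ∣ NumberField.discr F)
    {P : Ideal (𝓞 F)} (hP : Ideal.absNorm P = p) : P * P ≠ Ideal.span {(p : 𝓞 F)} := by
  intro h
  have hpZ : (Ideal.span {(p : ℤ)}) ≠ ⊥ := by simpa using hp.ne_zero
  haveI : (Ideal.span {(p : ℤ)}).IsMaximal :=
    ((Ideal.span_singleton_prime (by exact_mod_cast hp.ne_zero)).2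
      (Nat.prime_iff_prime_int.1 hp)).isMaximal hpZ
  have hd : P ^ 2 ∣ (Ideal.span {(p : ℤ)}).map (algebraMap ℤ (𝓞 F)) := by
    rw [Ideal.map_span, Set.image_singleton, map_natCast, sq, h]
  have hdiff := pow_sub_one_dvd_differentIdeal (A := ℤ) (p := Ideal.span {(p : ℤ)}) P 2 hpZ hd
  rw [show 2 - 1 = 1 from rfl, pow_one] at hdiff
  have h1 := Ideal.absNorm_dvd_absNorm_of_le (Ideal.le_of_dvd hdiff)
  rw [hP, NumberField.absNorm_differentIdeal (K := F)] at h1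
  exact hpD (Int.natCast_dvd.2 h1)

theorem le_of_prime_dvd_absNorm {p : ℕ} (hp : p.Prime) {I : Ideal (𝓞 F)}
    (h : p ∣ Ideal.absNorm I) : I ⊔ Ideal.span {(p : 𝓞 F)} ≠ ⊤ := by
  obtain ⟨P, hP, hpP, hIP⟩ := exists_maximal_of_dvd_absNorm hp h
  exact fun e => hP.ne_top (top_le_iff.1
    (e ▸ sup_le hIP ((Ideal.span_singleton_le_iff_mem _).2 hpP)))

/-- if no ideal has norm `p`, the prime `p` is inert -/
theorem span_isMaximal_of_no_norm (h2 : Module.finrank ℚ F = 2) {p : ℕ} (hp : p.Prime)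
    (h : ∀ I : Ideal (𝓞 F), Ideal.absNorm I ≠ p) :
    (Ideal.span {(p : 𝓞 F)}).IsMaximal := by
  have hN := absNorm_span_nat (F := F) h2 p
  have hne : Ideal.span {(p : 𝓞 F)} ≠ ⊤ := fun e => by
    rw [e, Ideal.absNorm_top] at hN
    exact hp.one_lt.ne' (by nlinarith [hp.two_le])
  obtain ⟨P, hP, hle⟩ := Ideal.exists_le_maximal _ hne
  obtain ⟨J, hJ⟩ := Ideal.dvd_iff_le.2 hle
  have h1 := congrArg Ideal.absNorm hJ
  rw [map_mul, hN] at h1
  obtain ⟨i, hi, hPi⟩ := (Nat.dvd_prime_pow hp).1 (Dvd.intro _ h1.symm)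
  interval_cases i
  · exact absurd (Ideal.absNorm_eq_one_iff.1 (by simpa using hPi)) hP.ne_top
  · exact absurd (by simpa using hPi) (h P)
  · rw [hPi] at h1
    have hJ1 : Ideal.absNorm J = 1 :=
      (Nat.eq_of_mul_eq_mul_left (pow_pos hp.pos 2) (by rw [mul_one]; exact h1.symm))
    rw [Ideal.absNorm_eq_one_iff] at hJ1
    rw [hJ, hJ1, Ideal.mul_top]
    exact hP

end FLTAgent.TH2

end
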