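import Fermat.Agent.Local.API
import Fermat.Prelude.Def_FLTPrelim_ModularRep

/-!
Area TH2: residual modularity mod 2 of a curve with dihedral two-torsion (theta series).
Definitions shared by the parcels.
-/

set_option autoImplicit false

noncomputable section

namespace FLTAgent.TH2

open scoped nonZeroDivisors NumberField
open Local (QBar QPoint)

local notation "GalQ" => AlgebraicClosure ℚ ≃ₐ[ℚ] AlgebraicClosure ℚ

section Curve

variable (W : WeierstrassCurve ℤ)

/-- `σ` acts trivially on the two-torsion -/
def FixesTwo (σ : GalQ) : Prop := ∀ P : QPoint W, 2 • P = 0 → σ • P = P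

/-- the hypotheses on the curve -/
structure Admissible : Prop where
  ss : W.IsSemistableModel
  irr : W.ModRepIsIrreducible 2
  neg : W.Δ < 0
  unramified_two : ∀ A : ValuationSubring (AlgebraicClosure ℚ), A.LiesOverPrime 2 →
    ∀ σ : GalQ, σ ∈ A.inertiaSubgroupIn ℚ → FixesTwo W σ
  odd_prime : ∃ l : ℕ, l.Prime ∧ 5 ≤ l ∧ Odd (padicValInt l W.Δ)

/-- the level: the odd primes at which the two-torsion is ramified -/
def level : ℕ :=
  ∏ l ∈ W.Δ.natAbs.primeFactors.filter (fun l => l ≠ 2 ∧ Odd (padicValInt l W.Δ)), l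

/-- a square root of the discriminant -/
def sqrtΔ : QBar :=
  (IsAlgClosed.exists_pow_nat_eq ((W.Δ : ℤ) : QBar) (n := 2) two_pos).choose

theorem sqrtΔ_sq : sqrtΔ W ^ 2 = ((W.Δ : ℤ) : QBar) :=
  (IsAlgClosed.exists_pow_nat_eq ((W.Δ : ℤ) : QBar) (n := 2) two_pos).choose_spec

/-- the abscissae of the points of order two -/
def twoRoots : Set QBar :=
  {x | 4 * x ^ 3 + (W.b₂ : QBar) * x ^ 2 + 2 * (W.b₄ : QBar) * x + (W.b₆ : QBar) = 0}

theorem twoRoots_finite : (twoRoots W).Finite := by
  let f : Polynomial QBar := Polynomial.C 4 * Polynomial.X ^ 3 +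
    Polynomial.C (W.b₂ : QBar) * Polynomial.X ^ 2 +
    Polynomial.C (2 * (W.b₄ : QBar)) * Polynomial.X + Polynomial.C (W.b₆ : QBar)
  have hf : f ≠ 0 := fun h => by
    have := congrArg (fun p : Polynomial QBar => p.coeff 3) h
    simp only [f, Polynomial.coeff_add, Polynomial.coeff_C_mul, Polynomial.coeff_X_pow,
      Polynomial.coeff_X, Polynomial.coeff_C, Polynomial.coeff_zero] at this
    norm_num at this
  refine (f.roots.toFinset.finite_toSet).subset fun x hx => ?_
  simp only [Finset.mem_coe, Multiset.mem_toFinset, Polynomial.mem_roots hf,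
    Polynomial.IsRoot.def]
  replace hx : 4 * x ^ 3 + (W.b₂ : QBar) * x ^ 2 + 2 * (W.b₄ : QBar) * x + (W.b₆ : QBar) = 0 := hx
  simpa [f] using hx

/-- the quadratic field `ℚ(√Δ)` -/
def quadField : IntermediateField ℚ QBar := IntermediateField.adjoin ℚ {sqrtΔ W}

instance finiteDimensional_quadField : FiniteDimensional ℚ (quadField W) :=
  IntermediateField.adjoin.finiteDimensional
    ((AlgebraicClosure.isAlgebraic ℚ).isAlgebraic (sqrtΔ W)).isIntegral

instance numberField_quadField : NumberField (quadField W) where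

/-- the field of the two-torsion, over `ℚ(√Δ)` -/
def cubicField : IntermediateField (quadField W) QBar :=
  IntermediateField.adjoin (quadField W) (twoRoots W)

instance finiteDimensional_cubicField : FiniteDimensional (quadField W) (cubicField W) := by
  haveI := (twoRoots_finite W).to_subtype
  exact IntermediateField.finiteDimensional_adjoin
    fun x _ => ((AlgebraicClosure.isAlgebraic ℚ).isAlgebraic x).isIntegral.tower_top

instance numberField_cubicField : NumberField (cubicField W) where
  to_finiteDimensional := Module.Finite.trans (quadField W) (cubicField W)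

end Curve

section Hecke

variable {F : Type*} [Field F] [NumberField F]

/-- the value of a class character at an ideal -/
def classOf (χ : ClassGroup (𝓞 F) →* Multiplicative (ZMod 3)) (I : Ideal (𝓞 F)) :
    Multiplicative (ZMod 3) :=
  open scoped Classical in
  if h : I ∈ (Ideal (𝓞 F))⁰ then χ (ClassGroup.mk0 ⟨I, h⟩) else 1

variable (F) in
/-- the nonzero ideals of norm `n` -/
def idealsOfNorm (n : ℕ) : Finset (Ideal (𝓞 F)) :=
  if n = 0 then ∅ else (Ideal.finite_setOfPred_absNorm_eq n).toFinset

/-- coefficients of the theta series of a cubic class character -/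
def thetaCoeff (χ : ClassGroup (𝓞 F) →* Multiplicative (ZMod 3)) (n : ℕ) : ℤ :=
  (((idealsOfNorm F n).filter fun I => classOf χ I = 1).card : ℤ) -
    (((idealsOfNorm F n).filter fun I => classOf χ I = Multiplicative.ofAdd 1).card : ℤ)

theorem mem_idealsOfNorm {n : ℕ} {I : Ideal (𝓞 F)} :
    I ∈ idealsOfNorm F n ↔ n ≠ 0 ∧ Ideal.absNorm I = n := by
  unfold idealsOfNorm
  split_ifs with h <;> simp [h]

end Hecke

end FLTAgent.TH2

end
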