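import Fermat.Agent.TH2.Defs
import Fermat.Agent.Alg.DeligneSerre
import Fermat.Agent.LR.Eigen

/-!
Area TH2, parcel EIGEN: an eigenform congruent mod two to a form spanning a stable line.
-/

set_option autoImplicit false
set_option linter.style.haveILetI false

noncomputable section

namespace FLTAgent.TH2

open CongruenceSubgroup ModularFormClass
open FLTAgent.Alg (coeffSeq intForms coeff_heckeT coeff_heckeU hecke_mem_intForms)
open FLTAgent.Attach (TFull)

/-- A form congruent mod two to `a`, whose coefficients satisfy the weight two relations mod two at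
all primes, gives an eigenform with `T ℓ = a ℓ` and `T 2 = U q = 1` mod two. -/
theorem exists_eigenform_two {N : ℕ} [NeZero N] (hN : ¬ 2 ∣ N)
    (g : CuspForm (CongruenceSubgroup.Gamma0 N) 2)
    (b a : ℕ → ℤ) (hb : ∀ n, qCoeff g n = b n) (hba : ∀ n, (2 : ℤ) ∣ b n - a n)
    (ha1 : Odd (a 1))
    (hrec : ∀ ℓ : ℕ, ℓ.Prime → ¬ ℓ ∣ N → ∀ n : ℕ,
      (2 : ℤ) ∣ a (ℓ * n) + (if ℓ ∣ n then a (n / ℓ) else 0) - a ℓ * a n)
    (ha2 : Even (a 2)) (hU : ∀ q : ℕ, q.Prime → q ∣ N → ∀ n : ℕ, (2 : ℤ) ∣ a (q * n) - a n) :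
    ∃ (f : CuspForm (CongruenceSubgroup.Gamma0 N) 2) (𝔪 : Ideal (integralClosure ℤ ℂ)),
      f.IsNormalizedEigenform ∧ 𝔪.IsMaximal ∧ ((2 : ℕ) : integralClosure ℤ ℂ) ∈ 𝔪 ∧
      ∀ ℓ : ℕ, ℓ.Prime → ∃ c : integralClosure ℤ ℂ, (c : ℂ) = qCoeff f ℓ ∧
        c - ((if ℓ = 2 ∨ ℓ ∣ N then 1 else a ℓ : ℤ) : integralClosure ℤ ℂ) ∈ 𝔪 := by
  classical
  let lev : ℕ → ℤ := fun ℓ => if ℓ = 2 ∨ ℓ ∣ N then 1 else a ℓ
  have hz : ∀ {x y : ℤ}, (2 : ℤ) ∣ x - y → (x : ZMod 2) = (y : ZMod 2) := fun {x y} h =>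
    ((ZMod.intCast_eq_intCast_iff_dvd_sub _ _ _).2 (by exact_mod_cast h)).symm
  have h20 : (2 : ZMod 2) = 0 := by decide
  have ha2' : (a 2 : ZMod 2) = 0 := by
    obtain ⟨k, hk⟩ := ha2
    rw [hk, Int.cast_add]
    linear_combination (k : ZMod 2) * h20
  have ha1' : (a 1 : ZMod 2) = 1 := by
    obtain ⟨k, hk⟩ := ha1
    rw [hk]
    push_cast
    linear_combination (k : ZMod 2) * h20
  let abar : ℕ → ZMod 2 := fun n => (a n : ZMod 2) + (a (2 * n) : ZMod 2)
  have habar1 : abar 1 = 1 := by simp [abar, ha1', ha2']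
  have hr : ∀ ℓ : ℕ, ℓ.Prime → ¬ ℓ ∣ N → ∀ n : ℕ,
      (a (ℓ * n) : ZMod 2) + (if ℓ ∣ n then (a (n / ℓ) : ZMod 2) else 0) =
        (a ℓ : ZMod 2) * (a n : ZMod 2) := by
    intro ℓ hℓ hℓN n
    have h := hz (hrec ℓ hℓ hℓN n)
    split_ifs at h ⊢ <;> push_cast at h <;> exact h
  have habarT : ∀ (ℓ : ℕ), ℓ.Prime → ¬ ℓ ∣ N → ∀ n, abar (n * ℓ) +
      (if ℓ ∣ n then (ℓ : ZMod 2) * abar (n / ℓ) else 0) = (lev ℓ : ZMod 2) * abar n := by
    intro ℓ hℓ hℓN n
    by_cases h2ℓ : ℓ = 2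
    · subst h2ℓ
      have h := hr 2 hℓ hℓN (2 * n)
      rw [if_pos (dvd_mul_right 2 n), Nat.mul_div_cancel_left n (by norm_num), ha2', zero_mul] at h
      have hlev : (lev 2 : ZMod 2) = 1 := by simp [lev]
      simp only [abar, hlev, mul_comm n 2, one_mul, Nat.cast_ofNat, h20, zero_mul, ite_self,
        add_zero]
      linear_combination h - (a n : ZMod 2) * h20
    · have hodd : (ℓ : ZMod 2) = 1 := by
        obtain ⟨k, rfl⟩ := hℓ.odd_of_ne_two h2ℓ
        push_cast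
        linear_combination (k : ZMod 2) * h20
      have hlev : (lev ℓ : ZMod 2) = (a ℓ : ZMod 2) := by simp [lev, h2ℓ, hℓN]
      have hdvd : ℓ ∣ 2 * n ↔ ℓ ∣ n :=
        ⟨fun h => (hℓ.dvd_mul.1 h).resolve_left fun h' =>
          h2ℓ ((Nat.prime_dvd_prime_iff_eq hℓ Nat.prime_two).1 h'), fun h => dvd_mul_of_dvd_right h 2⟩
      have h1 := hr ℓ hℓ hℓN n
      have h2' := hr ℓ hℓ hℓN (2 * n)
      rw [mul_left_comm] at h2'
      simp only [abar, hlev, hodd, one_mul, mul_comm n ℓ]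
      by_cases hd : ℓ ∣ n
      · rw [if_pos hd] at h1 ⊢
        rw [if_pos (hdvd.2 hd), Nat.mul_div_assoc 2 hd] at h2'
        linear_combination h1 + h2'
      · rw [if_neg hd] at h1 ⊢
        rw [if_neg (hdvd.not.2 hd)] at h2'
        linear_combination h1 + h2'
  have habarU : ∀ (q : ℕ), q.Prime → q ∣ N → ∀ n, abar (n * q) = abar n := by
    intro q hq hqN n
    have h1 := hz (hU q hq hqN n)
    have h2' := hz (hU q hq hqN (2 * n))
    simp only [abar, mul_comm n q, mul_left_comm 2 q n, h1, h2']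
  let f₀ : CuspForm (Gamma0 N) 2 := g + CuspForm.heckeTLin 2 Nat.prime_two hN g
  have hb' : ∀ n, coeffSeq N g n = (b n : ℂ) := hb
  have hf₀c : ∀ n, coeffSeq N f₀ n =
      ((b n + (b (n * 2) + if 2 ∣ n then 2 * b (n / 2) else 0) : ℤ) : ℂ) := by
    intro n
    simp only [f₀, map_add, Pi.add_apply, coeff_heckeT Nat.prime_two hN, hb']
    split_ifs <;> simp
  have hf₀L : f₀ ∈ intForms N := fun n => ⟨_, hf₀c n⟩
  choose cf hcf using fun (g : intForms N) (n : ℕ) => g.2 n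
  let red : intForms N → ℕ → ZMod 2 := fun g n => (cf g n : ZMod 2)
  have red_eq : ∀ (g : intForms N) (n : ℕ) (m : ℤ), coeffSeq N g.1 n = (m : ℂ) →
      red g n = (m : ZMod 2) := by
    intro g n m hm
    rw [hcf g n, Int.cast_inj] at hm
    simp only [red, hm]
  have hred₀ : ∀ n, red ⟨f₀, hf₀L⟩ n = abar n := by
    intro n
    rw [red_eq ⟨f₀, hf₀L⟩ n _ (hf₀c n)]
    have hif : ((if 2 ∣ n then 2 * b (n / 2) else 0 : ℤ) : ZMod 2) = 0 := by
      split_ifs <;> simp [h20]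
    rw [Int.cast_add, Int.cast_add, hif, add_zero, hz (hba n), hz (hba (n * 2)), mul_comm n 2]
  let T := CuspForm.heckeAlgebra N 2 (∅ : Set ℕ)
  let act : T → intForms N → intForms N := fun t g => ⟨t.1 g.1, hecke_mem_intForms t g.2⟩
  let P : T → Prop := fun t => ∃ c : ZMod 2, ∀ (g : intForms N) (k : ZMod 2),
    (∀ n, red g n = k * abar n) → ∀ n, red (act t g) n = c * (k * abar n)
  have hgenT : ∀ (ℓ : ℕ) (hℓ : ℓ.Prime) (hℓN : ¬ ℓ ∣ N) (g : intForms N) (k : ZMod 2),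
      (∀ n, red g n = k * abar n) → ∀ n,
      red (act (CuspForm.heckeAlgebra.T hℓ hℓN (Set.notMem_empty _)) g) n =
        (lev ℓ : ZMod 2) * (k * abar n) := by
    intro ℓ hℓ hℓN g k hg n
    have hc : coeffSeq N (act (CuspForm.heckeAlgebra.T hℓ hℓN (Set.notMem_empty _)) g).1 n =
        ((cf g (n * ℓ) + if ℓ ∣ n then (ℓ : ℤ) * cf g (n / ℓ) else 0 : ℤ) : ℂ) := by
      change coeffSeq N (CuspForm.heckeTLin 2 hℓ hℓN g.1) n = _
      rw [coeff_heckeT hℓ hℓN, hcf, hcf]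
      split_ifs <;> simp
    rw [red_eq _ n _ hc]
    have h1 : (cf g (n * ℓ) : ZMod 2) = k * abar (n * ℓ) := hg _
    have h2' : (cf g (n / ℓ) : ZMod 2) = k * abar (n / ℓ) := hg _
    rw [Int.cast_add, h1, mul_left_comm, ← habarT ℓ hℓ hℓN n]
    by_cases hd : ℓ ∣ n
    · simp only [hd, if_true]
      push_cast
      rw [h2']
      ring
    · simp only [hd, if_false]
      push_cast
      ring
  have hgenU : ∀ (q : ℕ) (hq : q.Prime) (hqN : q ∣ N) (g : intForms N) (k : ZMod 2),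
      (∀ n, red g n = k * abar n) → ∀ n,
      red (act (CuspForm.heckeAlgebra.U hq hqN (Set.notMem_empty _)) g) n =
        (lev q : ZMod 2) * (k * abar n) := by
    intro q hq hqN g k hg n
    have hc : coeffSeq N (act (CuspForm.heckeAlgebra.U hq hqN (Set.notMem_empty _)) g).1 n =
        ((cf g (n * q) : ℤ) : ℂ) := by
      change coeffSeq N (CuspForm.heckeULin 2 hqN g.1) n = _
      rw [coeff_heckeU hq hqN, hcf]
    rw [red_eq _ n _ hc, show (cf g (n * q) : ZMod 2) = k * abar (n * q) from hg _,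
      habarU q hq hqN n]
    simp [lev, hqN]
  have hint : ∀ m : ℤ, ∀ (g : intForms N) (k : ZMod 2), (∀ n, red g n = k * abar n) →
      ∀ n, red (act (algebraMap ℤ T m) g) n = (m : ZMod 2) * (k * abar n) := by
    intro m g k hg n
    have hc : coeffSeq N (act (algebraMap ℤ T m) g).1 n = ((m * cf g n : ℤ) : ℂ) := by
      have h0 : (act (algebraMap ℤ T m) g).1 = m • g.1 := by
        change (algebraMap ℤ (Module.End ℂ (CuspForm (Gamma0 N) 2)) m) g.1 = _
        rw [Module.algebraMap_end_apply]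
      rw [h0, map_zsmul, Pi.smul_apply, hcf, zsmul_eq_mul]
      push_cast; ring
    rw [red_eq _ n _ hc]
    push_cast
    rw [show (cf g n : ZMod 2) = k * abar n from hg n]
  have hP : ∀ t : T, P t := by
    rintro ⟨t, ht⟩
    refine Algebra.adjoin_induction (p := fun t ht => P ⟨t, ht⟩) ?_ ?_ ?_ ?_ ht
    · intro t ht
      rcases ht with ⟨ℓ, hℓ, hℓN, hℓS, rfl⟩ | ⟨q, hqN, hq, hqS, rfl⟩
      · exact ⟨_, hgenT ℓ hℓ hℓN⟩
      · exact ⟨_, hgenU q hq hqN⟩
    · intro m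
      exact ⟨_, hint m⟩
    · rintro x y hx hy ⟨c, hc⟩ ⟨d, hd⟩
      refine ⟨c + d, fun g k hg n => ?_⟩
      have he : coeffSeq N (act (⟨x, hx⟩ + ⟨y, hy⟩) g).1 n =
          ((cf (act ⟨x, hx⟩ g) n + cf (act ⟨y, hy⟩ g) n : ℤ) : ℂ) := by
        rw [Int.cast_add, ← hcf, ← hcf]
        change coeffSeq N (x g.1 + y g.1) n = _
        rw [map_add]; rfl
      change red (act (⟨x, hx⟩ + ⟨y, hy⟩) g) n = _
      rw [red_eq _ n _ he, Int.cast_add, add_mul]
      exact congrArg₂ (· + ·) (hc g k hg n) (hd g k hg n)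
    · rintro x y hx hy ⟨c, hc⟩ ⟨d, hd⟩
      refine ⟨c * d, fun g k hg n => ?_⟩
      change red (act ⟨x, hx⟩ (act ⟨y, hy⟩ g)) n = _
      rw [hc (act ⟨y, hy⟩ g) (d * k) (fun n => by rw [hd g k hg n, mul_assoc]) n]
      ring
  choose cP hcP using hP
  have hcP1 : ∀ t : T, cP t = red (act t ⟨f₀, hf₀L⟩) 1 := by
    intro t
    rw [hcP t ⟨f₀, hf₀L⟩ 1 (fun n => by rw [one_mul, hred₀]) 1]
    simp [habar1]
  have huniq : ∀ (t : T) (c : ZMod 2), (∀ (g : intForms N) (k : ZMod 2),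
      (∀ n, red g n = k * abar n) → ∀ n, red (act t g) n = c * (k * abar n)) → cP t = c := by
    intro t c hc
    rw [hcP1, hc ⟨f₀, hf₀L⟩ 1 (fun n => by rw [one_mul, hred₀]) 1]
    simp [habar1]
  let θ : T →+* ZMod 2 :=
    { toFun := cP
      map_one' := huniq _ _ (fun g k hg n => by
        rw [one_mul]; exact hg n)
      map_mul' := fun x y => huniq _ _ (fun g k hg n => by
        change red (act x (act y g)) n = _
        rw [hcP x (act y g) (cP y * k) (fun n => by rw [hcP y g k hg n, mul_assoc]) n]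
        ring)
      map_zero' := huniq _ _ (fun g k hg n => by
        rw [zero_mul, red_eq _ n 0 (by
          change coeffSeq N (0 : CuspForm (Gamma0 N) 2) n = _
          rw [map_zero]; simp), Int.cast_zero])
      map_add' := fun x y => huniq _ _ (fun g k hg n => by
        have he : coeffSeq N (act (x + y) g).1 n = ((cf (act x g) n + cf (act y g) n : ℤ) : ℂ) := by
          rw [Int.cast_add, ← hcf, ← hcf]
          change coeffSeq N (x.1 g.1 + y.1 g.1) n = _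
          rw [map_add]; rfl
        rw [red_eq _ n _ he, Int.cast_add, add_mul]
        exact congrArg₂ (· + ·) (hcP x g k hg n) (hcP y g k hg n)) }
  haveI : Fact (Nat.Prime 2) := ⟨Nat.prime_two⟩
  haveI : Module.Finite ℤ T := Alg.heckeAlgebra_finite (Attach.hasIntegralBasis N)
  obtain ⟨χ, 𝔪', hmax, h2m, hker⟩ := Alg.exists_maximal_lift θ
  obtain ⟨f, hf, hfT, hfU⟩ :=
    LR.exists_eigenform_full ((integralClosure ℤ ℂ).val.toRingHom.comp χ : TFull N →+* ℂ)
  refine ⟨f, 𝔪', hf, hmax, h2m, fun ℓ hℓ => ?_⟩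
  by_cases hℓN : ℓ ∣ N
  · refine ⟨χ (CuspForm.heckeAlgebra.U hℓ hℓN (Set.notMem_empty _)), (hfU ℓ hℓ hℓN).symm, ?_⟩
    have h0 : θ (CuspForm.heckeAlgebra.U hℓ hℓN (Set.notMem_empty _) - (lev ℓ : T)) = 0 := by
      rw [map_sub, map_intCast]
      exact sub_eq_zero.2 (huniq _ _ (hgenU ℓ hℓ hℓN))
    have h := hker _ h0
    rwa [map_sub, map_intCast] at h
  · refine ⟨χ (CuspForm.heckeAlgebra.T hℓ hℓN (Set.notMem_empty _)), (hfT ℓ hℓ hℓN).symm, ?_⟩
    have h0 : θ (CuspForm.heckeAlgebra.T hℓ hℓN (Set.notMem_empty _) - (lev ℓ : T)) = 0 := by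
      rw [map_sub, map_intCast]
      exact sub_eq_zero.2 (huniq _ _ (hgenT ℓ hℓ hℓN))
    have h := hker _ h0
    rwa [map_sub, map_intCast] at h

end FLTAgent.TH2

end
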