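import Fermat.Agent.TH2.FieldGal
import Fermat.Agent.SS2.Unramified

/-!
Area TH2, parcel FIELD: the cubic extension.
-/

set_option autoImplicit false
set_option linter.unusedSectionVars false
set_option linter.style.haveILetI false

noncomputable section

namespace FLTAgent.TH2

open scoped NumberField Pointwise
open Local (QBar)

local notation "GalQ" => AlgebraicClosure ℚ ≃ₐ[ℚ] AlgebraicClosure ℚ

variable {W : WeierstrassCurve ℤ}

theorem gal_mem_quadField (σ : GalQ) {x : QBar} (hx : x ∈ quadField W) : σ x ∈ quadField W := by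
  induction hx using IntermediateField.adjoin_induction with
  | mem x hx =>
    rw [Set.mem_singleton_iff.mp hx]
    rcases sq_eq_sq_iff_eq_or_eq_neg.mp (show σ (sqrtΔ W) ^ 2 = sqrtΔ W ^ 2 by
      rw [← map_pow, sqrtΔ_sq, map_intCast]) with e | e <;> rw [e]
    · exact sqrtΔ_mem_quadField
    · exact neg_mem sqrtΔ_mem_quadField
  | algebraMap r => rw [σ.commutes]; exact (quadField W).algebraMap_mem r
  | add x y _ _ hx hy => rw [map_add]; exact add_mem hx hy
  | inv x _ hx => rw [map_inv₀]; exact inv_mem hx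
  | mul x y _ _ hx hy => rw [map_mul]; exact mul_mem hx hy

theorem gal_mem_cubicField (D : Trio W) (σ : GalQ) {x : QBar} (hx : x ∈ cubicField W) :
    σ x ∈ cubicField W := by
  induction hx using IntermediateField.adjoin_induction with
  | mem x hx =>
    obtain ⟨i, rfl⟩ := (D.mem_iff x).mp hx
    rw [D.perm_spec]
    exact IntermediateField.subset_adjoin _ _ (D.mem _)
  | algebraMap r => exact (cubicField W).algebraMap_mem ⟨_, gal_mem_quadField σ r.2⟩
  | add x y _ _ hx hy => rw [map_add]; exact add_mem hx hy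
  | inv x _ hx => rw [map_inv₀]; exact inv_mem hx
  | mul x y _ _ hx hy => rw [map_mul]; exact mul_mem hx hy

theorem normal_rat_cubicField (D : Trio W) :
    Normal ℚ ((cubicField W).restrictScalars ℚ) := by
  haveI := Common.isGalois_qbar
  haveI : Normal ℚ QBar := IsGalois.to_normal
  refine (IntermediateField.normal_iff_forall_map_le' (L := QBar)).mpr fun σ x hx => ?_
  obtain ⟨y, hy, rfl⟩ := hx
  exact gal_mem_cubicField D σ hy

theorem isGalois_cubicField_aux (D : Trio W) : IsGalois (quadField W) (cubicField W) := by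
  haveI := Common.isGalois_qbar
  haveI : Normal ℚ QBar := IsGalois.to_normal
  haveI : Normal (quadField W) QBar := Normal.tower_top_of_normal ℚ _ _
  haveI : Normal (quadField W) (cubicField W) := by
    rw [IntermediateField.normal_iff_forall_map_le']
    intro σ x hx
    obtain ⟨y, hy, rfl⟩ := hx
    exact gal_mem_cubicField D (σ.restrictScalars ℚ) hy
  exact {}

theorem normal_top : Normal (quadField W) QBar := by
  haveI := Common.isGalois_qbar
  haveI : Normal ℚ QBar := IsGalois.to_normal
  exact Normal.tower_top_of_normal ℚ _ _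

/-- an extension of an automorphism of the cubic field, as an element of the Galois group of `ℚ` -/
def galLift (τ : cubicField W ≃ₐ[quadField W] cubicField W) : GalQ :=
  haveI := normal_top (W := W)
  (τ.liftNormal QBar).restrictScalars ℚ

theorem galLift_apply (τ : cubicField W ≃ₐ[quadField W] cubicField W) (x : cubicField W) :
    galLift τ (x : QBar) = (τ x : QBar) := by
  haveI := normal_top (W := W)
  exact τ.liftNormal_commutes QBar x

theorem galLift_sqrt (τ : cubicField W ≃ₐ[quadField W] cubicField W) :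
    galLift τ (sqrtΔ W) = sqrtΔ W := by
  haveI := normal_top (W := W)
  exact (τ.liftNormal QBar).commutes ⟨sqrtΔ W, sqrtΔ_mem_quadField⟩

theorem galLift_fixesTwo (D : Trio W) (hΔ : W.Δ ≠ 0)
    {τ : cubicField W ≃ₐ[quadField W] cubicField W} (h : FixesTwo W (galLift τ)) : τ = 1 := by
  refine AlgEquiv.ext fun x => Subtype.ext ?_
  rw [← galLift_apply, (fixesTwo_iff_fixes_cubicField D hΔ _).mp h _ x.2]
  rfl

theorem finrank_cubicField_aux (D : Trio W) (hW : W.ModRepIsIrreducible 2) (hneg : W.Δ < 0) :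
    Module.finrank (quadField W) (cubicField W) = 3 := by
  haveI := isGalois_cubicField_aux D
  have hΔ := hneg.ne
  rw [← IsGalois.card_aut_eq_finrank]
  let f : (cubicField W ≃ₐ[quadField W] cubicField W) →
      {s : Equiv.Perm (Fin 3) // Equiv.Perm.sign s = 1} :=
    fun τ => ⟨D.perm (galLift τ), (D.fixes_sqrt_iff hΔ _).mp (galLift_sqrt τ)⟩
  have hf : Function.Bijective f := by
    constructor
    · intro τ τ' e
      have e' : D.permHom (galLift τ) = D.permHom (galLift τ') := congrArg Subtype.val e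
      have h1 : FixesTwo W ((galLift τ')⁻¹ * galLift τ) := by
        rw [D.fixesTwo_iff_perm hΔ]
        show D.permHom _ = 1
        rw [map_mul, map_inv, e', inv_mul_cancel]
      refine AlgEquiv.ext fun x => Subtype.ext ?_
      have h2 := congrArg (galLift τ')
        ((fixesTwo_iff_fixes_cubicField D hΔ _).mp h1 _ x.2)
      rw [AlgEquiv.mul_apply, ← AlgEquiv.mul_apply, mul_inv_cancel, AlgEquiv.one_apply,
        galLift_apply, galLift_apply] at h2
      exact h2
    · rintro ⟨t, ht⟩
      obtain ⟨σ, hσ, hσ1⟩ := exists_three_cycle D hW hneg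
      obtain ⟨g, rfl⟩ : ∃ g, D.perm g = t := by
        rcases perm_three_even _ t hσ hσ1 ht with rfl | rfl | rfl
        · exact ⟨1, D.perm_one⟩
        · exact ⟨σ, rfl⟩
        · exact ⟨σ * σ, D.perm_mul σ σ⟩
      have hg := fun {x : QBar} (hx : x ∈ quadField W) =>
        fixed_quadField ((D.fixes_sqrt_iff hΔ g).mpr ht) hx
      let g' : QBar ≃ₐ[quadField W] QBar :=
        AlgEquiv.ofRingEquiv (f := g.toRingEquiv) fun x => hg x.2
      refine ⟨g'.restrictNormal (cubicField W), Subtype.ext (Equiv.ext fun i => D.inj ?_)⟩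
      rw [← D.perm_spec, ← D.perm_spec]
      have hi : D.e i ∈ cubicField W := IntermediateField.subset_adjoin _ _ (D.mem i)
      rw [show D.e i = ((⟨D.e i, hi⟩ : cubicField W) : QBar) from rfl, galLift_apply]
      exact g'.restrictNormal_commutes (cubicField W) ⟨D.e i, hi⟩
  rw [Nat.card_congr (Equiv.ofBijective f hf), Nat.card_eq_fintype_card]
  decide

theorem rank_cubicField_aux (hF : Module.finrank ℚ (quadField W) = 2)
    (hK : Module.finrank (quadField W) (cubicField W) = 3) :
    0 < NumberField.Units.rank (cubicField W) := by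
  have h6 : Module.finrank ℚ (cubicField W) = 6 := by
    haveI : Module.Free (quadField W) (cubicField W) := Module.Free.of_divisionRing _ _
    rw [← Module.finrank_mul_finrank ℚ (quadField W) (cubicField W), hF, hK]
  have h := NumberField.InfinitePlace.sum_mult_eq (K := cubicField W)
  rw [h6] at h
  have h2 : 6 ≤ Fintype.card (NumberField.InfinitePlace (cubicField W)) * 2 := by
    rw [← h, ← smul_eq_mul, ← Finset.card_univ]
    refine Finset.sum_le_card_nsmul _ _ _ fun w _ => ?_
    unfold NumberField.InfinitePlace.mult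
    split_ifs <;> norm_num
  show 0 < Fintype.card (NumberField.InfinitePlace (cubicField W)) - 1
  omega

theorem cover_pairs : ∀ s : Equiv.Perm (Fin 3), Equiv.Perm.sign s = 1 → s ≠ 1 →
    ∀ i j, j = i ∨ j = s i ∨ i = s j := by decide

/-- inertia never acts as a three cycle -/
theorem inertia_not_three_cycle (D : Trio W) (h : Admissible W) {A : ValuationSubring QBar}
    {q : ℕ} (hq : q.Prime) (hA : A.LiesOverPrime q) {ρ : GalQ}
    (hρ : ρ ∈ A.inertiaSubgroupIn ℚ) (hs : Equiv.Perm.sign (D.perm ρ) = 1) : D.perm ρ = 1 := by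
  by_contra hne
  have hΔ := h.neg.ne
  by_cases hq2 : q = 2
  · subst hq2
    exact hne ((D.fixesTwo_iff_perm hΔ ρ).mp (h.unramified_two A hA ρ hρ))
  have hzA : ∀ i, 4 * D.e i ∈ A := fun i => by
    refine SS2.integral_mem A ?_
    refine ⟨Polynomial.X ^ 3 + Polynomial.C W.b₂ * Polynomial.X ^ 2 +
      Polynomial.C (8 * W.b₄) * Polynomial.X + Polynomial.C (16 * W.b₆), by monicity!, ?_⟩
    have hr : (4 : QBar) * D.e i ^ 3 + (W.b₂ : QBar) * D.e i ^ 2 +
      2 * (W.b₄ : QBar) * D.e i + (W.b₆ : QBar) = 0 := D.mem i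
    simp only [Polynomial.eval₂_add, Polynomial.eval₂_mul, Polynomial.eval₂_X_pow,
      Polynomial.eval₂_X, Polynomial.eval₂_C]
    simp only [eq_intCast, Int.cast_mul, Int.cast_ofNat]
    linear_combination 16 * hr
  have h4 : A.valuation (4 : QBar) = 1 := by
    have := Local.val_int_eq_one hA hq (z := 4) fun hd => hq2
      ((Nat.prime_dvd_prime_iff_eq hq Nat.prime_two).mp
        (hq.dvd_of_dvd_pow (n := 2) (by exact_mod_cast hd)))
    simpa using this
  have hstep : ∀ i, A.valuation (D.e (D.perm ρ i) - D.e i) < 1 := fun i => by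
    have hlt := (Local.inertial_of_mem hρ).2 _ (hzA i)
    rw [show (ρ : QBar →+* QBar) (4 * D.e i) = 4 * D.e (D.perm ρ i) by
      show ρ (4 * D.e i) = _
      rw [map_mul, map_ofNat, D.perm_spec], ← mul_sub, map_mul, h4, one_mul] at hlt
    exact hlt
  have hall : ∀ i j, A.valuation (D.e i - D.e j) < 1 := fun i j => by
    rcases cover_pairs _ hs hne i j with e | e | e
    · rw [e, sub_self, map_zero]; exact zero_lt_one
    · rw [e, Valuation.map_sub_swap]; exact hstep i
    · rw [e]; exact hstep j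
  have hle : ∀ i j, A.valuation (D.e i - D.e j) ≤ 1 := fun i j => (hall i j).le
  have hdΔ : (q : ℤ) ∣ W.Δ := by
    rw [← Local.val_int_lt_one_iff hA hq, ← D.disc]
    simp only [map_pow, map_mul, h4, one_mul]
    exact pow_lt_one₀ zero_le (mul_lt_one_of_nonneg_of_lt_one_left zero_le
      (mul_lt_one_of_nonneg_of_lt_one_left zero_le (hall 0 1) (hle 0 2)) (hle 1 2)) two_ne_zero
  refine h.ss q hq hdΔ ?_
  rw [← Local.val_int_lt_one_iff hA hq]
  have e : (W.c₄ : QBar) = 8 * ((D.e 0 - D.e 1) ^ 2 + (D.e 0 - D.e 2) ^ 2 +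
      (D.e 1 - D.e 2) ^ 2) := by
    simp only [WeierstrassCurve.c₄]
    push_cast
    linear_combination (-(W.b₂ : QBar) + 4 * (D.e 0 + D.e 1 + D.e 2)) * (-1 : QBar) * D.sum +
      12 * D.pairs
  rw [e, map_mul]
  refine mul_lt_one_of_nonneg_of_lt_one_right ((A.valuation_le_one_iff _).mpr (ofNat_mem A 8))
    zero_le ?_
  have hsq : ∀ i j, A.valuation ((D.e i - D.e j) ^ 2) < 1 := fun i j => by
    rw [map_pow]; exact pow_lt_one₀ zero_le (hall i j) two_ne_zero
  exact lt_of_le_of_lt (Valuation.map_add _ _ _) (max_lt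
    (lt_of_le_of_lt (Valuation.map_add _ _ _) (max_lt (hsq 0 1) (hsq 0 2))) (hsq 1 2))

theorem inertia_nontrivial (D : Trio W) (P : Ideal (𝓞 (cubicField W))) (hP : P.IsPrime)
    (hP0 : P ≠ ⊥)
    (hle : (P.under (𝓞 (quadField W))).map
      (algebraMap (𝓞 (quadField W)) (𝓞 (cubicField W))) ≤ P ^ 2) :
    ∃ τ : cubicField W ≃ₐ[quadField W] cubicField W, τ ≠ 1 ∧ ∀ a : 𝓞 (cubicField W),
      galRestrict (𝓞 (quadField W)) (quadField W) (cubicField W) (𝓞 (cubicField W)) τ a - a ∈
        P := by
  classical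
  haveI := isGalois_cubicField_aux D
  haveI := hP.isMaximal hP0
  let F := quadField W
  let L := cubicField W
  letI : MulSemiringAction Gal(L/F) (𝓞 L) :=
    IsIntegralClosure.MulSemiringAction (𝓞 F) F L (𝓞 L)
  haveI := IsGaloisGroup.of_isFractionRing Gal(L/F) (𝓞 F) (𝓞 L) F L
  set pF : Ideal (𝓞 F) := P.under (𝓞 F) with hpF
  haveI : pF.IsPrime := Ideal.IsPrime.under _ P
  haveI : P.LiesOver pF := ⟨rfl⟩
  have hpF0 : pF ≠ ⊥ := Ideal.under_ne_bot _ hP0
  haveI : pF.IsMaximal := (inferInstance : pF.IsPrime).isMaximal hpF0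
  haveI : Finite (𝓞 F ⧸ pF) := Ideal.finiteQuotientOfFreeOfNeBot pF hpF0
  have hmap0 : pF.map (algebraMap (𝓞 F) (𝓞 L)) ≠ ⊥ :=
    Ideal.map_ne_bot_of_ne_bot hpF0
  have hcard := Ideal.card_inertia_eq_ramificationIdxIn (G := Gal(L/F)) pF P
  rw [Ideal.ramificationIdxIn_eq_ramificationIdx pF P Gal(L/F),
    Ideal.IsDedekindDomain.ramificationIdx_eq_multiplicity pF P hmap0] at hcard
  have h2 : 2 ≤ multiplicity P (pF.map (algebraMap (𝓞 F) (𝓞 L))) :=
    (FiniteMultiplicity.of_prime_left (Ideal.prime_of_isPrime hP0 hP) hmap0).le_multiplicity_of_pow_dvd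
      (Ideal.dvd_iff_le.mpr hle)
  by_contra hcon
  push Not at hcon
  have h1 : Nat.card (P.inertia Gal(L/F)) = 1 := by
    rw [Nat.card_eq_one_iff_unique]
    refine ⟨⟨fun x y => Subtype.ext ?_⟩, ⟨1⟩⟩
    have key : ∀ z : P.inertia Gal(L/F), (z : Gal(L/F)) = 1 := fun z => by
      by_contra hz
      obtain ⟨a, ha⟩ := hcon z hz
      exact ha (z.2 a)
    rw [key x, key y]
  have h3 : 2 ≤ 1 := h2.trans (hcard.symm.trans h1).le
  omega

theorem unramified_cubicField_aux (D : Trio W) (h : Admissible W)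
    (P : Ideal (𝓞 (cubicField W))) (hP : P.IsPrime) (hP0 : P ≠ ⊥) :
    ¬ (P.under (𝓞 (quadField W))).map
      (algebraMap (𝓞 (quadField W)) (𝓞 (cubicField W))) ≤ P ^ 2 := by
  classical
  intro hle
  obtain ⟨τ, hτ1, hτ⟩ := inertia_nontrivial D P hP hP0 hle
  haveI hPmax := hP.isMaximal hP0
  -- the residue characteristic
  let q := ringChar (𝓞 (cubicField W) ⧸ P)
  haveI : Finite (𝓞 (cubicField W) ⧸ P) := Ideal.finiteQuotientOfFreeOfNeBot P hP0
  have hq : q.Prime := CharP.char_is_prime (𝓞 (cubicField W) ⧸ P) q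
  have hqP : (q : 𝓞 (cubicField W)) ∈ P := by
    rw [← Ideal.Quotient.eq_zero_iff_mem, map_natCast]
    exact CharP.cast_eq_zero _ q
  -- a place over it
  let φ : 𝓞 (cubicField W) →+* QBar :=
    (algebraMap (cubicField W) QBar).comp (algebraMap (𝓞 (cubicField W)) (cubicField W))
  have hφ : Function.Injective φ :=
    (algebraMap (cubicField W) QBar).injective.comp NumberField.RingOfIntegers.coe_injective
  have hI : P.map φ.rangeRestrict ≠ ⊤ := fun e => hP.ne_top (by
    rw [← Ideal.comap_map_of_bijective φ.rangeRestrict (I := P)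
      ⟨fun a b e' => hφ (congrArg (fun z : φ.range => (z : QBar)) e'), φ.rangeRestrict_surjective⟩, e,
      Ideal.comap_top])
  obtain ⟨A, -, hA⟩ := Ideal.image_subset_nonunits_valuationSubring _ hI
  have hPA : ∀ a ∈ P, φ a ∈ A.nonunits := fun a ha =>
    hA ⟨φ.rangeRestrict a, Ideal.mem_map_of_mem _ ha, rfl⟩
  have hqA : A.LiesOverPrime q := by
    have := hPA _ hqP
    rwa [map_natCast] at this
  -- the normal field
  haveI := Common.isGalois_qbar
  let K : IntermediateField ℚ QBar := (cubicField W).restrictScalars ℚ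
  haveI : FiniteDimensional ℚ K :=
    (inferInstance : FiniteDimensional ℚ (cubicField W))
  haveI : NumberField K := { to_finiteDimensional := inferInstance }
  haveI : Normal ℚ K := normal_rat_cubicField D
  haveI : IsGalois ℚ K := {}
  let ψ : 𝓞 K →+* Common.ZBar :=
    { toFun := fun a => ⟨((a : K) : QBar),
        (NumberField.RingOfIntegers.isIntegral_coe a).map (K.val.restrictScalars ℤ)⟩
      map_one' := Subtype.ext (by simp)
      map_mul' := fun a b => Subtype.ext (by simp)
      map_zero' := Subtype.ext (by simp)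
      map_add' := fun a b => Subtype.ext (by simp) }
  let P' : Ideal (𝓞 K) := (Common.centre A).comap ψ
  haveI := Common.centre_isPrime A
  haveI hP'prime : P'.IsPrime := Ideal.IsPrime.comap ψ
  have hP'mem : ∀ a : 𝓞 K, a ∈ P' ↔ ((a : K) : QBar) ∈ A.nonunits := fun a => Iff.rfl
  haveI : P'.IsMaximal := hP'prime.isMaximal fun hb => by
    have : (q : 𝓞 K) ∈ P' := by rw [hP'mem]; simpa [ValuationSubring.LiesOverPrime] using hqA
    rw [hb, Ideal.mem_bot] at this
    exact (Nat.cast_ne_zero.mpr hq.ne_zero) this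
  let τ' : Gal(K/ℚ) := AlgEquiv.restrictNormalHom K (galLift τ)
  have hτ'x : ∀ x : K, ((τ' x : K) : QBar) = galLift τ (x : QBar) := fun x =>
    AlgEquiv.restrictNormal_commutes (galLift τ) K x
  obtain ⟨ρ, hρ, hρτ⟩ := SS2.exists_inertia_lift hq hqA K P' hP'mem τ' fun a => by
    let a' : 𝓞 (cubicField W) := ⟨⟨((a : K) : QBar), (a : K).2⟩,
      (isIntegral_algHom_iff ((cubicField W).val.restrictScalars ℤ) Subtype.val_injective).mp
        ((NumberField.RingOfIntegers.isIntegral_coe a).map (K.val.restrictScalars ℤ))⟩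
    rw [hP'mem]
    have hmem := hPA _ (hτ a')
    have e1 : φ (galRestrict (𝓞 (quadField W)) (quadField W) (cubicField W)
        (𝓞 (cubicField W)) τ a') = galLift τ ((a : K) : QBar) := by
      show ((algebraMap (𝓞 (cubicField W)) (cubicField W) _ : cubicField W) : QBar) = _
      rw [algebraMap_galRestrict_apply]
      exact (galLift_apply τ _).symm
    have e2 : φ a' = ((a : K) : QBar) := rfl
    rw [map_sub, e1, e2] at hmem
    have e3 : (((galRestrict ℤ ℚ K (𝓞 K) τ' a : 𝓞 K) : K) : QBar)
        = galLift τ ((a : K) : QBar) := by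
      rw [show ((galRestrict ℤ ℚ K (𝓞 K) τ' a : 𝓞 K) : K) = τ' (a : K) from
        algebraMap_galRestrict_apply ℤ τ' a, hτ'x]
    rw [← e3] at hmem
    simpa using hmem
  have hρK : ∀ x ∈ cubicField W, ρ x = galLift τ x := fun x hx => by
    rw [← hτ'x ⟨x, hx⟩]; exact hρτ ⟨x, hx⟩
  have hperm : D.perm ρ = D.perm (galLift τ) := Equiv.ext fun i => D.inj (by
    rw [← D.perm_spec, ← D.perm_spec,
      hρK _ (IntermediateField.subset_adjoin _ _ (D.mem i))])
  refine hτ1 (galLift_fixesTwo D h.neg.ne ((D.fixesTwo_iff_perm h.neg.ne _).mpr ?_))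
  rw [← hperm]
  exact inertia_not_three_cycle D h hq hqA hρ
    (by rw [hperm]; exact (D.fixes_sqrt_iff h.neg.ne _).mp (galLift_sqrt τ))

end FLTAgent.TH2

end
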