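import Fermat.Agent.TH2.FieldQuad
import Fermat.Agent.TH2.FieldCubic
import Fermat.Prelude.Def_EllipticCurve_FrobeniusTrace

/-!
Area TH2, parcel FIELD: the fields cut out by the two-torsion.
-/

set_option autoImplicit false

noncomputable section

namespace FLTAgent.TH2

open scoped NumberField
open Local (QBar QPoint)
open WeierstrassCurve.Affine.Point

local notation "GalQ" => AlgebraicClosure ℚ ≃ₐ[ℚ] AlgebraicClosure ℚ

variable {W : WeierstrassCurve ℤ}

theorem level_squarefree : Squarefree (level W) := by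
  unfold level
  refine Finset.squarefree_prod_of_pairwise_isCoprime (fun a ha b hb hab => ?_) fun a ha => ?_
  · have ha' := (Nat.mem_primeFactors.mp (Finset.mem_filter.mp ha).1).1
    have hb' := (Nat.mem_primeFactors.mp (Finset.mem_filter.mp hb).1).1
    exact Nat.coprime_iff_isRelPrime.mp ((Nat.coprime_primes ha' hb').mpr hab)
  · exact (Nat.mem_primeFactors.mp (Finset.mem_filter.mp ha).1).1.squarefree

theorem finrank_quadField (h : Admissible W) : Module.finrank ℚ (quadField W) = 2 :=
  finrank_quadField_aux h.neg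

theorem discr_quadField (h : Admissible W) :
    NumberField.discr (quadField W) < 0 ∧
      (NumberField.discr (quadField W)).natAbs = level W := by
  obtain ⟨b, t, -, -, -, -, h5⟩ := exists_sq_level h
  rw [discr_quadField_aux h level_squarefree, Int.natAbs_neg, Int.natAbs_natCast]
  exact ⟨by omega, rfl⟩

theorem units_quadField (h : Admissible W) (u : (𝓞 (quadField W))ˣ) : u = 1 ∨ u = -1 :=
  units_quadField_aux h level_squarefree u

theorem isGalois_cubicField (h : Admissible W) : IsGalois (quadField W) (cubicField W) := by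
  obtain ⟨D⟩ := nonempty_trio h.neg.ne
  exact isGalois_cubicField_aux D

theorem finrank_cubicField (h : Admissible W) :
    Module.finrank (quadField W) (cubicField W) = 3 := by
  obtain ⟨D⟩ := nonempty_trio h.neg.ne
  exact finrank_cubicField_aux D h.irr h.neg

theorem rank_cubicField (h : Admissible W) : 0 < NumberField.Units.rank (cubicField W) :=
  rank_cubicField_aux (finrank_quadField h) (finrank_cubicField h)

theorem unramified_cubicField (h : Admissible W) (P : Ideal (𝓞 (cubicField W)))
    (hP : P.IsPrime) (hP0 : P ≠ ⊥) :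
    ¬ (P.under (𝓞 (quadField W))).map
      (algebraMap (𝓞 (quadField W)) (𝓞 (cubicField W))) ≤ P ^ 2 := by
  obtain ⟨D⟩ := nonempty_trio h.neg.ne
  exact unramified_cubicField_aux D h P hP hP0

theorem fixesTwo_iff (h : Admissible W) (σ : GalQ) :
    FixesTwo W σ ↔ ∀ x ∈ cubicField W, σ x = x := by
  obtain ⟨D⟩ := nonempty_trio h.neg.ne
  exact fixesTwo_iff_fixes_cubicField D h.neg.ne σ

theorem galoisTrace_two (h : Admissible W) (σ : GalQ) :
    galoisTrace ℚ (K := QBar) (W.map (Int.castRingHom ℚ)) 2 σ = 1 ↔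
      σ (sqrtΔ W) = sqrtΔ W ∧ ¬ FixesTwo W σ := by
  obtain ⟨D⟩ := nonempty_trio h.neg.ne
  rw [galoisTrace_two_iff D h.neg.ne, D.fixes_sqrt_iff h.neg.ne, D.fixesTwo_iff_perm h.neg.ne]

/-- the image of Galois is the symmetric group on three letters -/
theorem fixesTwo_pow (h : Admissible W) (σ : GalQ) :
    (σ (sqrtΔ W) = sqrtΔ W → FixesTwo W (σ ^ 3)) ∧
      (σ (sqrtΔ W) ≠ sqrtΔ W → FixesTwo W (σ ^ 2)) := by
  obtain ⟨D⟩ := nonempty_trio h.neg.ne
  exact fixesTwo_pow_aux D h.neg.ne σ

end FLTAgent.TH2

end
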