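import Fermat.Agent.TH2.FieldTwo

/-!
Area TH2, parcel FIELD: the image of Galois on the two-torsion.
-/

set_option autoImplicit false
set_option linter.unusedSectionVars false

noncomputable section

namespace FLTAgent.TH2

open WeierstrassCurve
open Local (QBar QPoint)
open WeierstrassCurve.Affine.Point (galoisTrace galoisRepModuleEnd galoisRepModuleEnd_apply
  IsGaloisStable)
open scoped WeierstrassCurve.Affine

local notation "GalQ" => AlgebraicClosure ℚ ≃ₐ[ℚ] AlgebraicClosure ℚ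

variable {W : WeierstrassCurve ℤ}

theorem two_by_two_trace : ∀ a b c d : ZMod 2, a * d - b * c ≠ 0 →
    (a + d = 1 ↔ (a - 1) * (d - 1) - b * c ≠ 0) := by decide

theorem trace_eq_one_iff_no_fixed (hΔ : W.Δ ≠ 0) (σ : GalQ) :
    galoisTrace ℚ (K := QBar) (W.map (Int.castRingHom ℚ)) 2 σ = 1 ↔
      ∀ P : QPoint W, 2 • P = 0 → σ • P = P → P = 0 := by
  haveI : Fact (Nat.Prime 2) := ⟨Nat.prime_two⟩
  obtain ⟨hfin, hrank⟩ := Torsion.finrank_tors hΔ 2
  let b := Module.finBasisOfFinrankEq (ZMod 2) (Torsion.Tors W 2) hrank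
  let g : Module.End (ZMod 2) (Torsion.Tors W 2) :=
    galoisRepModuleEnd (K := QBar) ℚ (W.map (Int.castRingHom ℚ)) 2 σ
  have hg : ∀ x, g x = σ • x := fun x => rfl
  have hdet : LinearMap.det g ≠ 0 := by
    rw [ne_eq, LinearMap.det_eq_zero_iff_ker_ne_bot, not_not, LinearMap.ker_eq_bot]
    intro x y hxy
    simp only [hg] at hxy
    exact smul_left_cancel σ hxy
  have key : LinearMap.trace (ZMod 2) _ g = 1 ↔ LinearMap.det (g - 1) ≠ 0 := by
    rw [← LinearMap.det_toMatrix b, Matrix.det_fin_two] at hdet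
    rw [LinearMap.trace_eq_matrix_trace (ZMod 2) b, ← LinearMap.det_toMatrix b, map_sub,
      LinearMap.toMatrix_one, Matrix.trace_fin_two, Matrix.det_fin_two]
    simpa using two_by_two_trace _ _ _ _ hdet
  refine key.trans ?_
  rw [ne_eq, LinearMap.det_eq_zero_iff_ker_ne_bot, not_not, LinearMap.ker_eq_bot']
  constructor
  · intro h P hP hfix
    have h0 : g (Torsion.mkTors P hP) - Torsion.mkTors P hP = 0 := by
      rw [hg, sub_eq_zero]
      exact Subtype.ext hfix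
    exact congrArg Subtype.val (h _ h0)
  · intro h x hx
    have hx' : σ • x - x = 0 := hx
    exact Subtype.ext (h x (Torsion.nsmul_tors x) (congrArg Subtype.val (sub_eq_zero.mp hx')))

theorem perm_three_dich : ∀ s : Equiv.Perm (Fin 3),
    (∀ i, s i ≠ i) ↔ (Equiv.Perm.sign s = 1 ∧ s ≠ 1) := by decide

theorem galoisTrace_two_iff (D : Trio W) (hΔ : W.Δ ≠ 0) (σ : GalQ) :
    galoisTrace ℚ (K := QBar) (W.map (Int.castRingHom ℚ)) 2 σ = 1 ↔
      Equiv.Perm.sign (D.perm σ) = 1 ∧ D.perm σ ≠ 1 := by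
  rw [trace_eq_one_iff_no_fixed hΔ, ← perm_three_dich]
  constructor
  · intro h i hi
    obtain ⟨y, hns, h2⟩ := exists_point_of_twoRoot hΔ (D.mem i)
    exact Affine.Point.some_ne_zero hns
      (h _ h2 ((smul_two_iff σ hns h2).mpr (by rw [D.perm_spec, hi])))
  · intro h P hP hfix
    rcases P with _ | ⟨x, y, hns⟩
    · rfl
    · obtain ⟨i, rfl⟩ := (D.mem_iff x).mp (twoRoot_of_point hns hP)
      have e := (smul_two_iff σ hns hP).mp hfix
      rw [D.perm_spec] at e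
      exact absurd (D.inj e) (h i)

theorem perm_three_gen : ∀ s t : Equiv.Perm (Fin 3), Equiv.Perm.sign s ≠ 1 →
    (∃ i, s i = i ∧ t i ≠ i) →
      (Equiv.Perm.sign t = 1 ∧ t ≠ 1) ∨ (Equiv.Perm.sign (s * t) = 1 ∧ s * t ≠ 1) := by decide

theorem perm_three_fix : ∀ s : Equiv.Perm (Fin 3), Equiv.Perm.sign s ≠ 1 → ∃ i, s i = i := by
  decide

theorem perm_three_pow : ∀ s : Equiv.Perm (Fin 3),
    (Equiv.Perm.sign s = 1 → s ^ 3 = 1) ∧ (Equiv.Perm.sign s ≠ 1 → s ^ 2 = 1) := by decide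

theorem perm_three_even : ∀ s t : Equiv.Perm (Fin 3), Equiv.Perm.sign s = 1 → s ≠ 1 →
    Equiv.Perm.sign t = 1 → t = 1 ∨ t = s ∨ t = s * s := by decide

/-- some automorphism moves `√Δ` -/
theorem exists_odd (D : Trio W) (hneg : W.Δ < 0) :
    ∃ σ : GalQ, Equiv.Perm.sign (D.perm σ) ≠ 1 := by
  by_contra hcon
  push Not at hcon
  obtain ⟨r, hr⟩ := Local.exists_rat_of_fixed fun σ => (D.fixes_sqrt_iff hneg.ne σ).mpr (hcon σ)
  have h := sqrtΔ_sq W
  rw [← hr] at h
  have h2 : r ^ 2 = (W.Δ : ℚ) := by exact_mod_cast h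
  have : (0 : ℚ) ≤ W.Δ := h2 ▸ sq_nonneg r
  exact absurd hneg (not_lt.mpr (by exact_mod_cast this))

/-- some automorphism is a three cycle -/
theorem exists_three_cycle (D : Trio W) (hW : W.ModRepIsIrreducible 2) (hneg : W.Δ < 0) :
    ∃ σ : GalQ, Equiv.Perm.sign (D.perm σ) = 1 ∧ D.perm σ ≠ 1 := by
  obtain ⟨s, hs⟩ := exists_odd D hneg
  obtain ⟨i, hi⟩ := perm_three_fix _ hs
  obtain ⟨t, ht⟩ := exists_move hW hneg.ne (D.mem i)
  rcases perm_three_gen _ (D.perm t) hs ⟨i, hi, fun e => ht (by rw [D.perm_spec, e])⟩ with h | h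
  · exact ⟨t, h⟩
  · exact ⟨s * t, by rwa [D.perm_mul]⟩

theorem fixesTwo_pow_aux (D : Trio W) (hΔ : W.Δ ≠ 0) (σ : GalQ) :
    (σ (sqrtΔ W) = sqrtΔ W → FixesTwo W (σ ^ 3)) ∧
      (σ (sqrtΔ W) ≠ sqrtΔ W → FixesTwo W (σ ^ 2)) := by
  rw [ne_eq, D.fixes_sqrt_iff hΔ, D.fixesTwo_iff_perm hΔ, D.fixesTwo_iff_perm hΔ]
  show (_ → D.permHom (σ ^ 3) = 1) ∧ (_ → D.permHom (σ ^ 2) = 1)
  rw [map_pow, map_pow]
  exact perm_three_pow _

theorem sqrtΔ_mem_quadField : sqrtΔ W ∈ quadField W :=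
  IntermediateField.subset_adjoin ℚ _ rfl

theorem fixed_quadField {σ : GalQ} (hσ : σ (sqrtΔ W) = sqrtΔ W) {x : QBar}
    (hx : x ∈ quadField W) : σ x = x := by
  induction hx using IntermediateField.adjoin_induction with
  | mem x hx => rw [Set.mem_singleton_iff.mp hx]; exact hσ
  | algebraMap x => exact σ.commutes x
  | add x y _ _ hx hy => rw [map_add, hx, hy]
  | inv x _ hx => rw [map_inv₀, hx]
  | mul x y _ _ hx hy => rw [map_mul, hx, hy]

theorem fixesTwo_iff_fixes_cubicField (D : Trio W) (hΔ : W.Δ ≠ 0) (σ : GalQ) :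
    FixesTwo W σ ↔ ∀ x ∈ cubicField W, σ x = x := by
  constructor
  · intro h x hx
    have hroot := (fixesTwo_iff_roots hΔ σ).mp h
    have hs : σ (sqrtΔ W) = sqrtΔ W := by
      rw [D.fixes_sqrt_iff hΔ, (D.fixesTwo_iff_perm hΔ σ).mp h, map_one]
    induction hx using IntermediateField.adjoin_induction with
    | mem x hx => exact hroot x hx
    | algebraMap x => exact fixed_quadField hs x.2
    | add x y _ _ hx hy => rw [map_add, hx, hy]
    | inv x _ hx => rw [map_inv₀, hx]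
    | mul x y _ _ hx hy => rw [map_mul, hx, hy]
  · exact fun h => (fixesTwo_iff_roots hΔ σ).mpr fun x hx =>
      h x (IntermediateField.subset_adjoin _ _ hx)

end FLTAgent.TH2

end
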