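import Fermat.Agent.TH2.FieldDisc

/-!
Area TH2, parcel FIELD: the quadratic field.
-/

set_option autoImplicit false
set_option linter.unusedSectionVars false
set_option linter.style.haveILetI false

noncomputable section

namespace FLTAgent.TH2

open scoped NumberField
open Local (QBar)

local notation "GalQ" => AlgebraicClosure ℚ ≃ₐ[ℚ] AlgebraicClosure ℚ

variable {W : WeierstrassCurve ℤ}

theorem finrank_quadField_aux (hneg : W.Δ < 0) : Module.finrank ℚ (quadField W) = 2 := by
  have hint : IsIntegral ℚ (sqrtΔ W) :=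
    ((AlgebraicClosure.isAlgebraic ℚ).isAlgebraic (sqrtΔ W)).isIntegral
  rw [quadField, IntermediateField.adjoin.finrank hint]
  refine le_antisymm ?_ ((minpoly.two_le_natDegree_iff hint).mpr ?_)
  · have hd : minpoly ℚ (sqrtΔ W) ∣ Polynomial.X ^ 2 - Polynomial.C (W.Δ : ℚ) :=
      minpoly.dvd ℚ _ (by simp [sqrtΔ_sq])
    refine (Polynomial.natDegree_le_of_dvd hd
      (Polynomial.X_pow_sub_C_ne_zero two_pos _)).trans ?_
    rw [Polynomial.natDegree_X_pow_sub_C]
  · rintro ⟨r, hr⟩
    have h := sqrtΔ_sq W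
    rw [← hr, eq_ratCast] at h
    have h2 : r ^ 2 = (W.Δ : ℚ) := by exact_mod_cast h
    have : (W.Δ : ℚ) < 0 := by exact_mod_cast hneg
    linarith [sq_nonneg r]

theorem exists_rat_pair {s : QBar} {b a : ℕ} (hb : sqrtΔ W = (b : QBar) * s)
    (hs : s ^ 2 = -(a : QBar)) (ha : a ≠ 0) {x : QBar} (hx : x ∈ quadField W) :
    ∃ u v : ℚ, x = (u : QBar) + (v : QBar) * s := by
  induction hx using IntermediateField.adjoin_induction with
  | mem x hx => exact ⟨0, b, by rw [Set.mem_singleton_iff.mp hx, hb]; push_cast; ring⟩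
  | algebraMap r => exact ⟨r, 0, by rw [eq_ratCast]; push_cast; ring⟩
  | add x y _ _ hx hy =>
    obtain ⟨u, v, rfl⟩ := hx
    obtain ⟨u', v', rfl⟩ := hy
    exact ⟨u + u', v + v', by push_cast; ring⟩
  | inv x _ hx =>
    obtain ⟨u, v, rfl⟩ := hx
    by_cases h0 : u = 0 ∧ v = 0
    · exact ⟨0, 0, by rw [h0.1, h0.2]; simp⟩
    · have haq : (0 : ℚ) < a := by exact_mod_cast ha.bot_lt
      have hpos : (0 : ℚ) < u ^ 2 + a * v ^ 2 := by
        by_cases hv : v = 0
        · have hu : u ≠ 0 := fun hu => h0 ⟨hu, hv⟩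
          rw [hv]; positivity
        · positivity
      refine ⟨u / (u ^ 2 + a * v ^ 2), -v / (u ^ 2 + a * v ^ 2), inv_eq_of_mul_eq_one_right ?_⟩
      have hD : (u : QBar) ^ 2 + (a : QBar) * (v : QBar) ^ 2 ≠ 0 := by
        exact_mod_cast hpos.ne'
      push_cast
      rw [show ((u : QBar) + (v : QBar) * s) * ((u : QBar) / ((u : QBar) ^ 2 +
          (a : QBar) * (v : QBar) ^ 2) + -(v : QBar) / ((u : QBar) ^ 2 +
          (a : QBar) * (v : QBar) ^ 2) * s) = (((u : QBar) + (v : QBar) * s) *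
          ((u : QBar) - (v : QBar) * s)) / ((u : QBar) ^ 2 + (a : QBar) * (v : QBar) ^ 2) by ring,
        div_eq_one_iff_eq hD]
      linear_combination -(v : QBar) ^ 2 * hs
  | mul x y _ _ hx hy =>
    obtain ⟨u, v, rfl⟩ := hx
    obtain ⟨u', v', rfl⟩ := hy
    exact ⟨u * u' - a * v * v', u * v' + v * u',
      by push_cast; linear_combination (v : QBar) * (v' : QBar) * hs⟩

/-- an integral rational is an integer -/
theorem exists_int_of_integral {r : ℚ} (hr : IsIntegral ℤ (r : QBar)) : ∃ k : ℤ, (k : ℚ) = r := by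
  have h : IsIntegral ℤ r := (isIntegral_algebraMap_iff (B := QBar)
    (algebraMap ℚ QBar).injective).mp (by rwa [eq_ratCast])
  obtain ⟨k, hk⟩ := IsIntegrallyClosed.isIntegral_iff.mp h
  exact ⟨k, by simpa using hk⟩

theorem int_of_squarefree_mul_sq {a : ℕ} (ha : Squarefree a) {m : ℚ} {z : ℤ}
    (h : (a : ℚ) * m ^ 2 = z) : ∃ k : ℤ, (k : ℚ) = m := by
  refine ⟨m.num, ?_⟩
  suffices hden : m.den = 1 by rw [← Rat.num_div_den m, hden]; simp
  have h2 : (a : ℤ) * m.num ^ 2 = z * (m.den : ℤ) ^ 2 := by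
    have hd : (m.den : ℚ) ≠ 0 := Nat.cast_ne_zero.mpr m.den_nz
    have hm := m.mul_den_eq_num
    have : (a : ℚ) * (m.num : ℚ) ^ 2 = (z : ℚ) * (m.den : ℚ) ^ 2 := by
      rw [← hm, ← h]; ring
    exact_mod_cast this
  have h3 : m.den * m.den ∣ a * m.num.natAbs ^ 2 := ⟨z.natAbs, by
    have := congrArg Int.natAbs h2
    simp only [Int.natAbs_mul, Int.natAbs_pow, Int.natAbs_natCast] at this
    rw [this]; ring⟩
  have hco : (m.den * m.den).Coprime (m.num.natAbs ^ 2) := by
    rw [← pow_two]; exact Nat.Coprime.pow 2 2 m.reduced.symm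
  exact Nat.isUnit_iff.mp (ha _ (hco.dvd_of_dvd_mul_right h3))

theorem exists_conj (h : Admissible W) {s : QBar} {b : ℕ} (hb0 : b ≠ 0)
    (hb : sqrtΔ W = (b : QBar) * s) : ∃ σ : GalQ, σ s = -s := by
  obtain ⟨D⟩ := nonempty_trio h.neg.ne
  obtain ⟨σ, hσ⟩ := exists_odd D h.neg
  have hσd : σ (sqrtΔ W) = -sqrtΔ W := by
    refine (sq_eq_sq_iff_eq_or_eq_neg.mp ?_).resolve_left
      fun e => hσ ((D.fixes_sqrt_iff h.neg.ne σ).mp e)
    rw [← map_pow, sqrtΔ_sq, map_intCast]
  rw [hb, map_mul, map_natCast, ← mul_neg] at hσd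
  exact ⟨σ, mul_left_cancel₀ (Nat.cast_ne_zero.mpr hb0) hσd⟩

/-- the shape of an integral element -/
theorem integral_form (h : Admissible W) {s : QBar} {b : ℕ}
    (hb : sqrtΔ W = (b : QBar) * s) (hs : s ^ 2 = -((level W : ℕ) : QBar))
    (hmod : level W % 4 = 3) (hsf : Squarefree (level W)) {σ : GalQ} (hσs : σ s = -s)
    {x : QBar} (hxF : x ∈ quadField W) (hx : IsIntegral ℤ x) :
    ∃ k m N : ℤ, 2 * x = (k : QBar) + (m : QBar) * s ∧ k ^ 2 + (level W : ℤ) * m ^ 2 = 4 * N ∧
      2 ∣ k - m ∧ x * σ x = (N : QBar) := by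
  obtain ⟨u, v, huv⟩ := exists_rat_pair hb hs (by omega) hxF
  have hx' : IsIntegral ℤ (σ x) := hx.map (σ.toAlgHom.restrictScalars ℤ)
  have hσx : σ x = (u : QBar) - (v : QBar) * s := by
    rw [huv, map_add, map_mul, hσs, map_ratCast, map_ratCast]; ring
  obtain ⟨k, hk⟩ := exists_int_of_integral (r := 2 * u) (by
    have := hx.add hx'
    rw [hσx] at this
    rw [huv] at this
    have e : ((2 * u : ℚ) : QBar) = (u : QBar) + (v : QBar) * s + ((u : QBar) - (v : QBar) * s) := by
      push_cast; ring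
    rwa [e])
  obtain ⟨N, hN⟩ := exists_int_of_integral (r := u ^ 2 + (level W : ℚ) * v ^ 2) (by
    have := hx.mul hx'
    rw [hσx] at this
    rw [huv] at this
    have e : ((u ^ 2 + (level W : ℚ) * v ^ 2 : ℚ) : QBar) =
        ((u : QBar) + (v : QBar) * s) * ((u : QBar) - (v : QBar) * s) := by
      push_cast; linear_combination (v : QBar) ^ 2 * hs
    rwa [e])
  obtain ⟨m, hm⟩ := int_of_squarefree_mul_sq hsf (m := 2 * v) (z := 4 * N - k ^ 2) (by
    push_cast; rw [hk, hN]; ring)
  have hkm : k ^ 2 + (level W : ℤ) * m ^ 2 = 4 * N := by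
    have : (k : ℚ) ^ 2 + (level W : ℚ) * (m : ℚ) ^ 2 = 4 * (N : ℚ) := by rw [hk, hN, hm]; ring
    exact_mod_cast this
  refine ⟨k, m, N, ?_, hkm, ?_, ?_⟩
  · have hk' : (k : QBar) = ((2 * u : ℚ) : QBar) := by rw [← hk]; norm_cast
    have hm' : (m : QBar) = ((2 * v : ℚ) : QBar) := by rw [← hm]; norm_cast
    rw [huv, hk', hm']; push_cast; ring
  · obtain ⟨c, hc⟩ : ∃ c : ℤ, (level W : ℤ) = 4 * c + 3 := ⟨(level W : ℤ) / 4, by omega⟩
    have h4 : (4 : ℤ) ∣ k ^ 2 - m ^ 2 := ⟨N - (c + 1) * m ^ 2, by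
      rw [hc] at hkm; linear_combination hkm⟩
    rcases Int.even_or_odd (k - m) with ⟨t, ht⟩ | ⟨t, ht⟩
    · exact ⟨t, by omega⟩
    · exfalso
      have h2 : k ^ 2 - m ^ 2 = (2 * t + 1) * (2 * m + 2 * t + 1) := by
        rw [show k = m + (2 * t + 1) by omega]; ring
      have ho : Odd (k ^ 2 - m ^ 2) := h2 ▸ (Odd.mul ⟨t, rfl⟩ ⟨m + t, by ring⟩)
      exact (Int.not_even_iff_odd.mpr ho) ((even_iff_two_dvd).mpr ((by norm_num : (2 : ℤ) ∣ 4).trans h4))
  · have hN' : (N : QBar) = ((u ^ 2 + (level W : ℚ) * v ^ 2 : ℚ) : QBar) := by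
      rw [← hN]; norm_cast
    rw [hσx, huv, hN']; push_cast; linear_combination -(v : QBar) ^ 2 * hs

theorem coe_ringOfIntegers_integral {K : Type*} [Field K] [Algebra K QBar]
    {F : IntermediateField K QBar} (z : 𝓞 F) : IsIntegral ℤ ((z : F) : QBar) :=
  (NumberField.RingOfIntegers.isIntegral_coe z).map (F.val.restrictScalars ℤ)

/-- the embedding of the integers of the quadratic field -/
def quadEmb (W : WeierstrassCurve ℤ) : 𝓞 (quadField W) →+* QBar :=
  (algebraMap (quadField W) QBar).comp (algebraMap (𝓞 (quadField W)) (quadField W))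

theorem quadEmb_injective : Function.Injective (quadEmb W) :=
  (algebraMap (quadField W) QBar).injective.comp NumberField.RingOfIntegers.coe_injective

theorem units_quadField_aux (h : Admissible W) (hsf : Squarefree (level W))
    (u : (𝓞 (quadField W))ˣ) : u = 1 ∨ u = -1 := by
  obtain ⟨b, s, hb0, hb, hs, hmod, h5⟩ := exists_sq_level h
  obtain ⟨σ, hσ⟩ := exists_conj h hb0 hb
  have hform := fun z : 𝓞 (quadField W) => integral_form h hb hs hmod hsf hσ
    (x := quadEmb W z) (z : quadField W).2 (coe_ringOfIntegers_integral z)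
  obtain ⟨k, m, N, hx, hN, -, hxx⟩ := hform u
  obtain ⟨k', m', N', hy, hN', -, hyy⟩ := hform (↑(u⁻¹))
  have hNN : N * N' = 1 := by
    have e : quadEmb W ↑u * quadEmb W ↑(u⁻¹) = 1 := by rw [← map_mul, Units.mul_inv, map_one]
    have : (N : QBar) * (N' : QBar) = 1 := by
      rw [← hxx, ← hyy, mul_mul_mul_comm, ← map_mul σ, e, map_one, one_mul]
    exact_mod_cast this
  have hm2 : 0 ≤ (level W : ℤ) * m ^ 2 := mul_nonneg (by positivity) (sq_nonneg m)
  have hN1 : N = 1 := by
    rcases Int.eq_one_or_neg_one_of_mul_eq_one hNN with e | e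
    · exact e
    · nlinarith [sq_nonneg k]
  subst hN1
  have hm : m = 0 := by
    by_contra hm
    have hl : (5 : ℤ) ≤ (level W : ℤ) := by exact_mod_cast h5
    have h1 : (1 : ℤ) ≤ m ^ 2 := by
      have := pow_two_pos_of_ne_zero hm
      omega
    nlinarith [sq_nonneg k]
  subst hm
  have hk : k = 2 ∨ k = -2 := by
    have : (k - 2) * (k + 2) = 0 := by linear_combination hN
    rcases mul_eq_zero.mp this with e | e <;> omega
  rcases hk with rfl | rfl
  · refine Or.inl (Units.ext (quadEmb_injective ?_))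
    rw [Units.val_one, map_one]
    push_cast at hx
    linear_combination hx / 2
  · refine Or.inr (Units.ext (quadEmb_injective ?_))
    rw [Units.val_neg, Units.val_one, map_neg, map_one]
    push_cast at hx
    linear_combination hx / 2

theorem discr_quadField_aux (h : Admissible W) (hsf : Squarefree (level W)) :
    NumberField.discr (quadField W) = -(level W : ℤ) := by
  obtain ⟨b, s, hb0, hb, hs, hmod, h5⟩ := exists_sq_level h
  obtain ⟨σ, hσ⟩ := exists_conj h hb0 hb
  obtain ⟨c, hc⟩ : ∃ c : ℤ, 4 * c = -((level W : ℤ) + 1) :=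
    ⟨-(((level W : ℤ) + 1) / 4), by omega⟩
  have hcq : 4 * (c : QBar) = -(((level W : ℕ) : QBar) + 1) := by exact_mod_cast hc
  have hsF : s ∈ quadField W := by
    have e : s = sqrtΔ W / (b : QBar) := by
      rw [hb]; field_simp
    rw [e]
    exact div_mem sqrtΔ_mem_quadField (natCast_mem _ b)
  have hwF : (1 + s) / 2 ∈ quadField W :=
    div_mem (add_mem (one_mem _) hsF) (ofNat_mem _ 2)
  have hwint : IsIntegral ℤ ((1 + s) / 2) := by
    refine ⟨Polynomial.X ^ 2 - Polynomial.X - Polynomial.C c, by monicity!, ?_⟩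
    rw [Polynomial.eval₂_sub, Polynomial.eval₂_sub, Polynomial.eval₂_X_pow, Polynomial.eval₂_X,
      Polynomial.eval₂_C, eq_intCast]
    linear_combination hs / 4 - hcq / 4
  let w : 𝓞 (quadField W) := ⟨⟨(1 + s) / 2, hwF⟩,
    (isIntegral_algHom_iff ((quadField W).val.restrictScalars ℤ) Subtype.val_injective).mp hwint⟩
  have hemw : quadEmb W w = (1 + s) / 2 := rfl
  have hww : w * w = w + (c : 𝓞 (quadField W)) := quadEmb_injective (by
    rw [map_mul, map_add, map_intCast, hemw]
    linear_combination hs / 4 - hcq / 4)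
  let B : Module.Basis (Fin 2) ℤ (𝓞 (quadField W)) := Module.Basis.mk
    (v := ![1, w])
    (by
      rw [LinearIndependent.pair_iff]
      intro p q hpq
      have e := congrArg (quadEmb W) hpq
      rw [map_add, map_zsmul, map_zsmul, map_one, hemw, map_zero] at e
      simp only [zsmul_eq_mul, mul_one] at e
      have h2 : ((2 * p + q : ℤ) : QBar) ^ 2 = ((-((level W : ℤ) * q ^ 2) : ℤ) : QBar) := by
        have e' : ((2 * p + q : ℤ) : QBar) = -((q : QBar) * s) := by
          push_cast; linear_combination 2 * e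
        rw [e']; push_cast; linear_combination (q : QBar) ^ 2 * hs
      have h3 : (2 * p + q) ^ 2 = -((level W : ℤ) * q ^ 2) := by exact_mod_cast h2
      have hl : (5 : ℤ) ≤ (level W : ℤ) := by exact_mod_cast h5
      have hq : q = 0 := by
        by_contra hq
        have := pow_two_pos_of_ne_zero hq
        nlinarith [sq_nonneg (2 * p + q)]
      subst hq
      have : (2 * p + 0) ^ 2 = 0 := by rw [h3]; ring
      have := eq_zero_of_pow_eq_zero this
      omega)
    (by
      rintro z -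
      obtain ⟨k, m, N, hz, -, ⟨t, ht⟩, -⟩ := integral_form h hb hs hmod hsf hσ
        (x := quadEmb W z) (z : quadField W).2 (coe_ringOfIntegers_integral z)
      rw [Matrix.range_cons, Matrix.range_cons, Matrix.range_empty, Set.union_empty,
        Set.singleton_union, Submodule.mem_span_pair]
      refine ⟨t, m, quadEmb_injective ?_⟩
      rw [map_add, map_zsmul, map_zsmul, map_one, hemw, zsmul_eq_mul, zsmul_eq_mul]
      have hk : (k : QBar) = (m : QBar) + 2 * (t : QBar) := by
        exact_mod_cast (by omega : k = m + 2 * t)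
      linear_combination (-1 / 2 : QBar) * hz - (1 / 2 : QBar) * hk)
  have hB0 : B 0 = 1 := Module.Basis.mk_apply _ _ 0
  have hB1 : B 1 = w := Module.Basis.mk_apply _ _ 1
  have hr1 : B.repr 1 = Finsupp.single 0 1 := by rw [← hB0, B.repr_self]
  have hrw : B.repr w = Finsupp.single 1 1 := by rw [← hB1, B.repr_self]
  have hrc : B.repr (c : 𝓞 (quadField W)) = Finsupp.single 0 c := by
    rw [show (c : 𝓞 (quadField W)) = c • (1 : 𝓞 (quadField W)) by simp, map_zsmul, hr1]
    simp
  have ht1 : Algebra.trace ℤ (𝓞 (quadField W)) 1 = 2 := by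
    rw [← map_one (algebraMap ℤ (𝓞 (quadField W))), Algebra.trace_algebraMap_of_basis B]
    simp
  have htw : Algebra.trace ℤ (𝓞 (quadField W)) w = 1 := by
    rw [Algebra.trace_eq_matrix_trace B, Matrix.trace_fin_two,
      Algebra.leftMulMatrix_eq_repr_mul, Algebra.leftMulMatrix_eq_repr_mul, hB0, hB1, hww,
      map_add, mul_one, hrw, hrc]
    simp
  have htc : Algebra.trace ℤ (𝓞 (quadField W)) (c : 𝓞 (quadField W)) = 2 * c := by
    rw [show (c : 𝓞 (quadField W)) = c • (1 : 𝓞 (quadField W)) by simp, map_smul, ht1]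
    simp [mul_comm]
  rw [← NumberField.discr_eq_discr (quadField W) B, Algebra.discr_def, Matrix.det_fin_two]
  simp only [Algebra.traceMatrix_apply, Algebra.traceForm_apply, hB0, hB1, one_mul, mul_one, hww,
    map_add, ht1, htw, htc]
  linear_combination hc

end FLTAgent.TH2

end
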