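import Mathlib

/-!
Area TH2, parcel GALOIS: two by two matrices of determinant one in characteristic two.
-/

set_option autoImplicit false
set_option linter.unusedSectionVars false

noncomputable section

namespace FLTAgent.TH2

variable {k : Type*} [Field k] [CharP k 2]

theorem mat_sq (M : Matrix (Fin 2) (Fin 2) k) (hd : M.det = 1) :
    M * M = M.trace • M + 1 := by
  have h2 : (2 : k) = 0 := CharTwo.two_eq_zero
  rw [Matrix.det_fin_two] at hd
  ext i j
  fin_cases i <;> fin_cases j <;>
    simp [Matrix.mul_apply, Fin.sum_univ_two, Matrix.trace_fin_two]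
  · linear_combination -hd - h2
  · ring
  · ring
  · linear_combination -hd - h2

/-- traces of the powers -/
theorem trace_pow_cases (M : Matrix (Fin 2) (Fin 2) k) (hd : M.det = 1) (n : ℕ)
    (ht : M.trace = 0 ∨ M.trace = 1) :
    (M ^ n).trace = 0 ∨ ((M ^ n).trace = 1 ∧ M.trace = 1 ∧ ¬ 3 ∣ n) := by
  have h2 : (2 : k) = 0 := CharTwo.two_eq_zero
  have h1 : (1 : Matrix (Fin 2) (Fin 2) k).trace = 0 := by
    rw [Matrix.trace_one, Fintype.card_fin, Nat.cast_ofNat, h2]
  rcases ht with ht | ht
  · refine Or.inl ?_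
    have hsq : M ^ 2 = 1 := by rw [sq, mat_sq M hd, ht, zero_smul, zero_add]
    rw [pow_eq_pow_mod n hsq]
    rcases Nat.mod_two_eq_zero_or_one n with e | e <;> rw [e]
    · rw [pow_zero, h1]
    · rw [pow_one, ht]
  · have hsq : M ^ 2 = M + 1 := by rw [sq, mat_sq M hd, ht, one_smul]
    have hcube : M ^ 3 = 1 := by
      rw [pow_succ, hsq, add_mul, one_mul, ← sq, hsq, add_right_comm]
      ext i j
      simp only [Matrix.add_apply]
      linear_combination M i j * h2
    rw [pow_eq_pow_mod n hcube]
    rcases (show n % 3 = 0 ∨ n % 3 = 1 ∨ n % 3 = 2 by omega) with e | e | e <;> rw [e]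
    · exact Or.inl (by rw [pow_zero, h1])
    · exact Or.inr ⟨by rw [pow_one, ht], ht, by omega⟩
    · exact Or.inr ⟨by rw [hsq, Matrix.trace_add, h1, add_zero, ht], ht, by omega⟩

theorem trace_commutator (N M : Matrix (Fin 2) (Fin 2) k) :
    (N * M * N * M.adjugate).trace =
      (N * M).trace * (N.trace * M.trace - (N * M).trace) -
        N.det * (M.trace ^ 2 - 2 * M.det) := by
  simp only [Matrix.trace_fin_two, Matrix.det_fin_two, Matrix.mul_apply, Fin.sum_univ_two,
    Matrix.adjugate_fin_two, Matrix.of_apply, Matrix.cons_val', Matrix.cons_val_zero,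
    Matrix.cons_val_one, Matrix.cons_val_fin_one]
  ring

/-- the coset lemma -/
theorem trace_mul_eq_one {N M : Matrix (Fin 2) (Fin 2) k} (hN : N.det = 1) (hNt : N.trace = 0)
    (hM : M.det = 1) (hMt : M.trace = 1) (h0 : (N * M * N * M.adjugate).trace = 0) :
    (N * M).trace = 1 := by
  have h2 : (2 : k) = 0 := CharTwo.two_eq_zero
  rw [trace_commutator, hN, hNt, hM, hMt] at h0
  have h : ((N * M).trace - 1) ^ 2 = 0 := by
    linear_combination -h0 + ((1 : k) - (N * M).trace) * h2
  exact sub_eq_zero.mp (eq_zero_of_pow_eq_zero h)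

end FLTAgent.TH2

end
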