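import Fermat.Agent.TH2.GaloisFrob
import Fermat.Agent.TH2.GaloisMat
import Fermat.Agent.Attach.Attached
import Fermat.Agent.Attach.Interface
import Fermat.Agent.Chebotarev.Density
import Fermat.Agent.Alg.Frobenius

/-!
Area TH2, parcel GALOIS: a two-dimensional mod two system with these traces is that of the curve.
-/

set_option autoImplicit false
set_option linter.unusedSectionVars false
set_option linter.style.haveILetI false

noncomputable section

namespace FLTAgent.TH2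

open scoped NumberField
open Local (QBar)

local notation "GalQ" => AlgebraicClosure ℚ ≃ₐ[ℚ] AlgebraicClosure ℚ

variable {W : WeierstrassCurve ℤ} {k : Type} [Field k] [CharP k 2]

theorem perm_three_powers : ∀ s : Equiv.Perm (Fin 3), Equiv.Perm.sign s = 1 → s ≠ 1 →
    (s * s ≠ 1 ∧ ∀ t : Equiv.Perm (Fin 3), Equiv.Perm.sign t = 1 → t ≠ 1 → t = s ∨ t = s * s) := by
  decide

theorem perm_three_pow_ne : ∀ s : Equiv.Perm (Fin 3), Equiv.Perm.sign s = 1 → s ≠ 1 →
    s ^ 1 ≠ 1 ∧ s ^ 2 ≠ 1 ∧ s ^ 3 = 1 := by decide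

theorem isCycle_pow (D : Trio W) (hΔ : W.Δ ≠ 0) {σ : GalQ} (hσ : IsCycle W σ) {n : ℕ}
    (hn : ¬ 3 ∣ n) : IsCycle W (σ ^ n) := by
  rw [isCycle_iff D hΔ] at hσ ⊢
  show Equiv.Perm.sign (D.permHom (σ ^ n)) = 1 ∧ D.permHom (σ ^ n) ≠ 1
  rw [map_pow]
  obtain ⟨h1, h2, h3⟩ := perm_three_pow_ne _ hσ.1 hσ.2
  refine ⟨?_, ?_⟩
  · rw [map_pow, show Equiv.Perm.sign (D.permHom σ) = 1 from hσ.1, one_pow]
  · show D.perm σ ^ n ≠ 1
    rw [pow_eq_pow_mod n h3]
    rcases (show n % 3 = 1 ∨ n % 3 = 2 by omega) with e | e <;> rw [e] <;> assumption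

/-- the conclusion, for an abstract matrix system -/
theorem trace_iff_cycle (D : Trio W) (hΔ : W.Δ ≠ 0)
    (R : GalQ →* Matrix (Fin 2) (Fin 2) k) (E : IntermediateField ℚ QBar) [FiniteDimensional ℚ E]
    (hR : ∀ σ, (∀ x ∈ E, σ x = x) → R σ = 1)
    (S : Finset ℕ) (θ : ℕ → ℤ)
    (hfrob : ∀ (ℓ : ℕ) (A : ValuationSubring QBar) (τ : GalQ), ℓ.Prime → ℓ ∉ S →
      A.LiesOverPrime ℓ → A.IsFrobeniusAt τ ℓ →
        (R τ).det = 1 ∧ (R τ).trace = (θ ℓ : k) ∧ (Odd (θ ℓ) → IsCycle W τ))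
    (hex : ∃ ℓ : ℕ, ℓ.Prime ∧ ℓ ∉ S ∧ Odd (θ ℓ))
    {ℓ : ℕ} {A : ValuationSubring QBar} {τ : GalQ} (hℓ : ℓ.Prime) (hS : ℓ ∉ S)
    (hA : A.LiesOverPrime ℓ) (hτ : A.IsFrobeniusAt τ ℓ) :
    Odd (θ ℓ) ↔ IsCycle W τ := by
  classical
  have hθ : ∀ z : ℤ, (Odd z → (z : k) = 1) ∧ (¬ Odd z → (z : k) = 0) := fun z => by
    refine ⟨fun ⟨t, ht⟩ => ?_, fun h => ?_⟩
    · rw [ht]; push_cast; rw [CharTwo.two_eq_zero, zero_mul, zero_add]
    · obtain ⟨t, ht⟩ := Int.not_odd_iff_even.mp h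
      rw [ht]; push_cast; exact CharTwo.add_self_eq_zero _
  let K : IntermediateField ℚ QBar := (cubicField W).restrictScalars ℚ
  haveI : FiniteDimensional ℚ K := (inferInstance : FiniteDimensional ℚ (cubicField W))
  let Good : GalQ → Prop := fun σ =>
    (R σ).det = 1 ∧ ((R σ).trace = 0 ∨ ((R σ).trace = 1 ∧ IsCycle W σ))
  have hgood : ∀ σ, Good σ := by
    have key := Chebotarev.eq_of_forall_frobenius_pow Good (fun _ => True) (E ⊔ K)
      (fun σ σ' hσ => ?_) (fun _ _ _ => rfl) S (fun q B ρ n hq hqS hB hρ => eq_true ?_)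
    · exact fun σ => of_eq_true (congrFun key σ)
    · have h1 : R σ = R σ' := by
        have h : R (σ⁻¹ * σ') = 1 := hR _ fun x hx => by
          rw [AlgEquiv.mul_apply, ← hσ x ((le_sup_left : E ≤ E ⊔ K) hx), ← AlgEquiv.mul_apply,
            inv_mul_cancel, AlgEquiv.one_apply]
        calc R σ = R σ * R (σ⁻¹ * σ') := by rw [h, mul_one]
          _ = R σ' := by rw [← map_mul, mul_inv_cancel_left]
      have h2 : D.perm σ = D.perm σ' := Equiv.ext fun i => D.inj (by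
        rw [← D.perm_spec, ← D.perm_spec]
        exact hσ _ ((le_sup_right : K ≤ E ⊔ K)
          (show D.e i ∈ cubicField W from IntermediateField.subset_adjoin _ _ (D.mem i))))
      simp only [Good, h1, isCycle_iff D hΔ, h2]
    · obtain ⟨hd, ht, hc⟩ := hfrob q B ρ hq hqS hB hρ
      refine ⟨by rw [map_pow, Matrix.det_pow, hd, one_pow], ?_⟩
      rw [map_pow]
      have htc : (R ρ).trace = 0 ∨ (R ρ).trace = 1 := by
        rw [ht]
        by_cases ho : Odd (θ q)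
        · exact Or.inr ((hθ _).1 ho)
        · exact Or.inl ((hθ _).2 ho)
      rcases trace_pow_cases (R ρ) hd n htc with e | ⟨e, e1, e3⟩
      · exact Or.inl e
      · refine Or.inr ⟨e, isCycle_pow D hΔ (hc ?_) e3⟩
        by_contra ho
        rw [ht, (hθ _).2 ho] at e1
        exact zero_ne_one e1
  -- the distinguished cycle
  obtain ⟨p, hp, hpS, hpo⟩ := hex
  obtain ⟨B, g, hB, hg⟩ := Alg.exists_place_frobenius p hp
  obtain ⟨hgd, hgt, hgc⟩ := hfrob p B g hp hpS hB hg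
  have hgt1 : (R g).trace = 1 := hgt.trans ((hθ _).1 hpo)
  have hgC := (isCycle_iff D hΔ g).mp (hgc hpo)
  have hcoset : ∀ M h : GalQ, (R M).trace = 1 → D.perm h = 1 → (R (h * M)).trace = 1 := by
    intro M h hM hh
    have hker : ∀ u : GalQ, D.perm u = 1 → (R u).trace = 0 := fun u hu =>
      (hgood u).2.resolve_right fun e => ((isCycle_iff D hΔ u).mp e.2).2 hu
    have hinv : R M⁻¹ = (R M).adjugate := by
      have e1 : R M⁻¹ * R M = 1 := by rw [← map_mul, inv_mul_cancel, map_one]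
      have e2 : R M * (R M).adjugate = 1 := by
        rw [Matrix.mul_adjugate, (hgood M).1, one_smul]
      exact left_inv_eq_right_inv e1 e2
    rw [map_mul]
    refine trace_mul_eq_one (hgood h).1 (hker h hh) (hgood M).1 hM ?_
    rw [← hinv, ← map_mul, ← map_mul, ← map_mul]
    refine hker _ ?_
    show D.permHom _ = 1
    rw [map_mul, map_mul, map_mul, show D.permHom h = 1 from hh, map_inv]
    group
  have hcyc : ∀ σ, IsCycle W σ → (R σ).trace = 1 := by
    intro σ hσ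
    rw [isCycle_iff D hΔ] at hσ
    obtain ⟨M, hM, hMσ⟩ : ∃ M, (R M).trace = 1 ∧ D.perm M = D.perm σ := by
      rcases (perm_three_powers _ hgC.1 hgC.2).2 _ hσ.1 hσ.2 with e | e
      · exact ⟨g, hgt1, e.symm⟩
      · refine ⟨g * g, ?_, by rw [D.perm_mul, e]⟩
        rw [map_mul, mat_sq (R g) hgd, hgt1, one_smul, Matrix.trace_add, hgt1, Matrix.trace_one,
          Fintype.card_fin, Nat.cast_ofNat, CharTwo.two_eq_zero, add_zero]
    have h := hcoset M (σ * M⁻¹) hM (by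
      show D.permHom (σ * M⁻¹) = 1
      rw [map_mul, map_inv, show D.permHom M = D.permHom σ from hMσ, mul_inv_cancel])
    rwa [inv_mul_cancel_right] at h
  obtain ⟨-, ht, hc⟩ := hfrob ℓ A τ hℓ hS hA hτ
  refine ⟨hc, fun hC => ?_⟩
  by_contra ho
  have := hcyc τ hC
  rw [ht, (hθ _).2 ho] at this
  exact zero_ne_one this

end FLTAgent.TH2

end
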