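import Fermat.Agent.TH2.Field
import Fermat.Agent.TH2.GaloisRep
import Fermat.Agent.TH2.Coeff
import Fermat.Agent.Attach.Attached
import Fermat.Agent.Attach.Interface
import Fermat.Agent.EllFrob.Trace
import Fermat.Agent.Chebotarev.Density

/-!
Area TH2, parcel GALOIS: the eigenform's mod two system is that of the curve.
-/

set_option autoImplicit false

noncomputable section

namespace FLTAgent.TH2

open scoped NumberField
open ModularFormClass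

theorem apOfModel_congr {W : WeierstrassCurve ℤ} (h : Admissible W)
    (χ : ClassGroup (𝓞 (quadField W)) →* Multiplicative (ZMod 3)) (hχ : χ ≠ 1)
    (hsplit : ∀ P : Ideal (𝓞 (cubicField W)), P.IsPrime → P ≠ ⊥ →
      Ideal.absNorm P = Ideal.absNorm (P.under (𝓞 (quadField W))) →
        classOf χ (P.under (𝓞 (quadField W))) = 1)
    {N : ℕ} (hN : N = level W) (f : CuspForm (CongruenceSubgroup.Gamma0 N) 2)
    (hf : f.IsNormalizedEigenform) (𝔪 : Ideal (integralClosure ℤ ℂ)) (hm : 𝔪.IsMaximal)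
    (h2 : ((2 : ℕ) : integralClosure ℤ ℂ) ∈ 𝔪)
    (hcong : ∀ ℓ : ℕ, ℓ.Prime → ℓ ≠ 2 → ¬ ℓ ∣ N → ∃ c : integralClosure ℤ ℂ,
      (c : ℂ) = qCoeff f ℓ ∧ c - (thetaCoeff χ ℓ : integralClosure ℤ ℂ) ∈ 𝔪) :
    ∀ ℓ : ℕ, ℓ.Prime → W.IsGoodPrimeFor ℓ → ℓ ≠ 2 → ¬ ℓ ∣ N →
      (2 : ℤ) ∣ W.apOfModel ℓ - thetaCoeff χ ℓ := by
  classical
  intro ℓ hℓ hgood hℓ2 hℓN
  have hΔ := h.neg.ne
  obtain ⟨D⟩ := nonempty_trio hΔ
  haveI := hm
  letI : Field (integralClosure ℤ ℂ ⧸ 𝔪) := Ideal.Quotient.field 𝔪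
  haveI : CharP (integralClosure ℤ ℂ ⧸ 𝔪) 2 :=
    (CharP.charP_iff_prime_eq_zero Nat.prime_two).mpr (by
      rw [← map_natCast (Ideal.Quotient.mk 𝔪), Ideal.Quotient.eq_zero_iff_mem]
      exact h2)
  let φ : integralClosure ℤ ℂ →+* integralClosure ℤ ℂ ⧸ 𝔪 := Ideal.Quotient.mk 𝔪
  have hN0 : N ≠ 0 := hN ▸ level_squarefree.ne_zero
  haveI : NeZero N := ⟨hN0⟩
  obtain ⟨ρ, hρ, -⟩ := Attach.exists_attached (N := N) (Attach.exists_heckeLattice N)
    (Attach.galoisInputs N) hf Nat.prime_two φ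
  let b := Module.finBasisOfFinrankEq (integralClosure ℤ ℂ ⧸ 𝔪) ρ.V ρ.finrank_eq
  let R : (AlgebraicClosure ℚ ≃ₐ[ℚ] AlgebraicClosure ℚ) →*
      Matrix (Fin 2) (Fin 2) (integralClosure ℤ ℂ ⧸ 𝔪) :=
    (LinearMap.toMatrixAlgEquiv b).toMonoidHom.comp ρ.ρ
  obtain ⟨L, hL, hLρ⟩ := ρ.factorsThroughFiniteLevel
  let S : Finset ℕ := W.Δ.natAbs.primeFactors ∪ N.primeFactors ∪ {2}
  have hSmem : ∀ {q : ℕ}, q.Prime → q ∉ S → q ≠ 2 ∧ ¬ q ∣ N ∧ ¬ (q : ℤ) ∣ W.Δ := by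
    intro q hq hqS
    simp only [S, Finset.mem_union, Finset.mem_singleton, not_or, Nat.mem_primeFactors, hq,
      true_and, not_and, not_not] at hqS
    exact ⟨hqS.2, fun hd => hN0 (hqS.1.2 hd),
      fun hd => hΔ (Int.natAbs_eq_zero.mp (hqS.1.1 (Int.natCast_dvd.mp hd)))⟩
  have hℓS : ℓ ∉ S := by
    simp only [S, Finset.mem_union, Finset.mem_singleton, not_or, Nat.mem_primeFactors, hℓ,
      true_and, not_and, not_not]
    exact ⟨⟨fun hd => absurd (Int.natCast_dvd.mpr hd) hgood, fun hd => absurd hd hℓN⟩, hℓ2⟩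
  obtain ⟨A, τ, hA, hτ⟩ := Alg.exists_place_frobenius ℓ hℓ
  have key : Odd (thetaCoeff χ ℓ) ↔ IsCycle W τ := by
    refine trace_iff_cycle D hΔ R L (fun σ hσ => ?_) S (fun q => thetaCoeff χ q)
      (fun q B σ hq hqS hB hσ => ?_) ?_ hℓ hℓS hA hτ
    · show LinearMap.toMatrixAlgEquiv b (ρ.ρ σ) = 1
      rw [hLρ σ hσ, map_one]
    · obtain ⟨hq2, hqN, hqΔ⟩ := hSmem hq hqS
      have hqk : (q : integralClosure ℤ ℂ ⧸ 𝔪) = 1 := by
        obtain ⟨t, ht⟩ := hq.odd_of_ne_two hq2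
        rw [ht]; push_cast; rw [CharTwo.two_eq_zero, zero_mul, zero_add]
      obtain ⟨a, ha, hchar⟩ := hρ q hq hqN (by rw [hqk]; exact one_ne_zero) B hB σ hσ
      obtain ⟨c, hc, hcm⟩ := hcong q hq hq2 hqN
      have hac : φ a = (thetaCoeff χ q : integralClosure ℤ ℂ ⧸ 𝔪) := by
        rw [show a = c from Subtype.ext (ha.trans hc.symm),
          ← map_intCast φ (thetaCoeff χ q), Ideal.Quotient.eq]
        exact hcm
      rw [← LinearMap.charpoly_toMatrix (ρ.ρ σ) b, Matrix.charpoly_fin_two, hac, hqk] at hchar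
      refine ⟨?_, ?_, fun ho => isCycle_of_odd h χ hsplit hq hq2 hqΔ (hN ▸ hqN) hB hσ ho⟩
      · have e := congrArg (fun p : Polynomial (integralClosure ℤ ℂ ⧸ 𝔪) => p.coeff 0) hchar
        simpa [R, LinearMap.toMatrixAlgEquiv, LinearMap.toMatrix] using e
      · have e := congrArg (fun p : Polynomial (integralClosure ℤ ℂ ⧸ 𝔪) => p.coeff 1) hchar
        simpa [R, LinearMap.toMatrixAlgEquiv, LinearMap.toMatrix, Polynomial.coeff_one] using e
    · obtain ⟨p, hp, hpS, -, hpo⟩ := exists_thetaCoeff_odd χ (finrank_quadField h) hχ S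
      exact ⟨p, hp, hpS, hpo⟩
  have htr := (EllFrob.galois_charpoly hℓ hgood hA hτ Nat.prime_two hℓ2.symm).1
  have hcyc := galoisTrace_two h τ
  rw [htr] at hcyc
  rw [← even_iff_two_dvd, Int.even_sub]
  by_cases ho : Odd (thetaCoeff χ ℓ)
  · have h1 : (W.apOfModel ℓ : ZMod 2) = 1 := hcyc.mpr (key.mp ho)
    rw [ZMod.intCast_eq_one_iff_odd] at h1
    simp [← Int.not_odd_iff_even, ho, h1]
  · have h1 : ¬ Odd (W.apOfModel ℓ) := fun ha =>
      ho (key.mpr (hcyc.mp ((ZMod.intCast_eq_one_iff_odd).mpr ha)))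
    simp [← Int.not_odd_iff_even, ho, h1]

end FLTAgent.TH2

end
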