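import Fermat.Agent.TH2.Field
import Fermat.Agent.TH2.Coeff
import Fermat.Agent.Chebotarev.FrobConj

/-!
Area TH2, parcel GALOIS: Frobenius at a prime with an odd theta coefficient is a three cycle.
-/

set_option autoImplicit false
set_option linter.unusedSectionVars false
set_option linter.style.haveILetI false

noncomputable section

namespace FLTAgent.TH2

open scoped NumberField
open Local (QBar)

local notation "GalQ" => AlgebraicClosure ℚ ≃ₐ[ℚ] AlgebraicClosure ℚ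

variable {W : WeierstrassCurve ℤ} {A : ValuationSubring QBar} {ℓ : ℕ} {τ : GalQ}

/-- a number field fixed by a Frobenius element has a prime of degree one at the place -/
theorem exists_degree_one {K : Type*} [Field K] [NumberField K] (e : K →+* QBar)
    (hℓ : ℓ.Prime) (hA : A.LiesOverPrime ℓ) (hτ : A.IsFrobeniusAt τ ℓ)
    (hfix : ∀ x, τ (e x) = e x) :
    ∃ P : Ideal (𝓞 K), P.IsPrime ∧ P ≠ ⊥ ∧ Ideal.absNorm P = ℓ ∧
      ∀ a : 𝓞 K, a ∈ P ↔ A.valuation (e a) < 1 := by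
  classical
  have hint : ∀ a : 𝓞 K, IsIntegral ℤ (e a) := fun a =>
    (NumberField.RingOfIntegers.isIntegral_coe a).map (e.toIntAlgHom)
  let φ : 𝓞 K →+* A :=
    { toFun := fun a => ⟨e a, SS2.integral_mem A (hint a)⟩
      map_one' := Subtype.ext (by simp)
      map_mul' := fun a b => Subtype.ext (by simp)
      map_zero' := Subtype.ext (by simp)
      map_add' := fun a b => Subtype.ext (by simp) }
  let ψ : 𝓞 K →+* IsLocalRing.ResidueField A := (IsLocalRing.residue A).comp φ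
  have hmem : ∀ a : 𝓞 K, a ∈ RingHom.ker ψ ↔ A.valuation (e a) < 1 := fun a => by
    rw [RingHom.mem_ker, RingHom.comp_apply, IsLocalRing.residue_eq_zero_iff,
      A.valuation_lt_one_iff]
    rfl
  haveI hprime : (RingHom.ker ψ).IsPrime := RingHom.ker_isPrime ψ
  have hℓP : (ℓ : 𝓞 K) ∈ RingHom.ker ψ := by
    rw [hmem]
    push_cast
    rw [map_natCast]; exact hA
  have hne : RingHom.ker ψ ≠ ⊥ := fun hb => by
    rw [hb, Ideal.mem_bot] at hℓP
    exact (Nat.cast_ne_zero.mpr hℓ.ne_zero) hℓP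
  refine ⟨RingHom.ker ψ, hprime, hne, ?_, hmem⟩
  haveI : (RingHom.ker ψ).IsMaximal := hprime.isMaximal hne
  haveI : Finite (𝓞 K ⧸ RingHom.ker ψ) := Ideal.finiteQuotientOfFreeOfNeBot _ hne
  letI : Field (𝓞 K ⧸ RingHom.ker ψ) := Ideal.Quotient.field _
  haveI : Fintype (𝓞 K ⧸ RingHom.ker ψ) := Fintype.ofFinite _
  haveI : Fact ℓ.Prime := ⟨hℓ⟩
  haveI : CharP (𝓞 K ⧸ RingHom.ker ψ) ℓ := (CharP.charP_iff_prime_eq_zero hℓ).mpr (by
    rw [← map_natCast (Ideal.Quotient.mk (RingHom.ker ψ)), Ideal.Quotient.eq_zero_iff_mem]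
    exact hℓP)
  rw [Ideal.absNorm_apply, Submodule.cardQuot_apply]
  refine le_antisymm ?_ ?_
  · have hroot : ∀ z : 𝓞 K ⧸ RingHom.ker ψ,
        (Polynomial.X ^ ℓ - Polynomial.X : Polynomial (𝓞 K ⧸ RingHom.ker ψ)).IsRoot z := by
      intro z
      obtain ⟨a, rfl⟩ := Ideal.Quotient.mk_surjective z
      simp only [Polynomial.IsRoot.def, Polynomial.eval_sub, Polynomial.eval_pow,
        Polynomial.eval_X]
      rw [← map_pow, ← map_sub, Ideal.Quotient.eq_zero_iff_mem, hmem]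
      have h := Chebotarev.frob_sub_pow_mem hτ (SS2.integral_mem A (hint a))
      rw [ValuationSubring.mem_nonunits_iff, hfix, Valuation.map_sub_swap] at h
      push_cast
      rw [map_sub, map_pow]
      exact h
    have hX : (Polynomial.X ^ ℓ - Polynomial.X : Polynomial (𝓞 K ⧸ RingHom.ker ψ)) ≠ 0 :=
      FiniteField.X_pow_card_sub_X_ne_zero _ hℓ.one_lt
    have h1 : (Finset.univ : Finset (𝓞 K ⧸ RingHom.ker ψ)).card ≤ ℓ :=
      (Polynomial.card_le_degree_of_subset_roots (Z := Finset.univ) fun z _ =>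
        (Polynomial.mem_roots hX).mpr (hroot z)).trans_eq
        (FiniteField.X_pow_card_sub_X_natDegree_eq _ hℓ.one_lt)
    rwa [Finset.card_univ, ← Nat.card_eq_fintype_card] at h1
  · calc ℓ = Nat.card (ZMod ℓ) := (Nat.card_zmod ℓ).symm
      _ ≤ _ := Nat.card_le_card_of_injective _
          (ZMod.castHom (dvd_refl ℓ) (𝓞 K ⧸ RingHom.ker ψ)).injective

/-- being a three cycle on the two-torsion -/
def IsCycle (W : WeierstrassCurve ℤ) (σ : GalQ) : Prop :=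
  σ (sqrtΔ W) = sqrtΔ W ∧ ¬ FixesTwo W σ

theorem isCycle_iff (D : Trio W) (hΔ : W.Δ ≠ 0) (σ : GalQ) :
    IsCycle W σ ↔ Equiv.Perm.sign (D.perm σ) = 1 ∧ D.perm σ ≠ 1 := by
  rw [IsCycle, D.fixes_sqrt_iff hΔ, D.fixesTwo_iff_perm hΔ]

theorem discr_ne_dvd (h : Admissible W) (hℓ : ℓ.Prime) (hN : ¬ ℓ ∣ level W) :
    ¬ (ℓ : ℤ) ∣ NumberField.discr (quadField W) := fun hd =>
  hN ((discr_quadField h).2 ▸ Int.natCast_dvd.mp hd)

theorem isCycle_of_odd (h : Admissible W)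
    (χ : ClassGroup (𝓞 (quadField W)) →* Multiplicative (ZMod 3))
    (hsplit : ∀ P : Ideal (𝓞 (cubicField W)), P.IsPrime → P ≠ ⊥ →
      Ideal.absNorm P = Ideal.absNorm (P.under (𝓞 (quadField W))) →
        classOf χ (P.under (𝓞 (quadField W))) = 1)
    (hℓ : ℓ.Prime) (hℓ2 : ℓ ≠ 2) (hℓΔ : ¬ (ℓ : ℤ) ∣ W.Δ) (hℓN : ¬ ℓ ∣ level W)
    (hA : A.LiesOverPrime ℓ) (hτ : A.IsFrobeniusAt τ ℓ) (ho : Odd (thetaCoeff χ ℓ)) :
    IsCycle W τ := by
  classical
  obtain ⟨⟨I, hI⟩, hall⟩ :=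
    thetaCoeff_odd χ (finrank_quadField h) hℓ (discr_ne_dvd h hℓ hℓN) ho
  haveI : Fact ℓ.Prime := ⟨hℓ⟩
  refine ⟨?_, ?_⟩
  · -- `Δ` is a square modulo `ℓ`
    have hd : IsIntegral ℤ (⟨sqrtΔ W, sqrtΔ_mem_quadField⟩ : quadField W) := by
      refine ⟨Polynomial.X ^ 2 - Polynomial.C W.Δ, Polynomial.monic_X_pow_sub_C _ two_ne_zero, ?_⟩
      rw [Polynomial.eval₂_sub, Polynomial.eval₂_X_pow, Polynomial.eval₂_C, eq_intCast]
      apply Subtype.ext
      simp [sqrtΔ_sq]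
    let d : 𝓞 (quadField W) := ⟨⟨sqrtΔ W, sqrtΔ_mem_quadField⟩, hd⟩
    have hd2 : d ^ 2 = (W.Δ : 𝓞 (quadField W)) := quadEmb_injective (by
      rw [map_pow, map_intCast]; exact sqrtΔ_sq W)
    have hI0 : I ≠ ⊥ := fun e => hℓ.ne_zero (by rw [← hI, e, Ideal.absNorm_bot])
    haveI : Finite (𝓞 (quadField W) ⧸ I) := Ideal.finiteQuotientOfFreeOfNeBot I hI0
    have hcard : Nat.card (𝓞 (quadField W) ⧸ I) = ℓ := by
      rw [← hI, Ideal.absNorm_apply, Submodule.cardQuot_apply]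
    haveI : Fintype (𝓞 (quadField W) ⧸ I) := Fintype.ofFinite _
    rw [Nat.card_eq_fintype_card] at hcard
    let e : ZMod ℓ ≃+* 𝓞 (quadField W) ⧸ I := ZMod.ringEquivOfPrime _ hℓ hcard
    have hpow : (W.Δ : ZMod ℓ) ^ (ℓ / 2) = 1 := by
      have hΔ0 : (W.Δ : ZMod ℓ) ≠ 0 := fun e0 =>
        hℓΔ ((ZMod.intCast_zmod_eq_zero_iff_dvd _ _).mp e0)
      rw [← ZMod.euler_criterion ℓ hΔ0]
      refine ⟨e.symm (Ideal.Quotient.mk I d), ?_⟩
      rw [← pow_two, ← map_pow, ← map_pow, hd2, map_intCast, map_intCast]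
    have hv : A.valuation (sqrtΔ W) = 1 := by
      have h2 : A.valuation (sqrtΔ W) ^ 2 = 1 := by
        rw [← map_pow, sqrtΔ_sq]; exact Local.val_int_eq_one hA hℓ hℓΔ
      exact (pow_eq_one_iff.mp h2).resolve_right two_ne_zero
    have hsA : sqrtΔ W ∈ A := (A.valuation_le_one_iff _).mp hv.le
    have h1 := Chebotarev.frob_sub_pow_mem hτ hsA
    rw [ValuationSubring.mem_nonunits_iff] at h1
    have hodd : ℓ = 2 * (ℓ / 2) + 1 := by
      have := hℓ.eq_two_or_odd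
      omega
    have h2 : A.valuation (sqrtΔ W ^ ℓ - sqrtΔ W) < 1 := by
      rw [show sqrtΔ W ^ ℓ - sqrtΔ W = ((W.Δ ^ (ℓ / 2) - 1 : ℤ) : QBar) * sqrtΔ W by
        conv_lhs => rw [hodd, pow_succ, pow_mul, sqrtΔ_sq]
        push_cast; ring, map_mul, hv, mul_one, Local.val_int_lt_one_iff hA hℓ,
        ← ZMod.intCast_zmod_eq_zero_iff_dvd]
      push_cast
      rw [hpow, sub_self]
    by_contra hne
    have e' : τ (sqrtΔ W) = -sqrtΔ W := (sq_eq_sq_iff_eq_or_eq_neg.mp (by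
      rw [← map_pow, sqrtΔ_sq, map_intCast])).resolve_left hne
    have h3 : A.valuation (τ (sqrtΔ W) - sqrtΔ W) < 1 := by
      rw [show τ (sqrtΔ W) - sqrtΔ W = (τ (sqrtΔ W) - sqrtΔ W ^ ℓ) +
        (sqrtΔ W ^ ℓ - sqrtΔ W) by ring]
      exact lt_of_le_of_lt (Valuation.map_add _ _ _) (max_lt h1 h2)
    rw [e', show -sqrtΔ W - sqrtΔ W = -(((2 : ℤ) : QBar) * sqrtΔ W) by push_cast; ring,
      Valuation.map_neg, map_mul, hv, mul_one, Local.val_int_lt_one_iff hA hℓ] at h3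
    exact hℓ2 ((Nat.prime_dvd_prime_iff_eq hℓ Nat.prime_two).mp (by exact_mod_cast h3))
  · intro hfix
    have hfx := (fixesTwo_iff h τ).mp hfix
    obtain ⟨P, hP, hP0, hPn, hPmem⟩ := exists_degree_one
      (algebraMap (cubicField W) QBar) hℓ hA hτ fun x => hfx _ x.2
    obtain ⟨Q, hQ, hQ0, hQn, hQmem⟩ := exists_degree_one
      (algebraMap (quadField W) QBar) hℓ hA hτ fun x =>
        hfx _ ((cubicField W).algebraMap_mem x)
    have hu : P.under (𝓞 (quadField W)) = Q := by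
      ext a
      rw [Ideal.mem_comap, hPmem, hQmem]
      rfl
    exact hall Q hQn (hu ▸ hsplit P hP hP0 (by rw [hu, hPn, hQn]))

end FLTAgent.TH2

end
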