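import Fermat.Agent.TH2.ThetaSum

/-!
Area TH2, parcel THETA: finite Gauss sums of binary forms.
-/

set_option autoImplicit false

noncomputable section

open Complex ComplexConjugate

namespace FLTAgent.TH2.BForm

variable {N : ℕ} (Q : BForm N)

/-- the form over a ring -/
def rval {R : Type*} [CommRing R] (r : R × R) : R :=
  (Q.a : R) * r.1 ^ 2 + (Q.b : R) * r.1 * r.2 + (Q.c : R) * r.2 ^ 2

theorem val_zmod (m : ℕ) (r : ℤ × ℤ) :
    (Q.val r : ZMod m) = Q.rval ((r.1 : ZMod m), (r.2 : ZMod m)) := by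
  simp [val, rval]

/-- the Gauss sum `∑ e(a Q(r) / m)` over `r` mod `m` -/
def gauss (a : ℤ) (m : ℕ) [NeZero m] : ℂ :=
  ∑ r : ZMod m × ZMod m, ZMod.stdAddChar ((a : ZMod m) * Q.rval r)

theorem rval_mul {R : Type*} [CommRing R] (u : R) (r : R × R) :
    Q.rval (u * r.1, u * r.2) = u ^ 2 * Q.rval r := by
  simp [rval]; ring

theorem gauss_sq_mul (a : ℤ) {m : ℕ} [NeZero m] {u : ZMod m} (hu : IsUnit u) :
    ∑ r : ZMod m × ZMod m, ZMod.stdAddChar ((a : ZMod m) * u ^ 2 * Q.rval r) = Q.gauss a m := by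
  have hinj : Function.Injective fun r : ZMod m × ZMod m => (u * r.1, u * r.2) := by
    intro r s h
    simp only [Prod.mk.injEq] at h
    exact Prod.ext (hu.mul_left_cancel h.1) (hu.mul_left_cancel h.2)
  refine Fintype.sum_bijective _ hinj.bijective_of_finite _ _ fun r => ?_
  rw [Q.rval_mul, mul_assoc]

theorem gauss_congr {a a' : ℤ} {m : ℕ} [NeZero m] (h : (a : ZMod m) = a') :
    Q.gauss a m = Q.gauss a' m := by
  simp only [gauss, h]

theorem gauss_inv {a d : ℤ} {m : ℕ} [NeZero m] (h : (a : ZMod m) * d = 1) :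
    Q.gauss d m = Q.gauss a m := by
  have ha : IsUnit (a : ZMod m) := IsUnit.of_mul_eq_one _ h
  rw [← Q.gauss_sq_mul d ha, gauss]
  refine Finset.sum_congr rfl fun r _ => ?_
  rw [show (d : ZMod m) * (a : ZMod m) ^ 2 = (a * d) * a by ring, h, one_mul]

theorem gauss_neg (a : ℤ) (m : ℕ) [NeZero m] : Q.gauss (-a) m = conj (Q.gauss a m) := by
  simp only [gauss, map_sum, Int.cast_neg, neg_mul, AddChar.map_neg_eq_conj]

/-- forms related by a substitution of determinant prime to the modulus have equal sums -/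
theorem gauss_eq_of_comp {Q' : BForm N} {p q r s k : ℤ} {m : ℕ} [NeZero m]
    (h : ∀ v : ℤ × ℤ, Q.val (p * v.1 + q * v.2, r * v.1 + s * v.2) = k ^ 2 * Q'.val v)
    (hdet : IsUnit ((p * s - q * r : ℤ) : ZMod m)) (hk : IsUnit (k : ZMod m)) (a : ℤ) :
    Q.gauss a m = Q'.gauss a m := by
  let P : ZMod m × ZMod m → ZMod m × ZMod m := fun v =>
    ((p : ZMod m) * v.1 + q * v.2, (r : ZMod m) * v.1 + s * v.2)
  have hP : Function.Injective P := by
    intro v w e
    simp only [P, Prod.mk.injEq] at e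
    push_cast at hdet
    refine Prod.ext (hdet.mul_left_cancel ?_) (hdet.mul_left_cancel ?_)
    · linear_combination (s : ZMod m) * e.1 - (q : ZMod m) * e.2
    · linear_combination (p : ZMod m) * e.2 - (r : ZMod m) * e.1
  rw [← Q'.gauss_sq_mul a hk, gauss]
  refine (Fintype.sum_bijective P hP.bijective_of_finite _ _ fun v => ?_).symm
  obtain ⟨x, hx⟩ := ZMod.intCast_surjective v.1
  obtain ⟨y, hy⟩ := ZMod.intCast_surjective v.2
  have hh := congrArg (Int.cast : ℤ → ZMod m) (h (x, y))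
  rw [Int.cast_mul, Int.cast_pow, val_zmod, val_zmod] at hh
  push_cast at hh
  rw [hx, hy] at hh
  simp only [P]
  rw [hh, mul_assoc]

/-- modulo an odd prime not dividing `N` a form is similar to its negative -/
theorem gauss_neg_prime {p : ℕ} [NeZero p] (hp : p.Prime) (h2 : p ≠ 2) (hN : ¬ p ∣ N) (a : ℤ) :
    Q.gauss (-a) p = Q.gauss a p := by
  haveI : Fact p.Prime := ⟨hp⟩
  have hN0 : (N : ZMod p) ≠ 0 := by rwa [Ne, ZMod.natCast_eq_zero_iff]
  obtain ⟨u, v, huv⟩ := FiniteField.exists_root_sum_quadratic (R := ZMod p)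
    (f := Polynomial.X ^ 2) (g := Polynomial.C (N : ZMod p) * Polynomial.X ^ 2 + Polynomial.C 1)
    (Polynomial.degree_X_pow 2)
    (by rw [Polynomial.degree_add_C (by rw [Polynomial.degree_C_mul_X_pow 2 hN0]; decide),
      Polynomial.degree_C_mul_X_pow 2 hN0]; rfl)
    (by rw [ZMod.card]; exact (hp.eq_two_or_odd.resolve_left h2))
  simp only [Polynomial.eval_pow, Polynomial.eval_X, Polynomial.eval_add, Polynomial.eval_mul,
    Polynomial.eval_C] at huv
  have hd : ((4 * Q.a * Q.c - Q.b ^ 2 : ℤ) : ZMod p) = (N : ZMod p) := by rw [Q.disc]; simp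
  push_cast at hd
  let P : ZMod p × ZMod p → ZMod p × ZMod p := fun r =>
    ((u - v * Q.b) * r.1 + (-(2 * v * Q.c)) * r.2, (2 * v * Q.a) * r.1 + (u + v * Q.b) * r.2)
  have hP : Function.Injective P := by
    intro r s e
    simp only [P, Prod.mk.injEq] at e
    refine Prod.ext (neg_injective ?_) (neg_injective ?_)
    · linear_combination (u + v * Q.b) * e.1 + (2 * v * Q.c) * e.2 + (s.1 - r.1) * huv +
        (v ^ 2 * (s.1 - r.1)) * hd
    · linear_combination (u - v * Q.b) * e.2 - (2 * v * Q.a) * e.1 + (s.2 - r.2) * huv +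
        (v ^ 2 * (s.2 - r.2)) * hd
  refine Fintype.sum_bijective P hP.bijective_of_finite _ _ fun r => ?_
  congr 1
  simp only [P, rval]
  push_cast
  linear_combination (-(a : ZMod p) * ((Q.a : ZMod p) * r.1 ^ 2 + (Q.b : ZMod p) * r.1 * r.2 + (Q.c : ZMod p) * r.2 ^ 2)) * huv +
    (-(a : ZMod p) * v ^ 2 * ((Q.a : ZMod p) * r.1 ^ 2 + (Q.b : ZMod p) * r.1 * r.2 + (Q.c : ZMod p) * r.2 ^ 2)) * hd

end FLTAgent.TH2.BForm

end
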