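import Fermat.Agent.TH2.Coeff
import Fermat.Agent.TH2.ThetaGauss

/-!
Area TH2, parcel THETA: binary forms of ideals in an imaginary quadratic field.
-/

set_option autoImplicit false

noncomputable section

namespace FLTAgent.TH2

open scoped nonZeroDivisors NumberField
open Module

/-- two commuting matrices: the discriminant of the determinant form is that of the trace form -/
theorem det_form_disc {R : Type*} [CommRing R] (M P : Matrix (Fin 2) (Fin 2) R)
    (h : M * P = P * M) :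
    ((M + P).det - M.det - P.det) ^ 2 - 4 * M.det * P.det =
      (M * M).trace * (P * P).trace - (M * P).trace * (M * P).trace := by
  have key : 2 * (M * P - P * M).det =
      ((M * M).trace * (P * P).trace - (M * P).trace * (M * P).trace) -
        (((M + P).det - M.det - P.det) ^ 2 - 4 * M.det * P.det) := by
    simp [Matrix.det_fin_two, Matrix.trace_fin_two, Matrix.mul_apply, Fin.sum_univ_two]
    ring
  rw [show M * P - P * M = 0 by rw [h, sub_self], Matrix.det_zero, mul_zero] at key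
  exact (sub_eq_zero.mp key.symm).symm

variable {F : Type*} [Field F] [NumberField F]

theorem finrank_int (h2 : finrank ℚ F = 2) : finrank ℤ (𝓞 F) = 2 := by
  rw [NumberField.RingOfIntegers.rank, h2]

/-- an integral basis indexed by `Fin 2` -/
def intBasis (h2 : finrank ℚ F = 2) : Basis (Fin 2) ℤ (𝓞 F) :=
  Module.finBasisOfFinrankEq ℤ (𝓞 F) (finrank_int h2)

theorem norm_combination (h2 : finrank ℚ F = 2) (α β : 𝓞 F) (x y : ℤ) :
    Algebra.norm ℤ (x • α + y • β) = Algebra.norm ℤ α * x ^ 2 +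
      (Algebra.norm ℤ (α + β) - Algebra.norm ℤ α - Algebra.norm ℤ β) * x * y +
        Algebra.norm ℤ β * y ^ 2 := by
  simp only [Algebra.norm_eq_matrix_det (intBasis h2), map_add, map_smul, Matrix.det_fin_two,
    Matrix.add_apply, Matrix.smul_apply, smul_eq_mul]
  ring

theorem norm_disc (h2 : finrank ℚ F = 2) (α β : 𝓞 F) :
    (Algebra.norm ℤ (α + β) - Algebra.norm ℤ α - Algebra.norm ℤ β) ^ 2 -
      4 * Algebra.norm ℤ α * Algebra.norm ℤ β = Algebra.discr ℤ ![α, β] := by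
  set L := Algebra.leftMulMatrix (intBasis h2)
  rw [Algebra.discr_def, Matrix.det_fin_two]
  simp only [Algebra.traceMatrix_apply, Algebra.traceForm_apply, Matrix.cons_val_zero,
    Matrix.cons_val_one, Algebra.trace_eq_matrix_trace (intBasis h2),
    Algebra.norm_eq_matrix_det (intBasis h2), map_add, map_mul]
  have h := det_form_disc (L α) (L β) (by rw [← map_mul, ← map_mul, mul_comm])
  have hc : (L β * L α).trace = (L α * L β).trace := Matrix.trace_mul_comm _ _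
  simp only [L] at h hc ⊢
  rw [h, hc]

/-- a binary form attached to a nonzero ideal -/
theorem exists_idealForm (h2 : finrank ℚ F = 2) {N : ℕ} [NeZero N]
    (hD : NumberField.discr F = -(N : ℤ)) {I : Ideal (𝓞 F)} (hI : I ≠ ⊥) :
    ∃ (Q : BForm N) (e : (ℤ × ℤ) ≃+ I),
      ∀ r, Algebra.norm ℤ ((e r : I) : 𝓞 F) = (Ideal.absNorm I : ℤ) * Q.val r := by
  set b := intBasis h2
  set bI := Ideal.selfBasis b I hI
  set α : 𝓞 F := ((bI 0 : I) : 𝓞 F) with hα
  set β : 𝓞 F := ((bI 1 : I) : 𝓞 F) with hβ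
  set n : ℤ := (Ideal.absNorm I : ℤ) with hn
  have hn0 : n ≠ 0 := by
    rw [hn, Int.natCast_ne_zero, Ne, Ideal.absNorm_eq_zero_iff]; exact hI
  obtain ⟨qa, hqa⟩ := Ideal.absNorm_dvd_norm_of_mem (bI 0).2
  obtain ⟨qc, hqc⟩ := Ideal.absNorm_dvd_norm_of_mem (bI 1).2
  obtain ⟨qs, hqs⟩ := Ideal.absNorm_dvd_norm_of_mem (I.add_mem (bI 0).2 (bI 1).2)
  rw [← hn, ← hα] at hqa
  rw [← hn, ← hβ] at hqc
  rw [← hn, ← hα, ← hβ] at hqs
  have hdisc : Algebra.discr ℤ ![α, β] = n ^ 2 * NumberField.discr F := by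
    have hdet : (b.det ((↑) ∘ bI)).natAbs = Ideal.absNorm I :=
      Ideal.natAbs_det_basis_change b I bI
    have hv : (![α, β] : Fin 2 → 𝓞 F) = ((↑) ∘ bI) := by
      funext i; fin_cases i <;> rfl
    rw [hv]
    rw [← Basis.toMatrix_map_vecMul b ((↑) ∘ bI), Algebra.discr_of_matrix_vecMul,
      NumberField.discr_eq_discr, ← Basis.det_apply, ← Int.natAbs_sq (b.det _), hdet]
  have hdisc' := norm_disc h2 α β
  rw [hdisc, hqa, hqc, hqs, hD] at hdisc'
  have hd : 4 * qa * qc - (qs - qa - qc) ^ 2 = (N : ℤ) := by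
    refine mul_left_cancel₀ (pow_ne_zero 2 hn0) ?_
    linear_combination -hdisc'
  have hval : ∀ r : ℤ × ℤ, Algebra.norm ℤ (r.1 • α + r.2 • β) =
      n * (qa * r.1 ^ 2 + (qs - qa - qc) * r.1 * r.2 + qc * r.2 ^ 2) := by
    intro r
    rw [norm_combination h2, hqa, hqc, hqs]; ring
  let e : (ℤ × ℤ) ≃+ I :=
    ((LinearEquiv.finTwoArrow ℤ ℤ).symm.trans bI.equivFun.symm).toAddEquiv
  have he : ∀ r : ℤ × ℤ, ((e r : I) : 𝓞 F) = r.1 • α + r.2 • β := by
    intro r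
    simp [e, Basis.equivFun_symm_apply, Fin.sum_univ_two, α, β]
  have hpos : 0 < qa := by
    have hN : (0 : ℤ) < N := by exact_mod_cast Nat.pos_of_ne_zero (NeZero.ne N)
    have hnpos : 0 < n := lt_of_le_of_ne (by rw [hn]; positivity) (Ne.symm hn0)
    set w := e.symm ⟨((Ideal.absNorm I : ℕ) : 𝓞 F), Ideal.absNorm_mem I⟩
    have hw := hval w
    rw [← he, show e w = ⟨((Ideal.absNorm I : ℕ) : 𝓞 F), Ideal.absNorm_mem I⟩ from
      e.apply_symm_apply _] at hw
    simp only [Algebra.norm_natCast, finrank_int h2] at hw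
    set v := qa * w.1 ^ 2 + (qs - qa - qc) * w.1 * w.2 + qc * w.2 ^ 2 with hv
    have hvpos : 0 < v := by
      have : n * v = n * n := by rw [← hw, ← sq]
      have := mul_left_cancel₀ hn0 this
      omega
    by_contra hneg
    rcases (not_lt.mp hneg).lt_or_eq with h | h
    · have : 4 * qa * v = (2 * qa * w.1 + (qs - qa - qc) * w.2) ^ 2 + N * w.2 ^ 2 := by
        rw [hv, ← hd]; ring
      have h1 : 4 * qa * v < 0 := mul_neg_of_neg_of_pos (by linarith) hvpos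
      have h2' : 0 ≤ (N : ℤ) * w.2 ^ 2 := by positivity
      have h3 := sq_nonneg (2 * qa * w.1 + (qs - qa - qc) * w.2)
      omega
    · rw [h] at hd
      have h3 := sq_nonneg (qs - 0 - qc)
      linarith
  exact ⟨⟨qa, qs - qa - qc, qc, hpos, hd⟩, e, fun r => by rw [he, hval]; rfl⟩

variable {N : ℕ} [NeZero N]

/-- the chosen form of a nonzero ideal -/
def idealForm (h2 : finrank ℚ F = 2) (hD : NumberField.discr F = -(N : ℤ)) (I : (Ideal (𝓞 F))⁰) :
    BForm N :=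
  (exists_idealForm h2 hD (mem_nonZeroDivisors_iff_ne_zero.mp I.2)).choose

/-- its coordinates -/
def idealCoord (h2 : finrank ℚ F = 2) (hD : NumberField.discr F = -(N : ℤ))
    (I : (Ideal (𝓞 F))⁰) : (ℤ × ℤ) ≃+ (I : Ideal (𝓞 F)) :=
  (exists_idealForm h2 hD (mem_nonZeroDivisors_iff_ne_zero.mp I.2)).choose_spec.choose

variable (h2 : finrank ℚ F = 2) (hD : NumberField.discr F = -(N : ℤ))

theorem norm_idealCoord (I : (Ideal (𝓞 F))⁰) (r : ℤ × ℤ) :
    Algebra.norm ℤ ((idealCoord h2 hD I r : (I : Ideal (𝓞 F))) : 𝓞 F) =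
      (Ideal.absNorm (I : Ideal (𝓞 F)) : ℤ) * (idealForm h2 hD I).val r :=
  (exists_idealForm h2 hD (mem_nonZeroDivisors_iff_ne_zero.mp I.2)).choose_spec.choose_spec r

theorem absNorm_pos' (I : (Ideal (𝓞 F))⁰) : 0 < (Ideal.absNorm (I : Ideal (𝓞 F)) : ℤ) := by
  have : Ideal.absNorm (I : Ideal (𝓞 F)) ≠ 0 := by
    rw [Ne, Ideal.absNorm_eq_zero_iff]; exact mem_nonZeroDivisors_iff_ne_zero.mp I.2
  omega

theorem bform_val_ge (Q : BForm N) (r : ℤ × ℤ) : 0 ≤ Q.val r := by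
  have h : 4 * Q.a * Q.val r = (2 * Q.a * r.1 + Q.b * r.2) ^ 2 + N * r.2 ^ 2 := by
    rw [← Q.disc]; simp only [BForm.val]; ring
  have : 0 ≤ 4 * Q.a * Q.val r := by rw [h]; positivity
  exact nonneg_of_mul_nonneg_right (by linarith) (show 0 < 4 * Q.a by linarith [Q.pos])

include h2 hD in
theorem norm_nonneg' (z : 𝓞 F) : 0 ≤ Algebra.norm ℤ z := by
  have h := norm_idealCoord h2 hD ⟨⊤, mem_nonZeroDivisors_iff_ne_zero.mpr (top_ne_bot)⟩
    ((idealCoord h2 hD ⟨⊤, mem_nonZeroDivisors_iff_ne_zero.mpr (top_ne_bot)⟩).symm ⟨z, trivial⟩)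
  rw [AddEquiv.apply_symm_apply] at h
  rw [show z = ((⟨z, trivial⟩ : (⊤ : Ideal (𝓞 F))) : 𝓞 F) from rfl, h]
  exact mul_nonneg (by positivity) (bform_val_ge _ _)

/-- a linear substitution scaling by a unit preserves Gauss sums -/
theorem gauss_eq_of_hom {Q Q' : BForm N} (φ : ℤ × ℤ →+ ℤ × ℤ) (k : ℤ) {m : ℕ} [NeZero m]
    (hk : IsUnit (k : ZMod m)) (h : ∀ v, Q.val (φ v) = k ^ 2 * Q'.val v) (a : ℤ) :
    Q.gauss a m = Q'.gauss a m := by
  set p := (φ (1, 0)).1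
  set r := (φ (1, 0)).2
  set q := (φ (0, 1)).1
  set s := (φ (0, 1)).2
  have hφ : ∀ v : ℤ × ℤ, φ v = (p * v.1 + q * v.2, r * v.1 + s * v.2) := by
    intro v
    conv_lhs => rw [show v = v.1 • ((1 : ℤ), (0 : ℤ)) + v.2 • ((0 : ℤ), (1 : ℤ)) by ext <;> simp,
      map_add, map_zsmul, map_zsmul]
    ext <;> simp [p, q, r, s] <;> ring
  have h' : ∀ v : ℤ × ℤ, Q.val (p * v.1 + q * v.2, r * v.1 + s * v.2) = k ^ 2 * Q'.val v :=
    fun v => by rw [← hφ]; exact h v
  refine BForm.gauss_eq_of_comp Q h' ?_ hk a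
  have e1 := h' (1, 0)
  have e2 := h' (0, 1)
  have e3 := h' (1, 1)
  simp only [BForm.val, mul_one, mul_zero, add_zero, zero_add, one_pow, ne_eq,
    OfNat.ofNat_ne_zero, not_false_eq_true, zero_pow] at e1 e2 e3
  have hb : 2 * Q.a * p * q + Q.b * (p * s + q * r) + 2 * Q.c * r * s = k ^ 2 * Q'.b := by
    linear_combination e3 - e1 - e2
  have hN : (N : ℤ) ≠ 0 := by exact_mod_cast NeZero.ne N
  have hsq : (p * s - q * r) ^ 2 = (k ^ 2) ^ 2 := by
    refine mul_left_cancel₀ hN ?_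
    linear_combination -(p * s - q * r) ^ 2 * Q.disc + (k ^ 2) ^ 2 * Q'.disc +
      4 * (Q.a * q ^ 2 + Q.b * q * s + Q.c * s ^ 2) * e1 + 4 * k ^ 2 * Q'.a * e2 -
      (2 * Q.a * p * q + Q.b * (p * s + q * r) + 2 * Q.c * r * s + k ^ 2 * Q'.b) * hb
  have hu : IsUnit (((p * s - q * r : ℤ) : ZMod m) ^ 2) := by
    rw [← Int.cast_pow, hsq]; push_cast; exact (hk.pow 2).pow 2
  exact (isUnit_pow_iff two_ne_zero).mp hu

/-- ideals in the same class have equal Gauss sums -/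
theorem gauss_idealForm_class {I J : (Ideal (𝓞 F))⁰} (hIJ : ClassGroup.mk0 I = ClassGroup.mk0 J)
    (a : ℤ) (m : ℕ) [NeZero m] :
    (idealForm h2 hD I).gauss a m = (idealForm h2 hD J).gauss a m := by
  obtain ⟨x, y, hx, hy, h⟩ := ClassGroup.mk0_eq_mk0_iff.mp hIJ
  -- multiplication by `y / x` carries `J` onto `I`
  have hmem : ∀ z : (J : Ideal (𝓞 F)), ∃ w : (I : Ideal (𝓞 F)), x * (w : 𝓞 F) = y * z := by
    intro z
    have : y * (z : 𝓞 F) ∈ Ideal.span {x} * (I : Ideal (𝓞 F)) := by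
      rw [h]; exact Ideal.mul_mem_mul (Ideal.mem_span_singleton_self y) z.2
    obtain ⟨w, hw, e⟩ := Ideal.mem_span_singleton_mul.mp this
    exact ⟨⟨w, hw⟩, e⟩
  choose f hf using hmem
  let g : (J : Ideal (𝓞 F)) →+ (I : Ideal (𝓞 F)) :=
    AddMonoidHom.mk' f fun z w => Subtype.ext (mul_left_cancel₀ hx (by
      rw [Submodule.coe_add, mul_add, hf, hf, hf, Submodule.coe_add, mul_add]))
  let φ : ℤ × ℤ →+ ℤ × ℤ := ((idealCoord h2 hD I).symm.toAddMonoidHom.comp g).comp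
    (idealCoord h2 hD J).toAddMonoidHom
  refine gauss_eq_of_hom φ 1 (by simp) (fun v => ?_) a
  rw [one_pow, one_mul]
  set z := idealCoord h2 hD J v with hz
  have hφ : idealCoord h2 hD I (φ v) = f z := (idealCoord h2 hD I).apply_symm_apply _
  have h1 := congrArg (Algebra.norm ℤ) (hf z)
  rw [map_mul, map_mul, ← hφ, norm_idealCoord, hz, norm_idealCoord] at h1
  have h3 := congrArg Ideal.absNorm h
  simp only [map_mul, Ideal.absNorm_span_singleton] at h3
  have h3' : Algebra.norm ℤ x * (Ideal.absNorm (I : Ideal (𝓞 F)) : ℤ) =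
      Algebra.norm ℤ y * (Ideal.absNorm (J : Ideal (𝓞 F)) : ℤ) := by
    have := congrArg (Nat.cast : ℕ → ℤ) h3
    push_cast at this
    rwa [abs_of_nonneg (norm_nonneg' h2 hD x), abs_of_nonneg (norm_nonneg' h2 hD y)] at this
  have hne : Algebra.norm ℤ x * (Ideal.absNorm (I : Ideal (𝓞 F)) : ℤ) ≠ 0 :=
    mul_ne_zero (Algebra.norm_ne_zero_iff.mpr hx) (absNorm_pos' I).ne'
  refine mul_left_cancel₀ hne ?_
  linear_combination h1 - (idealForm h2 hD J).val v * h3'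

/-- ideals differing by the square of an ideal prime to the modulus have equal Gauss sums -/
theorem gauss_idealForm_sq (I B : (Ideal (𝓞 F))⁰) (a : ℤ) {m : ℕ} [NeZero m]
    (hB : (Ideal.absNorm (B : Ideal (𝓞 F))).Coprime m) :
    (idealForm h2 hD I).gauss a m = (idealForm h2 hD (I * (B * B))).gauss a m := by
  have hle : ((I * (B * B) : (Ideal (𝓞 F))⁰) : Ideal (𝓞 F)) ≤ (I : Ideal (𝓞 F)) := by
    rw [Submonoid.coe_mul]
    exact (Ideal.le_of_dvd (dvd_mul_right _ _) : (I : Ideal (𝓞 F)) * ((B * B : (Ideal (𝓞 F))⁰) : Ideal (𝓞 F)) ≤ I)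
  let g : ((I * (B * B) : (Ideal (𝓞 F))⁰) : Ideal (𝓞 F)) →+ (I : Ideal (𝓞 F)) :=
    (Submodule.inclusion hle).toAddMonoidHom
  let φ : ℤ × ℤ →+ ℤ × ℤ := ((idealCoord h2 hD I).symm.toAddMonoidHom.comp g).comp
    (idealCoord h2 hD (I * (B * B))).toAddMonoidHom
  refine gauss_eq_of_hom φ (Ideal.absNorm (B : Ideal (𝓞 F))) ?_ (fun v => ?_) a
  · rw [Int.cast_natCast]; exact (ZMod.isUnit_iff_coprime _ _).mpr hB
  set z := idealCoord h2 hD (I * (B * B)) v with hz
  have hφ : idealCoord h2 hD I (φ v) = g z := (idealCoord h2 hD I).apply_symm_apply _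
  have e1 := norm_idealCoord h2 hD I (φ v)
  have e2 := norm_idealCoord h2 hD (I * (B * B)) v
  rw [hφ] at e1
  rw [← hz] at e2
  have e3 : ((z : ((I * (B * B) : (Ideal (𝓞 F))⁰) : Ideal (𝓞 F))) : 𝓞 F) =
      ((g z : (I : Ideal (𝓞 F))) : 𝓞 F) := rfl
  rw [e3, e1] at e2
  refine mul_left_cancel₀ (absNorm_pos' I).ne' ?_
  rw [e2]
  simp only [Submonoid.coe_mul, map_mul]
  push_cast
  ring

/-- number of integral ideals of norm `n` in a class -/
def classCount (C : ClassGroup (𝓞 F)) (n : ℕ) : ℕ :=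
  Nat.card {J : (Ideal (𝓞 F))⁰ //
    Ideal.absNorm (J : Ideal (𝓞 F)) = n ∧ ClassGroup.mk0 J = C}

include h2 in
theorem norm_neg_quad (z : 𝓞 F) : Algebra.norm ℤ (-z) = Algebra.norm ℤ z := by
  rw [show -z = algebraMap ℤ (𝓞 F) (-1) * z by simp, map_mul, Algebra.norm_algebraMap,
    finrank_int h2]
  norm_num

/-- an element of `I` of the norm in question gives an ideal in the inverse class -/
theorem exists_ideal_of_norm (I : (Ideal (𝓞 F))⁰) {n : ℕ} (hn : n ≠ 0) {z : 𝓞 F}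
    (hz : z ∈ (I : Ideal (𝓞 F)))
    (hN : Algebra.norm ℤ z = (Ideal.absNorm (I : Ideal (𝓞 F)) : ℤ) * n) :
    ∃ J : (Ideal (𝓞 F))⁰, (Ideal.absNorm (J : Ideal (𝓞 F)) = n ∧
        ClassGroup.mk0 J = (ClassGroup.mk0 I)⁻¹) ∧
      (I : Ideal (𝓞 F)) * (J : Ideal (𝓞 F)) = Ideal.span {z} := by
  obtain ⟨J, hJ⟩ := Ideal.dvd_iff_le.mpr ((Ideal.span_singleton_le_iff_mem _).mpr hz)
  have hJn : Ideal.absNorm J = n := by
    have h := congrArg Ideal.absNorm hJ
    rw [map_mul, Ideal.absNorm_span_singleton, hN, Int.natAbs_mul, Int.natAbs_natCast,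
      Int.natAbs_natCast] at h
    exact (Nat.eq_of_mul_eq_mul_left (by have := absNorm_pos' I; omega) h).symm
  have hJ0 : J ∈ (Ideal (𝓞 F))⁰ := mem_nonZeroDivisors_iff_ne_zero.mpr fun h => hn (by
    rw [← hJn, h]; exact map_zero _)
  refine ⟨⟨J, hJ0⟩, ⟨hJn, ?_⟩, hJ.symm⟩
  rw [eq_inv_iff_mul_eq_one, mul_comm, ← map_mul]
  have hp : ((I * (⟨J, hJ0⟩ : (Ideal (𝓞 F))⁰) : (Ideal (𝓞 F))⁰) : Ideal (𝓞 F)).IsPrincipal := by
    rw [Submonoid.coe_mul]
    refine ⟨z, ?_⟩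
    rw [← hJ]
  exact (ClassGroup.mk0_eq_one_iff (I * (⟨J, hJ0⟩ : (Ideal (𝓞 F))⁰)).2).mpr hp

include h2 hD in
/-- a generator of the product with an ideal in the inverse class -/
theorem exists_generator (I J : (Ideal (𝓞 F))⁰)
    (hJ : ClassGroup.mk0 J = (ClassGroup.mk0 I)⁻¹) :
    ∃ z : (I : Ideal (𝓞 F)), (I : Ideal (𝓞 F)) * (J : Ideal (𝓞 F)) = Ideal.span {(z : 𝓞 F)} ∧
      (z : 𝓞 F) ≠ 0 ∧ Algebra.norm ℤ (z : 𝓞 F) =
        (Ideal.absNorm (I : Ideal (𝓞 F)) : ℤ) * (Ideal.absNorm (J : Ideal (𝓞 F)) : ℤ) := by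
  have h1 : ClassGroup.mk0 (I * J) = 1 := by rw [map_mul, hJ, mul_inv_cancel]
  obtain ⟨z, hz⟩ := ((ClassGroup.mk0_eq_one_iff (I * J).2).mp h1).principal
  replace hz : (I : Ideal (𝓞 F)) * (J : Ideal (𝓞 F)) = Ideal.span {z} := hz
  have hzI : z ∈ (I : Ideal (𝓞 F)) :=
    (Ideal.le_of_dvd (dvd_mul_right (I : Ideal (𝓞 F)) (J : Ideal (𝓞 F))))
      (hz ▸ Ideal.mem_span_singleton_self z)
  refine ⟨⟨z, hzI⟩, hz, ?_, ?_⟩
  · rintro (h : z = 0)
    rw [h, Ideal.span_singleton_eq_bot.mpr rfl, Ideal.mul_eq_bot] at hz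
    exact hz.elim (mem_nonZeroDivisors_iff_ne_zero.mp I.2)
      (mem_nonZeroDivisors_iff_ne_zero.mp J.2)
  · have h := congrArg Ideal.absNorm hz
    rw [map_mul, Ideal.absNorm_span_singleton] at h
    rw [← Int.natAbs_of_nonneg (norm_nonneg' h2 hD z), ← h]
    push_cast; rfl

/-- representations by the form of an ideal and ideals in the inverse class -/
theorem card_val_eq (hu : ∀ u : (𝓞 F)ˣ, u = 1 ∨ u = -1) (I : (Ideal (𝓞 F))⁰) {n : ℕ}
    (hn : n ≠ 0) :
    Nat.card {r : ℤ × ℤ // ((idealForm h2 hD I).val r).toNat = n} =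
      2 * classCount (ClassGroup.mk0 I)⁻¹ n := by
  classical
  choose g hg hg0 hgn using fun J : {J : (Ideal (𝓞 F))⁰ //
    Ideal.absNorm (J : Ideal (𝓞 F)) = n ∧ ClassGroup.mk0 J = (ClassGroup.mk0 I)⁻¹} =>
      exists_generator h2 hD I J.1 J.2.2
  let y : {J : (Ideal (𝓞 F))⁰ // Ideal.absNorm (J : Ideal (𝓞 F)) = n ∧
      ClassGroup.mk0 J = (ClassGroup.mk0 I)⁻¹} × Bool → (I : Ideal (𝓞 F)) :=
    fun p => bif p.2 then g p.1 else -g p.1
  have hyn : ∀ p, Algebra.norm ℤ ((y p : (I : Ideal (𝓞 F))) : 𝓞 F) =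
      (Ideal.absNorm (I : Ideal (𝓞 F)) : ℤ) * n := by
    rintro ⟨J, b⟩
    cases b
    · simp only [y, cond_false, NegMemClass.coe_neg]
      rw [norm_neg_quad h2, hgn, J.2.1]
    · simp only [y, cond_true]
      rw [hgn, J.2.1]
  have hys : ∀ p, Ideal.span {((y p : (I : Ideal (𝓞 F))) : 𝓞 F)} =
      (I : Ideal (𝓞 F)) * (p.1.1 : Ideal (𝓞 F)) := by
    rintro ⟨J, b⟩
    cases b
    · simp only [y, cond_false, NegMemClass.coe_neg, Ideal.span_singleton_neg, hg]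
    · simp only [y, cond_true, hg]
  have hval : ∀ p, ((idealForm h2 hD I).val ((idealCoord h2 hD I).symm (y p))).toNat = n := by
    intro p
    have h := norm_idealCoord h2 hD I ((idealCoord h2 hD I).symm (y p))
    rw [AddEquiv.apply_symm_apply, hyn] at h
    rw [← mul_left_cancel₀ (absNorm_pos' I).ne' h, Int.toNat_natCast]
  have hinj : Function.Injective y := by
    rintro ⟨J, b⟩ ⟨K, c⟩ h
    have h1 := hys ⟨J, b⟩
    rw [h, hys ⟨K, c⟩] at h1
    obtain rfl : K = J := Subtype.ext (Subtype.ext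
      (mul_left_cancel₀ (mem_nonZeroDivisors_iff_ne_zero.mp I.2) h1))
    refine Prod.ext rfl ?_
    by_contra hbc
    have h' := congrArg Subtype.val h
    have e : ((g K : (I : Ideal (𝓞 F))) : 𝓞 F) = -((g K : (I : Ideal (𝓞 F))) : 𝓞 F) := by
      cases b <;> cases c <;> simp only [y, cond_false, cond_true, NegMemClass.coe_neg] at h' <;>
        first | exact absurd rfl hbc | exact h' | exact h'.symm
    exact hg0 K (CharZero.eq_neg_self_iff.mp e)
  have hsurj : ∀ r : {r : ℤ × ℤ // ((idealForm h2 hD I).val r).toNat = n},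
      ∃ p, y p = idealCoord h2 hD I r.1 := by
    rintro ⟨r, hr⟩
    have hN : Algebra.norm ℤ ((idealCoord h2 hD I r : (I : Ideal (𝓞 F))) : 𝓞 F) =
        (Ideal.absNorm (I : Ideal (𝓞 F)) : ℤ) * n := by
      rw [norm_idealCoord, ← hr, Int.toNat_of_nonneg (bform_val_ge _ _)]
    obtain ⟨J, hJ, hJz⟩ := exists_ideal_of_norm I hn (idealCoord h2 hD I r).2 hN
    obtain ⟨u, hu'⟩ := Ideal.span_singleton_eq_span_singleton.mp ((hg ⟨J, hJ⟩).symm.trans hJz)
    rcases hu u with rfl | rfl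
    · exact ⟨(⟨J, hJ⟩, true), Subtype.ext (by simpa [y] using hu')⟩
    · exact ⟨(⟨J, hJ⟩, false), Subtype.ext (by simpa [y] using hu')⟩
  have hbij : Function.Bijective
      (fun p => (⟨(idealCoord h2 hD I).symm (y p), hval p⟩ :
        {r : ℤ × ℤ // ((idealForm h2 hD I).val r).toNat = n})) := by
    refine ⟨fun p q h => hinj ((idealCoord h2 hD I).symm.injective (congrArg Subtype.val h)),
      fun r => ?_⟩
    obtain ⟨p, hp⟩ := hsurj r
    exact ⟨p, Subtype.ext (by simp [hp])⟩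
  rw [← Nat.card_congr (Equiv.ofBijective _ hbij), Nat.card_prod, mul_comm, classCount,
    Nat.card_eq_fintype_card (α := Bool), Fintype.card_bool]

end FLTAgent.TH2

end
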