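import Fermat.Agent.TH2.ThetaPair
import Fermat.Agent.TH2.ThetaIdeal

/-!
Area TH2, parcel THETA: counting representations and summing over classes.
-/

set_option autoImplicit false

noncomputable section

namespace FLTAgent.TH2

open scoped nonZeroDivisors NumberField

namespace BForm

variable {N : ℕ} [NeZero N] (Q Q' : BForm N)

/-- representations by one form -/
def repOne (n : ℕ) : ℕ := Nat.card {r : ℤ × ℤ // (Q.val r).toNat = n}

theorem finite_repOne (n : ℕ) : Finite {r : ℤ × ℤ // (Q.val r).toNat = n} := by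
  have hI : 0 < Complex.I.im := by simp
  have hs : Summable fun r : {r : ℤ × ℤ // (Q.val r).toNat = n} => ‖ee (Complex.I * Q.val r.1)‖ :=
    (Q.summable_ee_val hI).subtype {r | (Q.val r).toNat = n}
  have hc : ∀ r : {r : ℤ × ℤ // (Q.val r).toNat = n},
      ‖ee (Complex.I * Q.val r.1)‖ = ‖ee (Complex.I * ((n : ℤ) : ℂ))‖ := fun r => by
    have : (n : ℤ) = Q.val r.1 := by
      have := Q.val_nonneg r.1
      have := r.2
      omega
    rw [this]
  by_contra hinf
  rw [not_finite_iff_infinite] at hinf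
  exact (norm_ne_zero_iff.mpr (Complex.exp_ne_zero _))
    ((summable_const_iff _).mp (hs.congr hc))

theorem repOne_zero : Q.repOne 0 = 1 := by
  rw [repOne, Nat.card_eq_one_iff_unique]
  refine ⟨⟨fun r s => Subtype.ext ?_⟩, ⟨⟨(0, 0), by simp [val]⟩⟩⟩
  have hr := Q.val_nonneg r.1
  have hs := Q.val_nonneg s.1
  have := r.2
  have := s.2
  rw [Q.eq_zero_of_val (r := r.1) (by omega), Q.eq_zero_of_val (r := s.1) (by omega)]

theorem repNum_eq_sum (n : ℕ) :
    Q.repNum Q' n = ∑ i : Fin (n + 1), Q.repOne i * Q'.repOne (n - i) := by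
  classical
  haveI := fun i => Q.finite_repOne i
  haveI := fun i => Q'.finite_repOne i
  let e : {x : (ℤ × ℤ) × (ℤ × ℤ) // (Q.val x.1 + Q'.val x.2).toNat = n} ≃
      Σ i : Fin (n + 1), {r : ℤ × ℤ // (Q.val r).toNat = i} ×
        {r : ℤ × ℤ // (Q'.val r).toNat = n - i} :=
    { toFun := fun x => ⟨⟨(Q.val x.1.1).toNat, by
          have := Q.val_nonneg x.1.1; have := Q'.val_nonneg x.1.2; have := x.2; omega⟩,
        ⟨x.1.1, rfl⟩, ⟨x.1.2, by
          have := Q.val_nonneg x.1.1; have := Q'.val_nonneg x.1.2; have := x.2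
          simp only; omega⟩⟩
      invFun := fun p => ⟨(p.2.1.1, p.2.2.1), by
          have := Q.val_nonneg p.2.1.1; have := Q'.val_nonneg p.2.2.1
          have := p.2.1.2; have := p.2.2.2; have := p.1.2
          simp only; omega⟩
      left_inv := fun x => rfl
      right_inv := by
        rintro ⟨⟨i, hi⟩, ⟨r, hr⟩, s, hs⟩
        simp only at hr
        subst hr
        rfl }
  rw [repNum, Nat.card_congr e, Nat.card_sigma]
  simp only [Nat.card_prod, repOne]

theorem exists_repNum_eq (n : ℕ) (K K' : ℕ → ℕ) (hK : ∀ i, i ≠ 0 → Q.repOne i = 2 * K i)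
    (hK' : ∀ i, i ≠ 0 → Q'.repOne i = 2 * K' i) :
    ∃ M : ℕ, Q.repNum Q' (n + 1) = 2 * (K (n + 1) + K' (n + 1) + 2 * M) := by
  refine ⟨∑ i : Fin n, K ((i : ℕ) + 1) * K' (n - (i : ℕ)), ?_⟩
  rw [repNum_eq_sum, Fin.sum_univ_succ, Fin.sum_univ_castSucc]
  simp only [Fin.val_zero, Fin.val_succ, Fin.val_castSucc, Fin.val_last, Nat.sub_zero, repOne_zero,
    Nat.sub_self, Nat.succ_sub_succ_eq_sub, one_mul, mul_one, hK' (n + 1) (Nat.succ_ne_zero n),
    hK (n + 1) (Nat.succ_ne_zero n)]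
  rw [Finset.mul_sum]
  have : ∀ i : Fin n, Q.repOne ((i : ℕ) + 1) * Q'.repOne (n - i) =
      2 * (2 * (K ((i : ℕ) + 1) * K' (n - i))) := fun i => by
    rw [hK _ (by omega), hK' _ (by omega)]; ring
  rw [Finset.sum_congr rfl fun i _ => this i, ← Finset.mul_sum]
  ring

end BForm

/-- the sign weights of the values of a cubic character -/
def signWt (m : Multiplicative (ZMod 3)) : ℤ :=
  if m = 1 then 1 else if m = Multiplicative.ofAdd 1 then -1 else 0

theorem signWt_sum (m g : Multiplicative (ZMod 3)) (hg : g ≠ 1) :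
    signWt m + signWt (m * g) + signWt (m * g * g) = 0 := by
  unfold signWt
  revert m g
  decide

/-- weights sum to zero against functions of the class modulo squares -/
theorem sum_signWt_eq_zero {G : Type*} [CommGroup G] [Fintype G]
    (χ : G →* Multiplicative (ZMod 3)) (hχ : χ ≠ 1) (f : G → ℂ)
    (hf : ∀ C B : G, f (C * (B * B)) = f C) :
    ∑ C : G, ((signWt (χ C⁻¹) : ℂ)) * f C = 0 := by
  obtain ⟨k, hk⟩ : ∃ k, χ k ≠ 1 := by
    by_contra h; push_neg at h; exact hχ (MonoidHom.ext h)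
  set s := k⁻¹ * k⁻¹ with hs
  have hg : χ (s⁻¹) ≠ 1 := by
    rw [hs, mul_inv, inv_inv, map_mul]
    revert hk
    generalize χ k = g
    revert g
    decide
  have shift : ∀ t : G, ∑ C : G, ((signWt (χ C⁻¹) : ℂ)) * f C =
      ∑ C : G, ((signWt (χ (C * t)⁻¹) : ℂ)) * f (C * t) := fun t =>
    (Fintype.sum_equiv (Equiv.mulRight t) _ _ fun C => rfl).symm
  have h1 := shift s
  have h2 := shift (s * s)
  have e1 : ∀ C : G, f (C * s) = f C := fun C => hf C k⁻¹
  have e2 : ∀ C : G, f (C * (s * s)) = f C := fun C => hf C s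
  simp only [e1, mul_inv, map_mul] at h1
  simp only [e2, mul_inv, map_mul] at h2
  have key : ∑ C : G, (((signWt (χ C⁻¹) : ℂ)) * f C + (signWt (χ C⁻¹ * χ s⁻¹) : ℂ) * f C +
      (signWt (χ C⁻¹ * (χ s⁻¹ * χ s⁻¹)) : ℂ) * f C) = 0 := by
    refine Finset.sum_eq_zero fun C _ => ?_
    rw [← add_mul, ← add_mul, ← mul_assoc]
    rw [← Int.cast_add, ← Int.cast_add, signWt_sum _ _ hg, Int.cast_zero, zero_mul]
  rw [Finset.sum_add_distrib, Finset.sum_add_distrib, ← h1, ← h2] at key
  linear_combination (1 / 3 : ℂ) * key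

/-- the theta coefficient as a sum over classes -/
theorem thetaCoeff_eq_sum {F : Type*} [Field F] [NumberField F]
    (χ : ClassGroup (𝓞 F) →* Multiplicative (ZMod 3)) {n : ℕ} (hn : n ≠ 0) :
    thetaCoeff χ n = ∑ C : ClassGroup (𝓞 F), signWt (χ C⁻¹) * (classCount C⁻¹ n : ℤ) := by
  classical
  have h0 : ∀ I ∈ idealsOfNorm F n, I ∈ (Ideal (𝓞 F))⁰ := by
    intro I hI
    rw [mem_idealsOfNorm] at hI
    refine mem_nonZeroDivisors_iff_ne_zero.mpr fun h => hn ?_
    rw [← hI.2, h]; exact map_zero _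
  have h1 : thetaCoeff χ n = ∑ I ∈ idealsOfNorm F n, signWt (classOf χ I) := by
    rw [thetaCoeff, Finset.card_filter, Finset.card_filter]
    push_cast
    rw [← Finset.sum_sub_distrib]
    refine Finset.sum_congr rfl fun I _ => ?_
    unfold signWt
    generalize classOf χ I = m
    revert m
    decide
  let cls : Ideal (𝓞 F) → ClassGroup (𝓞 F) := fun I =>
    if h : I ∈ (Ideal (𝓞 F))⁰ then (ClassGroup.mk0 ⟨I, h⟩)⁻¹ else 1
  rw [h1, ← Finset.sum_fiberwise (idealsOfNorm F n) cls]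
  refine Finset.sum_congr rfl fun C _ => ?_
  have h2 : ∀ I ∈ (idealsOfNorm F n).filter (fun I => cls I = C),
      signWt (classOf χ I) = signWt (χ C⁻¹) := by
    intro I hI
    rw [Finset.mem_filter] at hI
    rw [← hI.2]
    simp only [cls, classOf, dif_pos (h0 I hI.1), inv_inv]
  rw [Finset.sum_congr rfl h2, Finset.sum_const, nsmul_eq_mul, mul_comm, classCount]
  congr 2
  rw [← Nat.card_eq_finsetCard]
  refine Nat.card_congr
    { toFun := fun I => ⟨⟨I.1, h0 I.1 (Finset.mem_filter.mp I.2).1⟩,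
        (mem_idealsOfNorm.mp (Finset.mem_filter.mp I.2).1).2, by
          have h := (Finset.mem_filter.mp I.2).2
          simp only [cls, dif_pos (h0 I.1 (Finset.mem_filter.mp I.2).1)] at h
          exact inv_eq_iff_eq_inv.mp h⟩
      invFun := fun J => ⟨J.1, Finset.mem_filter.mpr ⟨mem_idealsOfNorm.mpr ⟨hn, J.2.1⟩, by
          simp only [cls, dif_pos J.1.2, Subtype.coe_eta, J.2.2, inv_inv]⟩⟩
      left_inv := fun I => rfl
      right_inv := fun J => rfl }

end FLTAgent.TH2

end
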