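import Fermat.Agent.TH2.Coeff
import Fermat.Agent.TH2.ThetaCount

/-!
Area TH2, parcel THETA: a weight two form congruent mod two to the theta series.
-/

set_option autoImplicit false

noncomputable section

namespace FLTAgent.TH2

open scoped nonZeroDivisors NumberField
open ModularFormClass

theorem exists_thetaForm {F : Type*} [Field F] [NumberField F] (h2 : Module.finrank ℚ F = 2)
    (hneg : NumberField.discr F < 0) (hodd : Odd (NumberField.discr F))
    (hu : ∀ u : (𝓞 F)ˣ, u = 1 ∨ u = -1)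
    (χ : ClassGroup (𝓞 F) →* Multiplicative (ZMod 3)) (hχ : χ ≠ 1)
    {N : ℕ} [NeZero N] (hN : (NumberField.discr F).natAbs = N) :
    ∃ (g : CuspForm (CongruenceSubgroup.Gamma0 N) 2) (b : ℕ → ℤ),
      (∀ n, qCoeff g n = b n) ∧ ∀ n, (2 : ℤ) ∣ b n - thetaCoeff χ n := by
  classical
  have hD : NumberField.discr F = -(N : ℤ) := by
    rw [← hN]; omega
  let rep : ClassGroup (𝓞 F) → (Ideal (𝓞 F))⁰ :=
    fun C => Function.surjInv ClassGroup.mk0_surjective C
  have hrep : ∀ C, ClassGroup.mk0 (rep C) = C := fun C =>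
    Function.surjInv_eq ClassGroup.mk0_surjective C
  let Q : ClassGroup (𝓞 F) → BForm N := fun C => idealForm h2 hD (rep C)
  have hsq : ∀ (C B : ClassGroup (𝓞 F)) (a : ℤ) (c : ℕ) [NeZero c],
      (Q (C * (B * B))).gauss a c = (Q C).gauss a c := by
    intro C B a c _
    obtain ⟨I, hI, hIc⟩ := exists_mk0_eq_coprime B (NeZero.ne c)
    rw [gauss_idealForm_sq h2 hD (rep C) I a hIc]
    refine gauss_idealForm_class h2 hD ?_ a c
    rw [hrep, map_mul, map_mul, hrep, hI]
  -- a representative of each genus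
  let H : Subgroup (ClassGroup (𝓞 F)) := (powMonoidHom 2).range
  let s : ClassGroup (𝓞 F) → ClassGroup (𝓞 F) :=
    fun C => (QuotientGroup.mk C : ClassGroup (𝓞 F) ⧸ H).out
  have hs : ∀ C, ∃ B, s C = C * (B * B) := by
    intro C
    obtain ⟨⟨h, hh⟩, he⟩ := QuotientGroup.mk_out_eq_mul H C
    obtain ⟨B, rfl⟩ := hh
    exact ⟨B, by rw [← sq]; exact he⟩
  have hinv : ∀ C B, s (C * (B * B)) = s C := by
    intro C B
    simp only [s]
    congr 1
    rw [QuotientGroup.eq]
    exact ⟨B⁻¹, by
      simp only [powMonoidHom_apply, sq, mul_inv_rev]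
      simp [mul_comm, mul_assoc, mul_left_comm]⟩
  have hrel : ∀ C (a : ℤ) (c : ℕ) [NeZero c], (Q C).gauss a c = (Q (s C)).gauss a c := by
    intro C a c _
    obtain ⟨B, hB⟩ := hs C
    rw [hB, hsq]
  have hcast : ∀ (f : ClassGroup (𝓞 F) → ℤ), (∀ C B, f (C * (B * B)) = f C) →
      ∑ C, signWt (χ C⁻¹) * f C = 0 := by
    intro f hf
    have := sum_signWt_eq_zero χ hχ (fun C => (f C : ℂ)) fun C B => by rw [hf]
    exact_mod_cast this
  obtain ⟨g, hg⟩ := exists_pairForm (Q := Q) (Q' := fun C => Q (s C))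
    (wt := fun C => (signWt (χ C⁻¹) : ℂ) / 2) hrel
    (by
      rw [← Finset.sum_div]
      have := sum_signWt_eq_zero χ hχ (fun _ => 1) fun _ _ => rfl
      simp only [mul_one] at this
      rw [this, zero_div])
    (fun a c _ => by
      have := sum_signWt_eq_zero χ hχ (fun C => (Q C).gauss a c ^ 2 / 2)
        fun C B => by rw [hsq]
      rw [← this]
      exact Finset.sum_congr rfl fun C _ => by ring)
  let K : ClassGroup (𝓞 F) → ℕ → ℕ := fun C i => classCount C⁻¹ i
  have hK : ∀ C i, i ≠ 0 → (Q C).repOne i = 2 * K C i := by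
    intro C i hi
    rw [BForm.repOne, card_val_eq h2 hD hu (rep C) hi, hrep]
  have hM : ∀ C n, ∃ M : ℕ, (Q C).repNum (Q (s C)) (n + 1) =
      2 * (K C (n + 1) + K (s C) (n + 1) + 2 * M) := fun C n =>
    (Q C).exists_repNum_eq (Q (s C)) n (K C) (K (s C)) (hK C) (hK (s C))
  choose M hM using hM
  refine ⟨g, fun n => if n = 0 then 0 else ∑ C, signWt (χ C⁻¹) *
    ((K C n : ℤ) + K (s C) n + 2 * M C (n - 1)), fun n => ?_, fun n => ?_⟩
  · rw [hg]
    cases n with
    | zero =>
      have e : ∀ C, (Q C).repNum (Q (s C)) 0 = 1 := fun C => by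
        rw [BForm.repNum_eq_sum]; simp [BForm.repOne_zero]
      have := sum_signWt_eq_zero χ hχ (fun _ => 1) fun _ _ => rfl
      simp only [mul_one] at this
      simp [e, ← Finset.sum_div, -map_inv, this]
    | succ n =>
      simp only [Nat.succ_ne_zero, if_false, Nat.add_sub_cancel]
      push_cast [Nat.add_sub_cancel, hM]
      exact Finset.sum_congr rfl fun C _ => by ring
  · by_cases hn : n = 0
    · subst hn; simp [thetaCoeff, idealsOfNorm]
    simp only [if_neg hn]
    refine ⟨∑ C, signWt (χ C⁻¹) * (M C (n - 1) : ℤ), ?_⟩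
    have h0 := hcast (fun C => (K (s C) n : ℤ)) fun C B => by simp only [hinv]
    simp only [mul_add, Finset.sum_add_distrib]
    rw [h0, thetaCoeff_eq_sum χ hn, Finset.mul_sum, add_zero, add_sub_cancel_left]
    exact Finset.sum_congr rfl fun C _ => by ring

end FLTAgent.TH2

end
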