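import Fermat.Agent.TH2.CF
import Fermat.Agent.TH2.Theta
import Fermat.Agent.TH2.Eigen
import Fermat.Agent.TH2.Galois

/-!
Area TH2: residual modularity mod two.
-/

set_option autoImplicit false

noncomputable section

namespace FLTAgent.TH2

open scoped NumberField

variable {W : WeierstrassCurve ℤ}

theorem dvd_level_iff (hΔ : W.Δ ≠ 0) {l : ℕ} (hl : l.Prime) :
    l ∣ level W ↔ l ≠ 2 ∧ Odd (padicValInt l W.Δ) := by
  unfold level
  rw [hl.prime.dvd_finset_prod_iff]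
  constructor
  · rintro ⟨q, hq, hlq⟩
    rw [Finset.mem_filter, Nat.mem_primeFactors] at hq
    obtain rfl := (Nat.prime_dvd_prime_iff_eq hl hq.1.1).mp hlq
    exact hq.2
  · intro h
    refine ⟨l, Finset.mem_filter.mpr ⟨Nat.mem_primeFactors.mpr ⟨hl, ?_, ?_⟩, h⟩, dvd_rfl⟩
    · by_contra hd
      have h0 : padicValInt l W.Δ = 0 := padicValNat.eq_zero_of_not_dvd hd
      exact absurd h.2 (by rw [h0]; simp)
    · simpa using hΔ

theorem squarefree_level : Squarefree (level W) := by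
  unfold level
  refine Finset.squarefree_prod_of_pairwise_isCoprime (fun a ha b hb hab => ?_) fun a ha => ?_
  · have ha' := (Nat.mem_primeFactors.mp (Finset.mem_filter.mp ha).1).1
    have hb' := (Nat.mem_primeFactors.mp (Finset.mem_filter.mp hb).1).1
    exact Nat.coprime_iff_isRelPrime.mp ((Nat.coprime_primes ha' hb').mpr hab)
  · exact (Nat.mem_primeFactors.mp (Finset.mem_filter.mp ha).1).1.squarefree

theorem odd_level : Odd (level W) := by
  unfold level
  refine Finset.prod_induction _ Odd (fun a b => Odd.mul) odd_one fun a ha => ?_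
  have ha' := (Nat.mem_primeFactors.mp (Finset.mem_filter.mp ha).1).1
  exact ha'.odd_of_ne_two (Finset.mem_filter.mp ha).2.1

/-- a curve with dihedral two-torsion, inert at two: an eigenform of minimal level with the same
system mod two, ordinary at two and at the level -/
theorem exists_residual_eigenform (h : Admissible W) (h5 : level W % 8 = 3) :
    ∃ (f : CuspForm (CongruenceSubgroup.Gamma0 (level W)) 2) (𝔪 : Ideal (integralClosure ℤ ℂ)),
      f.IsNormalizedEigenform ∧ 𝔪.IsMaximal ∧ ((2 : ℕ) : integralClosure ℤ ℂ) ∈ 𝔪 ∧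
      (∀ ℓ : ℕ, ℓ.Prime → (ℓ = 2 ∨ ℓ ∣ level W) → ∃ c : integralClosure ℤ ℂ,
        (c : ℂ) = ModularFormClass.qCoeff f ℓ ∧ c - 1 ∈ 𝔪) ∧
      ∀ ℓ : ℕ, ℓ.Prime → W.IsGoodPrimeFor ℓ → ℓ ≠ 2 → ¬ ℓ ∣ level W →
        ∃ c : integralClosure ℤ ℂ, (c : ℂ) = ModularFormClass.qCoeff f ℓ ∧
          c - ((W.apOfModel ℓ : ℤ) : integralClosure ℤ ℂ) ∈ 𝔪 := by
  haveI := isGalois_cubicField h
  haveI : NeZero (level W) := ⟨squarefree_level.ne_zero⟩
  obtain ⟨χ, hχ, hsplit⟩ := exists_classChar (finrank_cubicField h) (unramified_cubicField h)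
    (units_quadField h) (rank_cubicField h)
  obtain ⟨hneg, habs⟩ := discr_quadField h
  have hodd : Odd (NumberField.discr (quadField W)) :=
    Int.natAbs_odd.mp (habs ▸ odd_level)
  obtain ⟨g, b, hgb, hba⟩ :=
    exists_thetaForm (finrank_quadField h) hneg hodd (units_quadField h) χ hχ habs
  obtain ⟨f, 𝔪, hf, hm, h2, hcong⟩ :=
    exists_eigenform_two (by omega) g b (thetaCoeff χ) hgb hba (by rw [thetaCoeff_one]; exact odd_one)
      (fun ℓ hℓ hℓN n => thetaCoeff_rec χ (finrank_quadField h) hℓ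
        (fun hd => hℓN (habs ▸ Int.natCast_dvd.mp hd)) n)
      (thetaCoeff_two χ (finrank_quadField h) (by omega))
      (fun q hq hqN n => thetaCoeff_ramified χ (finrank_quadField h) hq
        (Int.natCast_dvd.mpr (by rw [habs]; exact hqN)) n)
  refine ⟨f, 𝔪, hf, hm, h2, fun ℓ hℓ hd => ?_, fun ℓ hℓ hgood hℓ2 hℓN => ?_⟩
  · obtain ⟨c, hc, hcm⟩ := hcong ℓ hℓ
    rw [if_pos hd, Int.cast_one] at hcm
    exact ⟨c, hc, hcm⟩
  obtain ⟨c, hc, hcm⟩ := hcong ℓ hℓ
  rw [if_neg (not_or.mpr ⟨hℓ2, hℓN⟩)] at hcm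
  obtain ⟨k, hk⟩ := apOfModel_congr h χ hχ hsplit rfl f hf 𝔪 hm h2
    (fun l hl hl2 hlN => by
      obtain ⟨d, hd, hdm⟩ := hcong l hl
      rw [if_neg (not_or.mpr ⟨hl2, hlN⟩)] at hdm
      exact ⟨d, hd, hdm⟩) ℓ hℓ hgood hℓ2 hℓN
  refine ⟨c, hc, ?_⟩
  rw [show c - ((W.apOfModel ℓ : ℤ) : integralClosure ℤ ℂ) =
      (c - (thetaCoeff χ ℓ : integralClosure ℤ ℂ)) -
        ((W.apOfModel ℓ - thetaCoeff χ ℓ : ℤ) : integralClosure ℤ ℂ) by push_cast; ring, hk]
  refine 𝔪.sub_mem hcm ?_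
  push_cast
  exact Ideal.mul_mem_right _ _ (by simpa using h2)

/-- a curve with dihedral two-torsion is residually modular mod two, of minimal level -/
theorem residually_modular_two (h : Admissible W) (h5 : level W % 8 = 3) :
    ∃ N : ℕ, Squarefree N ∧ Odd N ∧
      (∀ l : ℕ, l.Prime → (l ∣ N ↔ l ≠ 2 ∧ Odd (padicValInt l W.Δ))) ∧
      W.IsResiduallyModularOfLevel 2 N := by
  refine ⟨level W, squarefree_level, odd_level, fun l hl => dvd_level_iff h.neg.ne hl, ?_⟩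
  obtain ⟨f, 𝔪, hf, hm, h2, -, hgood⟩ := exists_residual_eigenform h h5
  exact ⟨f, 𝔪, hf, hm, h2, fun ℓ hℓ hg hℓN hℓ2 => hgood ℓ hℓ hg hℓ2 hℓN⟩

end FLTAgent.TH2

end
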