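import Fermat.Agent.TH2.ThetaTransform

/-!
Area TH2, parcel THETA: limits at infinity and the multiplier on `Γ₀(N)`.
-/

set_option autoImplicit false

noncomputable section

open Complex Filter Topology ComplexConjugate
open scoped UpperHalfPlane

namespace FLTAgent.TH2

theorem im_moebius_pos {τ : ℂ} (hτ : 0 < τ.im) {a b c d : ℤ} (hdet : a * d - b * c = 1) :
    0 < ((a * τ + b) / (c * τ + d)).im := by
  have hd : (a : ℝ) * d - b * c = 1 := by exact_mod_cast hdet
  have hj : (c : ℂ) * τ + d ≠ 0 := by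
    intro h
    have h1 := congrArg Complex.im h
    have h2 := congrArg Complex.re h
    simp at h1 h2
    rcases h1 with h1 | h1
    · subst h1; simp at h2; simp [h2] at hd
    · exact hτ.ne' h1
  rw [Complex.div_im, ← sub_div]
  refine div_pos ?_ (Complex.normSq_pos.mpr hj)
  simp only [Complex.add_im, Complex.mul_im, Complex.intCast_re, Complex.intCast_im, zero_mul,
    add_zero, Complex.add_re, Complex.mul_re, sub_zero]
  nlinarith

namespace BForm

variable {N : ℕ} [NeZero N] (Q : BForm N)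

theorem tendsto_series (f : ℤ × ℤ → ℂ) {C : ℝ} (hf : ∀ w, ‖f w‖ ≤ C) {s : ℝ} (hs : 0 < s) :
    Tendsto (fun τ : ℍ => ∑' w : ℤ × ℤ, f w * ee ((τ : ℂ) * s * Q.val w))
      UpperHalfPlane.atImInfty (𝓝 (f (0, 0))) := by
  classical
  have hC : 0 ≤ C := (norm_nonneg _).trans (hf (0, 0))
  have hI : 0 < (I * (s : ℂ)).im := by simpa using hs
  rw [show f (0, 0) = ∑' w : ℤ × ℤ, if w = (0, 0) then f (0, 0) else 0 by rw [tsum_ite_eq]]
  refine tendsto_tsum_of_dominated_convergence ((Q.summable_ee_val hI).mul_left C) (fun w => ?_) ?_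
  · by_cases hw : w = (0, 0)
    · subst hw
      simp [val, ee_zero]
    · rw [if_neg hw, tendsto_zero_iff_norm_tendsto_zero]
      have hv : (0 : ℝ) < (Q.val w : ℝ) := by
        exact_mod_cast lt_of_le_of_ne (Q.val_nonneg w) (fun h => hw (Q.eq_zero_of_val h.symm))
      have hlim : Tendsto (fun τ : ℍ => ‖f w‖ * Real.exp (-(2 * Real.pi * (τ.im * s * Q.val w))))
          UpperHalfPlane.atImInfty (𝓝 0) := by
        have h1 : Tendsto (fun τ : ℍ => 2 * Real.pi * (τ.im * s * Q.val w))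
            UpperHalfPlane.atImInfty atTop := by
          refine Tendsto.const_mul_atTop (by positivity) ?_
          exact (tendsto_comap.atTop_mul_const hs).atTop_mul_const hv
        simpa using (Real.tendsto_exp_neg_atTop_nhds_zero.comp h1).const_mul ‖f w‖
      refine hlim.congr fun τ => ?_
      rw [norm_mul, norm_ee]
      simp [Complex.mul_im]
  · filter_upwards [(UpperHalfPlane.atImInfty_mem _).mpr ⟨1, fun z hz => hz⟩] with τ hτ w
    rw [norm_mul, norm_ee, norm_ee]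
    refine mul_le_mul (hf w) ?_ (Real.exp_nonneg _) hC
    rw [Real.exp_le_exp, neg_le_neg_iff]
    have hv : (0 : ℝ) ≤ (Q.val w : ℝ) := by exact_mod_cast Q.val_nonneg w
    simp [Complex.mul_im]
    nlinarith [mul_nonneg hs.le hv, Real.pi_pos, mul_le_mul_of_nonneg_right (show (1:ℝ) ≤ τ.im from hτ)
      (mul_nonneg hs.le hv)]

theorem tendsto_theta :
    Tendsto (fun τ : ℍ => Q.theta τ) UpperHalfPlane.atImInfty (𝓝 1) := by
  refine (Q.tendsto_series (fun _ => 1) (C := 1) (by simp) one_pos).congr fun τ => ?_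
  simp [theta]

theorem tendsto_dual (a d : ℤ) (c : ℕ) [NeZero c] :
    Tendsto (fun τ : ℍ => ∑' w : ℤ × ℤ, Q.ker a d c w * ee ((τ : ℂ) * Q.dual.val w / N))
      UpperHalfPlane.atImInfty (𝓝 (Q.gauss a c)) := by
  rw [← Q.ker_zero a d c]
  refine (Q.dual.tendsto_series (Q.ker a d c) (Q.norm_ker_le a d c) (s := (N : ℝ)⁻¹)
    (inv_pos.mpr (Nat.cast_pos.mpr (Nat.pos_of_ne_zero (NeZero.ne N))))).congr fun τ => tsum_congr fun w => ?_
  congr 2
  push_cast
  ring

/-- the constant in the transformation formula -/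
def eps (a : ℤ) (c : ℕ) [NeZero c] : ℂ := Q.gauss a c / (I * c * (Real.sqrt N : ℂ))

theorem eps_congr {Q' : BForm N} {a : ℤ} {c : ℕ} [NeZero c] (h : Q.gauss a c = Q'.gauss a c) :
    Q.eps a c = Q'.eps a c := by rw [eps, eps, h]

variable {a b d : ℤ} {c : ℕ} [NeZero c]

theorem tendsto_cusp (hdet : a * d - b * c = 1) :
    Tendsto (fun τ : ℍ => Q.theta ((a * (τ : ℂ) + b) / (c * (τ : ℂ) + d)) / (c * (τ : ℂ) + d))
      UpperHalfPlane.atImInfty (𝓝 (Q.eps a c)) := by
  have h := (Q.tendsto_dual a d c).const_mul (1 / (I * c * (Real.sqrt N : ℂ)))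
  rw [one_div_mul_eq_div, ← eps] at h
  refine h.congr fun τ => ?_
  have hj : (c : ℂ) * (τ : ℂ) + d ≠ 0 := fun e => by
    have := congrArg Complex.im e
    simp [NeZero.ne c, τ.im_pos.ne'] at this
  rw [Q.theta_transform τ.im_pos hdet]
  field_simp

theorem eps_mul_conj (hdet : a * d - b * c = 1) (hN : N ∣ c) :
    Q.eps a c * conj (Q.eps a c) = 1 := by
  have hdet' : -d * -a - b * c = 1 := by linarith
  have he : Q.eps (-d) c = - conj (Q.eps a c) := by
    have had : (a : ZMod c) * (d : ZMod c) = 1 := by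
      have := congrArg (Int.cast : ℤ → ZMod c) hdet
      simpa using this
    rw [eps, eps, Q.gauss_neg, Q.gauss_inv had, map_div₀, map_mul, map_mul, Complex.conj_I,
      Complex.conj_ofReal, map_natCast]
    ring
  obtain ⟨τ, hτ⟩ := ((Q.tendsto_theta).eventually_ne one_ne_zero).exists
  set τ' : ℂ := ((-d : ℤ) * (τ : ℂ) + b) / ((c : ℤ) * (τ : ℂ) + (-a : ℤ)) with hτ'
  have him : 0 < τ'.im := im_moebius_pos τ.im_pos hdet'
  have hja : (c : ℂ) * (τ : ℂ) - a ≠ 0 := fun e => by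
    have := congrArg Complex.im e
    simp [NeZero.ne c, τ.im_pos.ne'] at this
  have hd : (a : ℂ) * d - b * c = 1 := by exact_mod_cast hdet
  have hcd : ((c : ℂ) * τ' + d) * ((c : ℂ) * (τ : ℂ) - a) = -1 := by
    have e : τ' * ((c : ℂ) * (τ : ℂ) - a) = -d * τ + b := by
      rw [hτ']; push_cast; rw [← sub_eq_add_neg, div_mul_cancel₀ _ hja]
    linear_combination (c : ℂ) * e - hd
  have hfix : ((a : ℂ) * τ' + b) / (c * τ' + d) = τ := by
    have hne : (c : ℂ) * τ' + d ≠ 0 := fun e => by simp [e] at hcd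
    rw [div_eq_iff hne]
    refine mul_right_cancel₀ hja ?_
    have e : τ' * ((c : ℂ) * (τ : ℂ) - a) = -d * τ + b := by
      rw [hτ']; push_cast; rw [← sub_eq_add_neg, div_mul_cancel₀ _ hja]
    linear_combination (a : ℂ) * e - (τ : ℂ) * hcd - (τ : ℂ) * hd
  have h1 := Q.theta_gamma0 (τ := τ') him hdet hN
  have h2 := Q.theta_gamma0 τ.im_pos hdet' hN
  rw [← eps, hfix] at h1
  rw [← eps, he, show (((-d : ℤ) : ℂ) * (τ : ℂ) + b) / ((c : ℂ) * (τ : ℂ) + ((-a : ℤ) : ℂ)) = τ' by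
    rw [hτ']; push_cast; ring] at h2
  rw [h2] at h1
  push_cast at h1
  have : (Q.eps a c * conj (Q.eps a c) - 1) * Q.theta τ = 0 := by
    linear_combination -h1 + (Q.eps a c * conj (Q.eps a c) * Q.theta τ) * hcd
  exact sub_eq_zero.mp ((mul_eq_zero.mp this).resolve_right hτ)

theorem eps_real_of_prime {p : ℕ} [NeZero p] (hp : p.Prime) (h2 : p ≠ 2) (hpN : ¬ p ∣ N)
    {b' : ℤ} (hdet : a * p - b' * c = 1) (hN : N ∣ c) : conj (Q.eps a c) = Q.eps a c := by
  have hS := (Q.tendsto_dual 0 0 1)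
  have hS' := (Q.tendsto_dual b' (-(c : ℤ)) p)
  have g1 : Q.gauss 0 1 = 1 := by simp [gauss]
  rw [g1] at hS
  have key : ∀ τ : ℍ, ∑' w : ℤ × ℤ, Q.ker b' (-(c : ℤ)) p w * ee ((τ : ℂ) * Q.dual.val w / N) =
      (p : ℂ) * Q.eps a c *
        ∑' w : ℤ × ℤ, Q.ker 0 0 1 w * ee ((τ : ℂ) * Q.dual.val w / N) := by
    intro τ
    set σ : ℂ := -1 / (τ : ℂ) with hσ
    have hσim : 0 < σ.im := im_neg_inv_pos τ.im_pos
    have hτ0 : (τ : ℂ) ≠ 0 := τ.ne_zero
    have hp0 : (p : ℂ) ≠ 0 := Nat.cast_ne_zero.mpr hp.ne_zero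
    have hsN : (Real.sqrt N : ℂ) ≠ 0 := by simp [Real.sqrt_eq_zero', NeZero.ne N]
    have hj : (p : ℂ) * (τ : ℂ) + ((-(c : ℤ) : ℤ) : ℂ) ≠ 0 := fun e => by
      have := congrArg Complex.im e
      simp [hp.ne_zero, τ.im_pos.ne'] at this
    have h0 := Q.theta_transform (a := 0) (b := -1) (c := 1) (d := 0) τ.im_pos (by norm_num)
    have h1 := Q.theta_transform (a := b') (b := -a) (c := p) (d := -(c : ℤ)) τ.im_pos
      (by linarith)
    have h3 := Q.theta_gamma0 (τ := σ) hσim hdet hN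
    rw [← eps] at h3
    rw [show ((a : ℂ) * σ + b') / ((c : ℂ) * σ + ((p : ℤ) : ℂ)) =
      ((b' : ℂ) * (τ : ℂ) + ((-a : ℤ) : ℂ)) / ((p : ℂ) * (τ : ℂ) + ((-(c : ℤ) : ℤ) : ℂ)) by
        rw [hσ]; push_cast; field_simp; ring, h1] at h3
    rw [show (((0 : ℤ) : ℂ) * (τ : ℂ) + ((-1 : ℤ) : ℂ)) / (((1 : ℕ) : ℂ) * (τ : ℂ) + ((0 : ℤ) : ℂ))
      = σ by rw [hσ]; simp] at h0
    rw [h0, hσ] at h3
    push_cast at h3 hj
    field_simp at h3
    refine mul_left_cancel₀ (mul_ne_zero hτ0 hj) ?_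
    linear_combination h3
  have hu := tendsto_nhds_unique hS' (((hS.const_mul ((p : ℂ) * Q.eps a c))).congr fun τ => (key τ).symm)
  rw [mul_one] at hu
  have hr : conj (Q.gauss b' p) = Q.gauss b' p := by
    rw [← Q.gauss_neg, Q.gauss_neg_prime hp h2 hpN]
  rw [hu, map_mul, map_natCast] at hr
  exact mul_left_cancel₀ (Nat.cast_ne_zero.mpr hp.ne_zero) hr

/-- the multiplier is a sign -/
theorem eps_sq (hdet : a * d - b * c = 1) (hN : N ∣ c) : Q.eps a c ^ 2 = 1 := by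
  have hu : IsUnit (d : ZMod c) := by
    have := congrArg (Int.cast : ℤ → ZMod c) hdet
    exact IsUnit.of_mul_eq_one (a : ZMod c) (by simpa [mul_comm] using this)
  obtain ⟨p, hpgt, hp, hpc⟩ := Nat.forall_exists_prime_gt_and_eq_mod hu (N + 2)
  haveI : NeZero p := ⟨hp.ne_zero⟩
  obtain ⟨k, hk⟩ : (c : ℤ) ∣ (p : ℤ) - d := by
    rw [← ZMod.intCast_zmod_eq_zero_iff_dvd]; push_cast; rw [hpc, sub_self]
  have hr := Q.eps_real_of_prime (a := a) (c := c) (b' := b + k * a) hp (by omega)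
    (fun h => by have := Nat.le_of_dvd (Nat.pos_of_ne_zero (NeZero.ne N)) h; omega)
    (by linear_combination hdet + a * hk) hN
  have h1 := Q.eps_mul_conj hdet hN
  rw [hr] at h1
  rw [sq]; exact h1

end BForm

end FLTAgent.TH2

end
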