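import Fermat.Agent.TH2.ThetaMultiplier
import Fermat.Agent.ModFun.Mero

/-!
Area TH2, parcel THETA: weight two cusp forms from products of two theta series.
-/

set_option autoImplicit false

noncomputable section

open Complex Filter Topology UpperHalfPlane CongruenceSubgroup
open scoped UpperHalfPlane MatrixGroups

namespace FLTAgent.TH2

namespace BForm

variable {N : ℕ} [NeZero N] (Q Q' : BForm N)

theorem differentiableOn_theta : DifferentiableOn ℂ Q.theta {z | 0 < z.im} := by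
  intro z hz
  have hz' : (0 : ℝ) < z.im := hz
  have ho : IsOpen {w : ℂ | z.im / 2 < w.im} := isOpen_lt continuous_const Complex.continuous_im
  have hI : 0 < (Complex.I * ((z.im / 2 : ℝ) : ℂ)).im := by simp; linarith
  have h : DifferentiableOn ℂ Q.theta {w : ℂ | z.im / 2 < w.im} := by
    refine Complex.differentiableOn_tsum_of_summable_norm (Q.summable_ee_val hI) (fun r => ?_) ho
      fun r w hw => ?_
    · exact (Complex.differentiable_exp.comp ((differentiable_const _).mul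
        (differentiable_id.mul (differentiable_const _)))).differentiableOn
    · rw [norm_ee, norm_ee, Real.exp_le_exp, neg_le_neg_iff]
      have hv : (0 : ℝ) ≤ (Q.val r : ℝ) := by exact_mod_cast Q.val_nonneg r
      have hw' : z.im / 2 ≤ w.im := le_of_lt hw
      simp [Complex.mul_im]
      exact mul_le_mul_of_nonneg_left (mul_le_mul_of_nonneg_right hw' hv) (by positivity)
  exact (h.differentiableAt (ho.mem_nhds (show z.im / 2 < z.im by linarith))).differentiableWithinAt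

/-- the number of representations by the sum of two forms -/
def repNum (n : ℕ) : ℕ :=
  Nat.card {x : (ℤ × ℤ) × (ℤ × ℤ) // (Q.val x.1 + Q'.val x.2).toNat = n}

theorem hasSum_theta_mul (τ : ℍ) :
    HasSum (fun n => (Q.repNum Q' n : ℂ) * ModFun.qp τ ^ n) (Q.theta τ * Q'.theta τ) := by
  let φ : (ℤ × ℤ) × (ℤ × ℤ) → ℕ := fun x => (Q.val x.1 + Q'.val x.2).toNat
  let F : (ℤ × ℤ) × (ℤ × ℤ) → ℂ := fun x => ee ((τ : ℂ) * Q.val x.1) * ee ((τ : ℂ) * Q'.val x.2)
  have h1 := Q.summable_ee_val τ.im_pos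
  have h2 := Q'.summable_ee_val τ.im_pos
  have hsF : Summable F := summable_mul_of_summable_norm
    (f := fun r => ee ((τ : ℂ) * Q.val r)) (g := fun r => ee ((τ : ℂ) * Q'.val r)) h1 h2
  have hF : HasSum F (Q.theta τ * Q'.theta τ) := by
    have e := tsum_mul_tsum_of_summable_norm
      (f := fun r => ee ((τ : ℂ) * Q.val r)) (g := fun r => ee ((τ : ℂ) * Q'.val r)) h1 h2
    rw [theta, theta, e]
    exact hsF.hasSum
  have hval : ∀ n, ∀ x : {x // φ x = n}, F x.1 = ModFun.qp τ ^ n := by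
    rintro n ⟨x, rfl⟩
    simp only [F, φ, ModFun.qp, Function.Periodic.qParam, ← Complex.exp_nat_mul, ee,
      ← Complex.exp_add]
    congr 1
    have := Q.val_nonneg x.1
    have := Q'.val_nonneg x.2
    have e : ((Q.val x.1 + Q'.val x.2).toNat : ℂ) = (Q.val x.1 : ℂ) + Q'.val x.2 := by
      rw [← Int.cast_natCast, Int.toNat_of_nonneg (by omega)]; push_cast; ring
    rw [e]
    push_cast
    ring
  refine HasSum.sigma (f := fun p : Σ n, {x // φ x = n} => F p.2.1)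
    ((Equiv.sigmaFiberEquiv φ).hasSum_iff.mpr hF) fun n => ?_
  have hfin : Finite {x // φ x = n} := by
    have hs : Summable fun _ : {x // φ x = n} => ModFun.qp τ ^ n :=
      (hsF.subtype {x | φ x = n}).congr (hval n)
    by_contra hinf
    rw [not_finite_iff_infinite] at hinf
    exact pow_ne_zero _ (ModFun.qp_ne_zero τ) ((summable_const_iff _).mp hs)
  haveI := Fintype.ofFinite {x // φ x = n}
  have h := hasSum_fintype (fun x : {x // φ x = n} => F x.1)
  rw [Finset.sum_congr rfl fun x _ => hval n x, Finset.sum_const, nsmul_eq_mul, Finset.card_univ,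
    ← Nat.card_eq_fintype_card] at h
  exact h

end BForm

section Pair

variable {N : ℕ} [NeZero N] {ι : Type*} [Fintype ι]

/-- a linear combination of products of two theta series -/
def pairFun (Q Q' : ι → BForm N) (wt : ι → ℂ) (z : ℂ) : ℂ :=
  ∑ i, wt i * ((Q i).theta z * (Q' i).theta z)

variable {Q Q' : ι → BForm N} {wt : ι → ℂ}

theorem pairFun_gamma0 (hrel : ∀ i (a : ℤ) (c : ℕ) [NeZero c], (Q i).gauss a c = (Q' i).gauss a c)
    {z : ℂ} (hz : 0 < z.im) {a b d : ℤ} {c : ℕ} [NeZero c] (hdet : a * d - b * c = 1) (hN : N ∣ c) :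
    pairFun Q Q' wt ((a * z + b) / (c * z + d)) = (c * z + d) ^ 2 * pairFun Q Q' wt z := by
  rw [pairFun, pairFun, Finset.mul_sum]
  refine Finset.sum_congr rfl fun i _ => ?_
  rw [(Q i).theta_gamma0 hz hdet hN, (Q' i).theta_gamma0 hz hdet hN, ← BForm.eps, ← BForm.eps,
    ← BForm.eps_congr (Q i) (hrel i a c)]
  have h := (Q i).eps_sq hdet hN
  linear_combination (wt i * (c * z + d) ^ 2 * (Q i).theta z * (Q' i).theta z) * h

theorem coe_SL_smul (γ : SL(2, ℤ)) (τ : ℍ) : ((γ • τ : ℍ) : ℂ) =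
    ((γ 0 0 : ℂ) * τ + (γ 0 1 : ℂ)) / ((γ 1 0 : ℂ) * τ + (γ 1 1 : ℂ)) := by
  rw [UpperHalfPlane.coe_specialLinearGroup_apply]; simp

theorem denom_SL (γ : SL(2, ℤ)) (τ : ℍ) :
    denom (γ : GL (Fin 2) ℝ) τ = (γ 1 0 : ℂ) * τ + (γ 1 1 : ℂ) := by
  simp [denom]

theorem det_SL (γ : SL(2, ℤ)) : γ 0 0 * γ 1 1 - γ 0 1 * γ 1 0 = 1 := by
  have := γ.det_coe
  rwa [Matrix.det_fin_two] at this

/-- reduce to a nonnegative lower left entry -/
theorem sign_cases (γ : SL(2, ℤ)) :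
    (γ 1 0 = 0 ∧ (γ 0 0 = 1 ∧ γ 1 1 = 1 ∨ γ 0 0 = -1 ∧ γ 1 1 = -1)) ∨
    ∃ (s : ℤ) (c : ℕ), s ^ 2 = 1 ∧ c ≠ 0 ∧ s * γ 1 0 = c ∧
      (s * γ 0 0) * (s * γ 1 1) - (s * γ 0 1) * c = 1 := by
  have hdet := det_SL γ
  rcases lt_trichotomy (γ 1 0) 0 with h | h | h
  · refine Or.inr ⟨-1, (-(γ 1 0)).toNat, by norm_num, by omega, by omega, ?_⟩
    rw [Int.toNat_of_nonneg (by omega)]; linarith
  · refine Or.inl ⟨h, ?_⟩
    rw [h, mul_zero, sub_zero] at hdet
    exact Int.eq_one_or_neg_one_of_mul_eq_one' hdet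
  · refine Or.inr ⟨1, (γ 1 0).toNat, by norm_num, by omega, by omega, ?_⟩
    rw [Int.toNat_of_nonneg (by omega)]; linarith

theorem pairFun_moebius (γ : SL(2, ℤ)) {s : ℤ} {c : ℕ} (hs : s ^ 2 = 1) (hsc : s * γ 1 0 = c)
    (τ : ℍ) : ((γ • τ : ℍ) : ℂ) = (((s * γ 0 0 : ℤ) : ℂ) * τ + ((s * γ 0 1 : ℤ) : ℂ)) /
        ((c : ℂ) * τ + ((s * γ 1 1 : ℤ) : ℂ)) ∧
      denom (γ : GL (Fin 2) ℝ) τ ^ (2 : ℤ) = ((c : ℂ) * τ + ((s * γ 1 1 : ℤ) : ℂ)) ^ 2 := by
  have hs0 : (s : ℂ) ≠ 0 := by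
    intro h; rw [Int.cast_eq_zero] at h; subst h; simp at hs
  have e : (c : ℂ) = s * (γ 1 0 : ℂ) := by exact_mod_cast hsc.symm
  have hs' : (s : ℂ) ^ 2 = 1 := by exact_mod_cast hs
  refine ⟨?_, ?_⟩
  · rw [coe_SL_smul, e, ← mul_div_mul_left _ _ hs0]
    push_cast; ring
  · rw [denom_SL, zpow_two, e]; push_cast
    linear_combination (-((γ 1 0 : ℂ) * τ + γ 1 1) ^ 2) * hs'

variable (hrel : ∀ i (a : ℤ) (c : ℕ) [NeZero c], (Q i).gauss a c = (Q' i).gauss a c)
  (hw : ∑ i, wt i = 0)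
  (hG : ∀ (a : ℤ) (c : ℕ) [NeZero c], ∑ i, wt i * (Q i).gauss a c ^ 2 = 0)

include hrel hw hG in
theorem isCF_pair : ModFun.IsCF N 2 (fun τ : ℍ => pairFun Q Q' wt τ) where
  holo := by
    rw [UpperHalfPlane.mdifferentiable_iff]
    refine DifferentiableOn.congr (f := pairFun Q Q' wt) ?_ fun z (hz : 0 < z.im) => by
      simp [ofComplex_apply_of_im_pos hz]
    exact DifferentiableOn.fun_sum fun i _ => ((Q i).differentiableOn_theta.mul
      (Q' i).differentiableOn_theta).const_mul _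
  inv γ hγ := by
    funext τ
    rw [ModularForm.SL_slash_apply]
    have hγ' : (N : ℤ) ∣ γ 1 0 := by
      rw [Gamma0_mem, ZMod.intCast_zmod_eq_zero_iff_dvd] at hγ; exact hγ
    rcases sign_cases γ with ⟨h10, h⟩ | ⟨s, c, hs, hc, hsc, hdet⟩
    · have hden : denom (γ : GL (Fin 2) ℝ) τ ^ (-2 : ℤ) = 1 := by
        rw [denom_SL, h10]
        rcases h with ⟨-, h⟩ | ⟨-, h⟩ <;> rw [h] <;> norm_num [zpow_neg, zpow_two]
      obtain ⟨n, hn⟩ : ∃ n : ℤ, ((γ • τ : ℍ) : ℂ) = τ + n := by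
        rcases h with ⟨h00, h11⟩ | ⟨h00, h11⟩
        · exact ⟨γ 0 1, by rw [coe_SL_smul, h10, h00, h11]; simp⟩
        · exact ⟨-γ 0 1, by rw [coe_SL_smul, h10, h00, h11]; simp; ring⟩
      rw [hden, mul_one]
      simp only [pairFun, hn, BForm.theta_add_int]
    · haveI : NeZero c := ⟨hc⟩
      obtain ⟨h1, h2⟩ := pairFun_moebius γ hs hsc τ
      have hNc : N ∣ c := by
        rw [← Int.natCast_dvd_natCast, ← hsc]; exact hγ'.mul_left s
      rw [h1, pairFun_gamma0 hrel τ.im_pos hdet hNc, zpow_neg, h2]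
      have hne : (c : ℂ) * τ + ((s * γ 1 1 : ℤ) : ℂ) ≠ 0 := fun e => by
        have := congrArg Complex.im e
        simp [hc, τ.im_pos.ne'] at this
      field_simp
  zero γ := by
    change Tendsto _ atImInfty (𝓝 0)
    rcases sign_cases γ with ⟨h10, h⟩ | ⟨s, c, hs, hc, hsc, hdet⟩
    · have hlim : Tendsto (fun τ : ℍ => pairFun Q Q' wt τ) atImInfty (𝓝 0) := by
        rw [← hw]
        refine tendsto_finsetSum _ fun i _ => ?_
        simpa using (((Q i).tendsto_theta.mul (Q' i).tendsto_theta).const_mul (wt i))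
      refine hlim.congr fun τ => ?_
      rw [ModularForm.SL_slash_apply]
      have hden : denom (γ : GL (Fin 2) ℝ) τ ^ (-2 : ℤ) = 1 := by
        rw [denom_SL, h10]
        rcases h with ⟨-, h⟩ | ⟨-, h⟩ <;> rw [h] <;> norm_num [zpow_neg, zpow_two]
      obtain ⟨n, hn⟩ : ∃ n : ℤ, ((γ • τ : ℍ) : ℂ) = τ + n := by
        rcases h with ⟨h00, h11⟩ | ⟨h00, h11⟩
        · exact ⟨γ 0 1, by rw [coe_SL_smul, h10, h00, h11]; simp⟩
        · exact ⟨-γ 0 1, by rw [coe_SL_smul, h10, h00, h11]; simp; ring⟩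
      rw [hden, mul_one]
      simp only [pairFun, hn, BForm.theta_add_int]
    · haveI : NeZero c := ⟨hc⟩
      have hlim : Tendsto (fun τ : ℍ => ∑ i, wt i *
          (((Q i).theta ((((s * γ 0 0 : ℤ) : ℂ) * τ + ((s * γ 0 1 : ℤ) : ℂ)) /
              ((c : ℂ) * τ + ((s * γ 1 1 : ℤ) : ℂ))) / ((c : ℂ) * τ + ((s * γ 1 1 : ℤ) : ℂ))) *
            ((Q' i).theta ((((s * γ 0 0 : ℤ) : ℂ) * τ + ((s * γ 0 1 : ℤ) : ℂ)) /
              ((c : ℂ) * τ + ((s * γ 1 1 : ℤ) : ℂ))) / ((c : ℂ) * τ + ((s * γ 1 1 : ℤ) : ℂ)))))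
          atImInfty (𝓝 0) := by
        have h0 : ∑ i, wt i * ((Q i).eps (s * γ 0 0) c * (Q' i).eps (s * γ 0 0) c) = 0 := by
          have := hG (s * γ 0 0) c
          simp only [← BForm.eps_congr (Q _) (hrel _ (s * γ 0 0) c)]
          simp only [BForm.eps, div_mul_div_comm, ← mul_div_assoc, ← Finset.sum_div, ← sq, div_pow,
            this, zero_div]
        rw [← h0]
        exact tendsto_finsetSum _ fun i _ =>
          (((Q i).tendsto_cusp hdet).mul ((Q' i).tendsto_cusp hdet)).const_mul (wt i)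
      refine hlim.congr fun τ => ?_
      obtain ⟨h1, h2⟩ := pairFun_moebius γ hs hsc τ
      rw [ModularForm.SL_slash_apply, h1, zpow_neg, h2, pairFun, Finset.sum_mul]
      refine Finset.sum_congr rfl fun i _ => ?_
      rw [div_eq_mul_inv, div_eq_mul_inv, ← inv_pow]
      ring

include hrel hw hG in
theorem exists_pairForm : ∃ g : CuspForm (Gamma0 N) 2,
    ∀ n, ModularFormClass.qCoeff g n = ∑ i, wt i * ((Q i).repNum (Q' i) n : ℂ) := by
  have h := isCF_pair hrel hw hG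
  refine ⟨h.toForm, fun n => ?_⟩
  have hc := ModFun.coeff_unique' h.isMF.good
    (c := fun n => ∑ i, wt i * ((Q i).repNum (Q' i) n : ℂ)) fun τ => by
      simp only [Finset.sum_mul]
      refine hasSum_sum fun i _ => ?_
      exact (((Q i).hasSum_theta_mul (Q' i) τ).mul_left (wt i)).congr_fun fun n => by ring
  rw [ModularFormClass.qCoeff, ModFun.IsCF.coe_toForm]
  exact (congrArg (fun f => PowerSeries.coeff n f) hc).trans (PowerSeries.coeff_mk _ _)

end Pair

end FLTAgent.TH2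

end
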