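import Mathlib

/-!
Area TH2, parcel THETA: Gaussian sums over a shifted binary lattice (Poisson summation).
-/

set_option autoImplicit false

noncomputable section

open Complex

namespace FLTAgent.TH2

/-- `exp(2 π i z)` -/
def ee (z : ℂ) : ℂ := cexp (2 * Real.pi * I * z)

theorem ee_zero : ee 0 = 1 := by simp [ee]

theorem ee_add (z w : ℂ) : ee (z + w) = ee z * ee w := by
  rw [ee, ee, ee, ← Complex.exp_add]; ring_nf

theorem ee_intCast (n : ℤ) : ee n = 1 := by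
  rw [ee, show 2 * (Real.pi : ℂ) * I * n = n * (2 * Real.pi * I) by ring]
  exact exp_int_mul_two_pi_mul_I n

theorem ee_add_int (z : ℂ) (n : ℤ) : ee (z + n) = ee z := by
  rw [ee_add, ee_intCast, mul_one]

theorem norm_ee (z : ℂ) : ‖ee z‖ = Real.exp (-(2 * Real.pi * z.im)) := by
  rw [ee, Complex.norm_exp]; simp

theorem norm_ee_real_add (x : ℝ) (z : ℂ) : ‖ee ((x : ℂ) + z)‖ = ‖ee z‖ := by
  simp [norm_ee]

/-- positive binary quadratic forms of discriminant `-N` -/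
structure BForm (N : ℕ) where
  a : ℤ
  b : ℤ
  c : ℤ
  pos : 0 < a
  disc : 4 * a * c - b ^ 2 = N

namespace BForm

variable {N : ℕ} [NeZero N] (Q : BForm N)

/-- the value at an integral vector -/
def val (r : ℤ × ℤ) : ℤ := Q.a * r.1 ^ 2 + Q.b * r.1 * r.2 + Q.c * r.2 ^ 2

/-- the form over `ℂ` -/
def qc (X Y : ℂ) : ℂ := Q.a * X ^ 2 + Q.b * X * Y + Q.c * Y ^ 2

theorem qc_intCast (r : ℤ × ℤ) : Q.qc r.1 r.2 = (Q.val r : ℂ) := by
  simp [qc, val]

theorem natCast_pos : (0 : ℤ) < N := by exact_mod_cast Nat.pos_of_ne_zero (NeZero.ne N)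

theorem c_pos : 0 < Q.c := by
  have h := Q.disc
  have h1 := natCast_pos (N := N)
  have h2 := Q.pos
  nlinarith [sq_nonneg Q.b]

/-- the adjugate form -/
def dual : BForm N where
  a := Q.c
  b := -Q.b
  c := Q.a
  pos := Q.c_pos
  disc := by rw [← Q.disc]; ring

theorem qc_eq (X Y : ℂ) : Q.qc X Y =
    Q.a * (X + Q.b * Y / (2 * Q.a)) ^ 2 + N * Y ^ 2 / (4 * Q.a) := by
  have ha : (Q.a : ℂ) ≠ 0 := Int.cast_ne_zero.mpr Q.pos.ne'
  have hd : ((4 * Q.a * Q.c - Q.b ^ 2 : ℤ) : ℂ) = (N : ℂ) := by rw [Q.disc]; simp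
  push_cast at hd
  rw [qc, ← hd]
  field_simp
  ring

theorem le_qc_re (X Y : ℝ) :
    (N : ℝ) / (8 * Q.c) * X ^ 2 + (N : ℝ) / (8 * Q.a) * Y ^ 2 ≤
      (Q.a : ℝ) * X ^ 2 + Q.b * X * Y + Q.c * Y ^ 2 := by
  have ha : (0 : ℝ) < Q.a := by exact_mod_cast Q.pos
  have hc : (0 : ℝ) < Q.c := by exact_mod_cast Q.c_pos
  have hd : (4 : ℝ) * Q.a * Q.c - Q.b ^ 2 = N := by exact_mod_cast Q.disc
  set q := (Q.a : ℝ) * X ^ 2 + Q.b * X * Y + Q.c * Y ^ 2 with hq
  have h1 : (N : ℝ) * Y ^ 2 / (4 * Q.a) ≤ q := by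
    rw [div_le_iff₀ (by positivity), hq]
    nlinarith [sq_nonneg (2 * (Q.a : ℝ) * X + Q.b * Y)]
  have h2 : (N : ℝ) * X ^ 2 / (4 * Q.c) ≤ q := by
    rw [div_le_iff₀ (by positivity), hq]
    nlinarith [sq_nonneg (2 * (Q.c : ℝ) * Y + Q.b * X)]
  have e : (N : ℝ) / (8 * Q.c) * X ^ 2 + (N : ℝ) / (8 * Q.a) * Y ^ 2 =
      ((N : ℝ) * X ^ 2 / (4 * Q.c) + (N : ℝ) * Y ^ 2 / (4 * Q.a)) / 2 := by field_simp; ring
  rw [e]; linarith

end BForm

/-- Gaussian term -/
def gs (A U : ℂ) (n : ℤ) : ℂ := ee (A * (n + U) ^ 2)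

theorem gs_eq (A U : ℂ) (n : ℤ) :
    gs A U n = ee (A * U ^ 2) * jacobiTheta₂_term n (2 * A * U) (2 * A) := by
  rw [gs, ee, ee, jacobiTheta₂_term, ← Complex.exp_add]; ring_nf

theorem summable_gs {A : ℂ} (hA : 0 < A.im) (U : ℂ) : Summable fun n : ℤ => ‖gs A U n‖ := by
  have h : Summable (jacobiTheta₂_term · (2 * A * U) (2 * A)) :=
    (summable_jacobiTheta₂_term_iff _ _).mpr (by simpa using hA)
  exact (summable_norm_iff.mpr (h.mul_left (ee (A * U ^ 2)))).congr fun n => by rw [gs_eq]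

theorem tsum_gs {A : ℂ} (hA : 0 < A.im) (U : ℂ) :
    ∑' n, gs A U n =
      1 / (-2 * I * A) ^ (1 / 2 : ℂ) * ∑' m : ℤ, ee (m * U - m ^ 2 / (4 * A)) := by
  have hA0 : A ≠ 0 := fun h => by simp [h] at hA
  simp_rw [gs_eq]
  rw [tsum_mul_left, show (∑' n : ℤ, jacobiTheta₂_term n (2 * A * U) (2 * A)) =
    jacobiTheta₂ (2 * A * U) (2 * A) from rfl, jacobiTheta₂_functional_equation,
    show 2 * A * U / (2 * A) = U by field_simp,
    show -I * (2 * A) = -2 * I * A by ring]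
  have h1 : ee (A * U ^ 2) * cexp (-Real.pi * I * (2 * A * U) ^ 2 / (2 * A)) = 1 := by
    rw [ee, ← Complex.exp_add, ← Complex.exp_zero]
    congr 1
    field_simp
    ring
  have h2 : jacobiTheta₂ U (-1 / (2 * A)) = ∑' m : ℤ, ee (m * U - m ^ 2 / (4 * A)) := by
    refine tsum_congr fun m => ?_
    rw [jacobiTheta₂_term, ee]
    congr 1
    field_simp
    ring
  rw [← h2]
  linear_combination
    (1 / (-2 * I * A) ^ (1 / 2 : ℂ) * jacobiTheta₂ U (-1 / (2 * A))) * h1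

theorem im_neg_inv_pos {A : ℂ} (hA : 0 < A.im) : 0 < (-1 / A).im := by
  have : A ≠ 0 := fun h => by simp [h] at hA
  rw [neg_div, one_div, Complex.neg_im, Complex.inv_im, neg_div, neg_neg]
  exact div_pos hA (Complex.normSq_pos.mpr this)

theorem sqrt_mul_cpow {x : ℝ} (hx : 0 < x) {u : ℂ} (hu : u ≠ 0) :
    ((x : ℂ) * u) ^ (1 / 2 : ℂ) = (Real.sqrt x : ℂ) * u ^ (1 / 2 : ℂ) := by
  have hx0 : (x : ℂ) ≠ 0 := by exact_mod_cast hx.ne'
  rw [cpow_def_of_ne_zero (mul_ne_zero hx0 hu), cpow_def_of_ne_zero hu, log_ofReal_mul hx hu,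
    add_mul, Complex.exp_add, Real.sqrt_eq_rpow, Real.rpow_def_of_pos hx]
  push_cast
  rfl

namespace BForm

variable {N : ℕ} [NeZero N] (Q : BForm N)

theorem summable_ee_qc {z : ℂ} (hz : 0 < z.im) (s t : ℝ) :
    Summable fun r : ℤ × ℤ => ‖ee (z * Q.qc (r.1 + s) (r.2 + t))‖ := by
  have ha : (0 : ℝ) < Q.a := by exact_mod_cast Q.pos
  have hc : (0 : ℝ) < Q.c := by exact_mod_cast Q.c_pos
  have hN : (0 : ℝ) < N := by exact_mod_cast natCast_pos (N := N)
  let u : ℝ := z.im * (N / (8 * Q.c))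
  let v : ℝ := z.im * (N / (8 * Q.a))
  have hu : 0 < ((u : ℂ) * I).im := by
    rw [Complex.im_ofReal_mul, Complex.I_im, mul_one]; exact mul_pos hz (by positivity)
  have hv : 0 < ((v : ℂ) * I).im := by
    rw [Complex.im_ofReal_mul, Complex.I_im, mul_one]; exact mul_pos hz (by positivity)
  refine ((summable_gs hu (s : ℂ)).mul_of_nonneg (summable_gs hv (t : ℂ))
    (fun _ => norm_nonneg _) fun _ => norm_nonneg _).of_nonneg_of_le
      (fun r => norm_nonneg _) fun r => ?_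
  rw [gs, gs, norm_ee, norm_ee, norm_ee, ← Real.exp_add, Real.exp_le_exp]
  have e : Q.qc ((r.1 : ℂ) + s) ((r.2 : ℂ) + t) =
      (((Q.a : ℝ) * (r.1 + s) ^ 2 + Q.b * (r.1 + s) * (r.2 + t) + Q.c * (r.2 + t) ^ 2 : ℝ) : ℂ) := by
    rw [qc]; push_cast; ring
  rw [e, show ((u : ℂ) * I) * ((r.1 : ℂ) + s) ^ 2 = ((u * (r.1 + s) ^ 2 : ℝ) : ℂ) * I by
      push_cast; ring, show ((v : ℂ) * I) * ((r.2 : ℂ) + t) ^ 2 =
      ((v * (r.2 + t) ^ 2 : ℝ) : ℂ) * I by push_cast; ring]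
  simp only [Complex.mul_im, Complex.ofReal_re, Complex.ofReal_im, Complex.I_re, Complex.I_im,
    mul_zero, mul_one, add_zero, zero_add]
  have h := mul_le_mul_of_nonneg_left (Q.le_qc_re (r.1 + s) (r.2 + t)) hz.le
  have := mul_le_mul_of_nonneg_left h (show 0 ≤ 2 * Real.pi by positivity)
  simp only [u, v]
  linarith

theorem summable_ee_val {z : ℂ} (hz : 0 < z.im) :
    Summable fun r : ℤ × ℤ => ‖ee (z * Q.val r)‖ := by
  refine (Q.summable_ee_qc hz 0 0).congr fun r => ?_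
  simp [Q.qc_intCast]

theorem summable_ee_dual {z : ℂ} (hz : 0 < z.im) (s t : ℝ) :
    Summable fun w : ℤ × ℤ => ee (w.1 * s + w.2 * t - Q.dual.val w / (z * N)) := by
  have hz' : 0 < (-1 / (z * N)).im := by
    refine im_neg_inv_pos ?_
    simpa using mul_pos hz (show (0 : ℝ) < N by exact_mod_cast natCast_pos (N := N))
  refine Summable.of_norm ((Q.dual.summable_ee_val hz').congr fun w => ?_)
  rw [show (w.1 : ℂ) * s + w.2 * t - Q.dual.val w / (z * N) =
    ((w.1 * s + w.2 * t : ℝ) : ℂ) + -1 / (z * N) * Q.dual.val w by push_cast; ring,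
    norm_ee_real_add]

/-- Poisson summation for a shifted binary Gaussian -/
theorem tsum_ee_qc {z : ℂ} (hz : 0 < z.im) (s t : ℝ) :
    ∑' r : ℤ × ℤ, ee (z * Q.qc (r.1 + s) (r.2 + t)) =
      1 / ((Real.sqrt N : ℂ) * (-I * z)) *
        ∑' w : ℤ × ℤ, ee (w.1 * s + w.2 * t - Q.dual.val w / (z * N)) := by
  have haR : (0 : ℝ) < Q.a := by exact_mod_cast Q.pos
  have hNR : (0 : ℝ) < N := by exact_mod_cast natCast_pos (N := N)
  have ha : (Q.a : ℂ) ≠ 0 := Int.cast_ne_zero.mpr Q.pos.ne'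
  have hNC : (N : ℂ) ≠ 0 := Nat.cast_ne_zero.mpr (NeZero.ne N)
  have hz0 : z ≠ 0 := fun h => by simp [h] at hz
  have hza : 0 < (z * Q.a).im := by simpa using mul_pos hz haR
  set A : ℂ := z * N / (4 * Q.a) with hA
  have hA' : A = z * (((N : ℝ) / (4 * Q.a) : ℝ) : ℂ) := by rw [hA]; push_cast; ring
  have hAim : 0 < A.im := by
    rw [hA', Complex.im_mul_ofReal]; positivity
  set c1 : ℂ := 1 / (-2 * I * (z * Q.a)) ^ (1 / 2 : ℂ) with hc1
  set c2 : ℂ := 1 / (-2 * I * A) ^ (1 / 2 : ℂ) with hc2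
  have hsum : Summable fun r : ℤ × ℤ => ee (z * Q.qc (r.1 + s) (r.2 + t)) :=
    Summable.of_norm (Q.summable_ee_qc hz s t)
  let M : ℤ → ℤ → ℂ := fun y m =>
    ee (A * ((y : ℂ) + t) ^ 2 +
      (m * ((s : ℂ) + Q.b * ((y : ℂ) + t) / (2 * Q.a)) - (m : ℂ) ^ 2 / (4 * (z * Q.a))))
  have hM : Summable (Function.uncurry M) := by
    have hm' : 0 < (-1 / (4 * (z * Q.a))).im := im_neg_inv_pos (by simpa using hza)
    refine Summable.of_norm (((summable_gs hAim (t : ℂ)).mul_of_nonneg (summable_gs hm' 0)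
      (fun _ => norm_nonneg _) fun _ => norm_nonneg _).congr fun p => ?_)
    obtain ⟨y, m⟩ := p
    rw [Function.uncurry_apply_pair, show M y m = ee (((m * (s + Q.b * (y + t) / (2 * Q.a)) : ℝ) : ℂ)
      + (A * ((y : ℂ) + t) ^ 2 + -1 / (4 * (z * Q.a)) * ((m : ℂ) + 0) ^ 2)) by
        simp only [M]; congr 1; push_cast; ring, norm_ee_real_add, ee_add, norm_mul]
    rfl
  calc ∑' r : ℤ × ℤ, ee (z * Q.qc (r.1 + s) (r.2 + t))
      = ∑' y : ℤ, ∑' x : ℤ, ee (z * Q.qc ((x : ℂ) + s) ((y : ℂ) + t)) := by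
        rw [hsum.tsum_prod]
        exact (Summable.tsum_comm (f := fun (x y : ℤ) =>
          ee (z * Q.qc ((x : ℂ) + s) ((y : ℂ) + t))) hsum).symm
    _ = ∑' y : ℤ, c1 * ∑' m : ℤ, M y m := by
        refine tsum_congr fun y => ?_
        have e : ∀ x : ℤ, ee (z * Q.qc ((x : ℂ) + s) ((y : ℂ) + t)) =
            ee (A * ((y : ℂ) + t) ^ 2) *
              gs (z * Q.a) ((s : ℂ) + Q.b * ((y : ℂ) + t) / (2 * Q.a)) x := fun x => by
          rw [gs, ← ee_add, Q.qc_eq, hA]; congr 1; ring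
        simp_rw [e]
        rw [tsum_mul_left, tsum_gs hza, ← hc1, mul_left_comm, ← tsum_mul_left]
        simp only [M, ee_add]
    _ = c1 * ∑' m : ℤ, ∑' y : ℤ, M y m := by
        rw [tsum_mul_left, Summable.tsum_comm hM]
    _ = c1 * ∑' m : ℤ, c2 * ∑' k : ℤ, ee (m * s + k * t - Q.dual.val (m, k) / (z * N)) := by
        congr 1
        refine tsum_congr fun m => ?_
        have e : ∀ y : ℤ, M y m =
            ee (m * s - (m : ℂ) ^ 2 / (4 * (z * Q.a)) - ((m * Q.b / (2 * Q.a)) ^ 2 / (4 * A))) *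
              gs A ((t : ℂ) + (m * Q.b / (2 * Q.a)) / (2 * A)) y := fun y => by
          rw [gs, ← ee_add]
          simp only [M]
          congr 1
          rw [hA]
          field_simp
          ring
        simp_rw [e]
        rw [tsum_mul_left, tsum_gs hAim, ← hc2, mul_left_comm, ← tsum_mul_left]
        congr 1
        refine tsum_congr fun k => ?_
        rw [← ee_add]
        congr 1
        have hd : ((4 * Q.a * Q.c - Q.b ^ 2 : ℤ) : ℂ) = (N : ℂ) := by rw [Q.disc]; simp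
        push_cast at hd
        simp only [val, dual, hA]
        push_cast
        field_simp
        rw [← hd]
        ring
    _ = c1 * c2 * ∑' w : ℤ × ℤ, ee (w.1 * s + w.2 * t - Q.dual.val w / (z * N)) := by
        rw [tsum_mul_left, ← mul_assoc, (Q.summable_ee_dual hz s t).tsum_prod]
    _ = _ := by
        congr 1
        have hu : (-I * z) ≠ 0 := mul_ne_zero (neg_ne_zero.mpr I_ne_zero) hz0
        rw [hc1, hc2, one_div_mul_one_div,
          show -2 * I * (z * Q.a) = ((2 * (Q.a : ℝ) : ℝ) : ℂ) * (-I * z) by push_cast; ring,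
          show -2 * I * A = (((N : ℝ) / (2 * Q.a) : ℝ) : ℂ) * (-I * z) by
            rw [hA]; push_cast; ring,
          sqrt_mul_cpow (by positivity) hu, sqrt_mul_cpow (by positivity) hu]
        congr 1
        rw [mul_mul_mul_comm, ← Complex.ofReal_mul, ← Real.sqrt_mul (by positivity),
          ← Complex.cpow_add _ _ hu, show (2 * (Q.a : ℝ)) * ((N : ℝ) / (2 * Q.a)) = N by field_simp]
        norm_num

end BForm

end FLTAgent.TH2

end
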