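import Fermat.Agent.TH2.ThetaGauss

/-!
Area TH2, parcel THETA: transformation of a binary theta series.
-/

set_option autoImplicit false

noncomputable section

open Complex Filter Topology ComplexConjugate

namespace FLTAgent.TH2

/-- residues and quotients modulo `c` -/
def resEquiv (c : ℕ) [NeZero c] : ZMod c × ℤ ≃ ℤ where
  toFun p := (p.1.val : ℤ) + c * p.2
  invFun n := ((n : ZMod c), n / c)
  left_inv p := by
    have h0 : (c : ℤ) ≠ 0 := by exact_mod_cast NeZero.ne c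
    have h1 : (p.1.val : ℤ) / c = 0 :=
      Int.ediv_eq_zero_of_lt (by positivity) (by exact_mod_cast ZMod.val_lt p.1)
    refine Prod.ext ?_ ?_
    · simp
    · simp only [Int.add_mul_ediv_left _ _ h0, h1, zero_add]
  right_inv n := by
    simp only [ZMod.val_intCast]
    exact Int.emod_add_mul_ediv n c

theorem stdAddChar_eq_ee {c : ℕ} [NeZero c] (j : ℤ) :
    ZMod.stdAddChar (j : ZMod c) = ee ((j : ℂ) / c) := by
  rw [ZMod.stdAddChar_coe, ee]; congr 1; ring

theorem im_ratio (x y : ℤ) (m n : ℕ) : ((x : ℂ) * y / (m * n)).im = 0 := by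
  rw [show ((x : ℂ) * y / (m * n)) = (((x : ℝ) * y / (m * n) : ℝ) : ℂ) by push_cast; ring,
    Complex.ofReal_im]

namespace BForm

variable {N : ℕ} [NeZero N] (Q : BForm N)

/-- the theta series -/
def theta (τ : ℂ) : ℂ := ∑' r : ℤ × ℤ, ee (τ * Q.val r)

theorem val_nonneg (r : ℤ × ℤ) : 0 ≤ Q.val r := by
  have h := Q.le_qc_re r.1 r.2
  have ha : (0 : ℝ) < Q.a := by exact_mod_cast Q.pos
  have hc : (0 : ℝ) < Q.c := by exact_mod_cast Q.c_pos
  have : (0 : ℝ) ≤ (Q.val r : ℝ) := by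
    simp only [val]; push_cast
    exact le_trans (by positivity) h
  exact_mod_cast this

theorem eq_zero_of_val {r : ℤ × ℤ} (h : Q.val r = 0) : r = (0, 0) := by
  have h' := Q.le_qc_re r.1 r.2
  have ha : (0 : ℝ) < Q.a := by exact_mod_cast Q.pos
  have hc : (0 : ℝ) < Q.c := by exact_mod_cast Q.c_pos
  have hN : (0 : ℝ) < N := by exact_mod_cast natCast_pos (N := N)
  have hv : ((Q.val r : ℤ) : ℝ) = 0 := by rw [h]; simp
  simp only [val] at hv
  push_cast at hv
  rw [hv] at h'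
  have h1 : (0 : ℝ) ≤ N / (8 * Q.c) * (r.1 : ℝ) ^ 2 := by positivity
  have h2 : (0 : ℝ) ≤ N / (8 * Q.a) * (r.2 : ℝ) ^ 2 := by positivity
  have e1 : N / (8 * Q.c) * (r.1 : ℝ) ^ 2 = 0 := by linarith
  have e2 : N / (8 * Q.a) * (r.2 : ℝ) ^ 2 = 0 := by linarith
  have z1 : r.1 = 0 := by
    simpa [hN.ne', hc.ne', ha.ne'] using e1
  have z2 : r.2 = 0 := by
    simpa [hN.ne', hc.ne', ha.ne'] using e2
  exact Prod.ext z1 z2

theorem theta_add_int (τ : ℂ) (n : ℤ) : Q.theta (τ + n) = Q.theta τ := by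
  refine tsum_congr fun r => ?_
  rw [show (τ + n) * (Q.val r : ℂ) = τ * Q.val r + ((n * Q.val r : ℤ) : ℂ) by push_cast; ring,
    ee_add_int]

/-- the coefficient of the dual series in the transformation formula -/
def ker (a d : ℤ) (c : ℕ) [NeZero c] (w : ℤ × ℤ) : ℂ :=
  ee (d * Q.dual.val w / (N * c)) * ∑ r : ZMod c × ZMod c,
    ZMod.stdAddChar ((a : ZMod c) * Q.rval r + (w.1 : ZMod c) * r.1 + (w.2 : ZMod c) * r.2)

theorem ker_zero (a d : ℤ) (c : ℕ) [NeZero c] : Q.ker a d c (0, 0) = Q.gauss a c := by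
  simp [ker, val, dual, ee_zero, gauss]

theorem norm_ker_le (a d : ℤ) (c : ℕ) [NeZero c] (w : ℤ × ℤ) :
    ‖Q.ker a d c w‖ ≤ (c : ℝ) * c := by
  rw [ker, norm_mul, norm_ee]
  rw [im_ratio, mul_zero, neg_zero, Real.exp_zero, one_mul]
  refine (norm_sum_le _ _).trans ?_
  simp

theorem dual_series_summable {τ : ℂ} (hτ : 0 < τ.im) (a d : ℤ) (c : ℕ) [NeZero c] :
    Summable fun w : ℤ × ℤ => Q.ker a d c w * ee (τ * Q.dual.val w / N) := by
  have h : 0 < (τ / N).im := by
    rw [Complex.div_natCast_im]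
    exact div_pos hτ (by exact_mod_cast natCast_pos (N := N))
  refine Summable.of_norm ((Q.dual.summable_ee_val h).mul_left ((c : ℝ) * c)
    |>.of_nonneg_of_le (fun _ => norm_nonneg _) fun w => ?_)
  rw [norm_mul, show τ / N * (Q.dual.val w : ℂ) = τ * Q.dual.val w / N by ring]
  exact mul_le_mul_of_nonneg_right (Q.norm_ker_le a d c w) (norm_nonneg _)

/-- the theta series at `γ τ`, lower left entry positive -/
theorem theta_transform {τ : ℂ} (hτ : 0 < τ.im) {a b d : ℤ} {c : ℕ} [NeZero c]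
    (hdet : a * d - b * c = 1) :
    Q.theta ((a * τ + b) / (c * τ + d)) =
      (c * τ + d) / (I * c * (Real.sqrt N : ℂ)) *
        ∑' w : ℤ × ℤ, Q.ker a d c w * ee (τ * Q.dual.val w / N) := by
  have hc : (c : ℂ) ≠ 0 := Nat.cast_ne_zero.mpr (NeZero.ne c)
  have hcR : (0 : ℝ) < c := by exact_mod_cast Nat.pos_of_ne_zero (NeZero.ne c)
  have hNC : (N : ℂ) ≠ 0 := Nat.cast_ne_zero.mpr (NeZero.ne N)
  have hsN : (Real.sqrt N : ℂ) ≠ 0 := by
    simp [Real.sqrt_eq_zero', NeZero.ne N]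
  have hj : 0 < ((c : ℂ) * τ + d).im := by simpa using mul_pos hcR hτ
  set j : ℂ := c * τ + d with hjdef
  have hj0 : j ≠ 0 := fun h => by simp [h] at hj
  set σ : ℂ := (a * τ + b) / j with hσ
  set z : ℂ := -(c : ℂ) / j with hzdef
  have hz : 0 < z.im := by
    rw [hzdef, show -(c : ℂ) / j = -1 / j * ((c : ℝ) : ℂ) by push_cast; ring, Complex.im_mul_ofReal]
    exact mul_pos (im_neg_inv_pos hj) hcR
  have hσe : σ = a / c - 1 / (c * j) := by
    have hd : (a : ℂ) * d - b * c = 1 := by exact_mod_cast hdet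
    rw [hσ]
    field_simp
    rw [hjdef]
    linear_combination (-1 : ℂ) * hd
  have hσim : 0 < σ.im := by
    rw [hσe]
    have : (1 / ((c : ℂ) * j)) = ((c : ℝ)⁻¹ : ℂ) * (1 / j) := by push_cast; field_simp
    rw [this, Complex.sub_im, show ((a : ℂ) / c).im = 0 by simp, ← Complex.ofReal_inv,
      Complex.im_ofReal_mul]
    have h1 := im_neg_inv_pos hj
    rw [show -1 / j = -(1 / j) by ring, Complex.neg_im] at h1
    nlinarith [inv_pos.mpr hcR]
  let E : (ZMod c × ZMod c) × (ℤ × ℤ) ≃ ℤ × ℤ :=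
    (Equiv.prodProdProdComm _ _ _ _).trans (Equiv.prodCongr (resEquiv c) (resEquiv c))
  have hsum : Summable fun r : ℤ × ℤ => ee (σ * Q.val r) :=
    Summable.of_norm (Q.summable_ee_val hσim)
  have hterm : ∀ (ρ : ZMod c × ZMod c) (t : ℤ × ℤ), ee (σ * Q.val (E (ρ, t))) =
      ZMod.stdAddChar ((a : ZMod c) * Q.rval ρ) *
        ee (z * Q.qc (t.1 + ((ρ.1.val : ℝ) / c : ℝ)) (t.2 + ((ρ.2.val : ℝ) / c : ℝ))) := by
    intro ρ t
    obtain ⟨t1, t2⟩ := t
    have eE : E (ρ, (t1, t2)) = ((ρ.1.val : ℤ) + c * t1, (ρ.2.val : ℤ) + c * t2) := rfl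
    set x := (ρ.1.val : ℤ) + c * t1 with hx
    set y := (ρ.2.val : ℤ) + c * t2 with hy
    have hmod : ZMod.stdAddChar ((a : ZMod c) * Q.rval ρ) = ee ((a : ℂ) / c * Q.val (x, y)) := by
      have : (((a * Q.val (x, y)) : ℤ) : ZMod c) = (a : ZMod c) * Q.rval ρ := by
        rw [Int.cast_mul, val_zmod, hx, hy]; simp
      rw [← this, stdAddChar_eq_ee]; congr 1; push_cast; ring
    rw [eE, hmod, ← ee_add, hσe]
    congr 1
    rw [← Q.qc_intCast, hzdef, hx, hy]
    simp only [qc]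
    push_cast
    field_simp
    ring
  calc Q.theta σ = ∑' p, ee (σ * Q.val (E p)) := (E.tsum_eq fun r => ee (σ * Q.val r)).symm
    _ = ∑ ρ : ZMod c × ZMod c, ∑' t : ℤ × ℤ, ee (σ * Q.val (E (ρ, t))) := by
        rw [Summable.tsum_prod (f := fun p => ee (σ * Q.val (E p)))
          ((E.summable_iff (f := fun r => ee (σ * Q.val r))).mpr hsum), tsum_fintype]
    _ = ∑ ρ : ZMod c × ZMod c, j / (I * c * (Real.sqrt N : ℂ)) *
          ∑' w : ℤ × ℤ, (ee (d * Q.dual.val w / (N * c)) *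
            ZMod.stdAddChar ((a : ZMod c) * Q.rval ρ + (w.1 : ZMod c) * ρ.1 + (w.2 : ZMod c) * ρ.2)) *
              ee (τ * Q.dual.val w / N) := by
        refine Finset.sum_congr rfl fun ρ _ => ?_
        simp_rw [hterm]
        rw [tsum_mul_left, Q.tsum_ee_qc hz, mul_left_comm,
          show 1 / ((Real.sqrt N : ℂ) * (-I * z)) = j / (I * c * (Real.sqrt N : ℂ)) by
            rw [hzdef]; field_simp, ← tsum_mul_left]
        congr 1
        refine tsum_congr fun w => ?_
        have : ZMod.stdAddChar ((w.1 : ZMod c) * ρ.1 + (w.2 : ZMod c) * ρ.2) =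
            ee ((w.1 : ℂ) * ((ρ.1.val : ℝ) / c : ℝ) + w.2 * ((ρ.2.val : ℝ) / c : ℝ)) := by
          rw [show (w.1 : ZMod c) * ρ.1 + (w.2 : ZMod c) * ρ.2 =
            (((w.1 * ρ.1.val + w.2 * ρ.2.val : ℤ)) : ZMod c) by simp, stdAddChar_eq_ee]
          congr 1; push_cast; ring
        rw [add_assoc, AddChar.map_add_eq_mul, this, sub_eq_add_neg, ee_add]
        rw [show -((Q.dual.val w : ℂ) / (z * N)) = (d : ℂ) * Q.dual.val w / (N * c) +
          τ * Q.dual.val w / N by rw [hzdef]; field_simp; rw [hjdef]; ring]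
        simp only [ee_add]
        ring
    _ = _ := by
        rw [← Finset.mul_sum]
        congr 1
        have hs : ∀ ρ : ZMod c × ZMod c, Summable fun w : ℤ × ℤ =>
            (ee (d * Q.dual.val w / (N * c)) *
              ZMod.stdAddChar ((a : ZMod c) * Q.rval ρ + (w.1 : ZMod c) * ρ.1 + (w.2 : ZMod c) * ρ.2)) *
                ee (τ * Q.dual.val w / N) := fun ρ => by
          have h : 0 < (τ / N).im := by
            rw [Complex.div_natCast_im]
            exact div_pos hτ (by exact_mod_cast natCast_pos (N := N))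
          refine Summable.of_norm ((Q.dual.summable_ee_val h).congr fun w => ?_)
          rw [norm_mul, norm_mul, norm_ee ((d : ℂ) * _ / _), AddChar.norm_apply, im_ratio,
            show τ / N * (Q.dual.val w : ℂ) = τ * Q.dual.val w / N by ring]
          simp
        rw [← Summable.tsum_finsetSum fun ρ _ => hs ρ]
        refine tsum_congr fun w => ?_
        rw [ker, Finset.mul_sum, Finset.sum_mul]

theorem dual_val_image (v : ℤ × ℤ) :
    Q.dual.val (2 * Q.a * v.1 + Q.b * v.2, Q.b * v.1 + 2 * Q.c * v.2) = N * Q.val v := by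
  rw [← Q.disc]; simp [val, dual]; ring

/-- on `Γ₀(N)` only the lattice itself contributes -/
theorem theta_gamma0 {τ : ℂ} (hτ : 0 < τ.im) {a b d : ℤ} {c : ℕ} [NeZero c]
    (hdet : a * d - b * c = 1) (hN : N ∣ c) :
    Q.theta ((a * τ + b) / (c * τ + d)) =
      (c * τ + d) * (Q.gauss a c / (I * c * (Real.sqrt N : ℂ))) * Q.theta τ := by
  let B : ℤ × ℤ → ℤ × ℤ := fun v =>
    (2 * Q.a * v.1 + Q.b * v.2, Q.b * v.1 + 2 * Q.c * v.2)
  have hN0 : (N : ℤ) ≠ 0 := by exact_mod_cast NeZero.ne N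
  have hNC : (N : ℂ) ≠ 0 := Nat.cast_ne_zero.mpr (NeZero.ne N)
  have hcC : (c : ℂ) ≠ 0 := Nat.cast_ne_zero.mpr (NeZero.ne c)
  have hB : Function.Injective B := by
    intro v w e
    simp only [B, Prod.mk.injEq] at e
    have hd := Q.disc
    refine Prod.ext (mul_left_cancel₀ hN0 ?_) (mul_left_cancel₀ hN0 ?_)
    · linear_combination (2 * Q.c) * e.1 - Q.b * e.2 - (v.1 - w.1) * hd
    · linear_combination (2 * Q.a) * e.2 - Q.b * e.1 - (v.2 - w.2) * hd
  have hin : ∀ v, Q.ker a d c (B v) = Q.gauss a c := by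
    intro v
    have had : (a : ZMod c) * (d : ZMod c) = 1 := by
      have := congrArg (Int.cast : ℤ → ZMod c) hdet
      simpa using this
    rw [ker, gauss, show Q.dual.val (B v) = (N : ℤ) * Q.val v from Q.dual_val_image v,
      show (d : ℂ) * (((N : ℤ) * Q.val v : ℤ) : ℂ) / (N * c) = ((d * Q.val v : ℤ) : ℂ) / c by
        push_cast; field_simp, ← stdAddChar_eq_ee, Finset.mul_sum]
    refine Fintype.sum_bijective (fun r => (r.1 + (d : ZMod c) * v.1, r.2 + (d : ZMod c) * v.2))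
      (Equiv.addRight ((d : ZMod c) * v.1, (d : ZMod c) * v.2)).bijective _ _ fun r => ?_
    rw [← AddChar.map_add_eq_mul]
    congr 1
    simp only [B, rval, val]
    push_cast
    linear_combination -(((Q.a : ZMod c) * (2 * r.1 * v.1 + (d : ZMod c) * v.1 ^ 2) +
      (Q.b : ZMod c) * (r.1 * v.2 + v.1 * r.2 + (d : ZMod c) * v.1 * v.2) +
      (Q.c : ZMod c) * (2 * r.2 * v.2 + (d : ZMod c) * v.2 ^ 2))) * had
  have hout : ∀ w, w ∉ Set.range B → Q.ker a d c w = 0 := by
    intro w hw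
    obtain ⟨m, hm⟩ := hN
    have hNm : (N : ZMod c) * (m : ZMod c) = 0 := by
      rw [← Nat.cast_mul, ← hm, ZMod.natCast_self]
    have hdz : (4 : ZMod c) * Q.a * Q.c - (Q.b : ZMod c) ^ 2 = (N : ZMod c) := by
      have := congrArg (Int.cast : ℤ → ZMod c) Q.disc
      simpa using this
    set S := ∑ r : ZMod c × ZMod c,
      ZMod.stdAddChar ((a : ZMod c) * Q.rval r + (w.1 : ZMod c) * r.1 + (w.2 : ZMod c) * r.2) with hS
    by_contra hne
    have hS0 : S ≠ 0 := fun h => hne (by rw [ker, ← hS, h, mul_zero])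
    have key : ∀ u : ℤ × ℤ, (2 * Q.a * u.1 + Q.b * u.2 = (N : ℤ) ∧ Q.b * u.1 + 2 * Q.c * u.2 = 0 ∨
        2 * Q.a * u.1 + Q.b * u.2 = 0 ∧ Q.b * u.1 + 2 * Q.c * u.2 = (N : ℤ)) →
        (∃ q : ℤ, Q.val u = q * N) → (N : ℤ) ∣ w.1 * u.1 + w.2 * u.2 := by
      intro u hu hq
      obtain ⟨q, hq⟩ := hq
      have he : ZMod.stdAddChar (((m : ℤ) * (w.1 * u.1 + w.2 * u.2) : ℤ) : ZMod c) * S = S := by
        rw [hS, Finset.mul_sum]
        refine (Fintype.sum_bijective (fun r => (r.1 + (m : ZMod c) * u.1, r.2 + (m : ZMod c) * u.2))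
          (Equiv.addRight ((m : ZMod c) * u.1, (m : ZMod c) * u.2)).bijective _ _ fun r => ?_)
        rw [← AddChar.map_add_eq_mul]
        congr 1
        have hq' := congrArg (Int.cast : ℤ → ZMod c) hq
        simp only [val] at hq'
        push_cast at hq' ⊢
        simp only [rval]
        rcases hu with ⟨e1, e2⟩ | ⟨e1, e2⟩
        all_goals
          have e1' := congrArg (Int.cast : ℤ → ZMod c) e1
          have e2' := congrArg (Int.cast : ℤ → ZMod c) e2
          push_cast at e1' e2'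
        · linear_combination -((a : ZMod c) * m * r.1) * e1' - ((a : ZMod c) * m * r.2) * e2' -
            ((a : ZMod c) * m ^ 2) * hq' - ((a : ZMod c) * (r.1 + m * q)) * hNm
        · linear_combination -((a : ZMod c) * m * r.1) * e1' - ((a : ZMod c) * m * r.2) * e2' -
            ((a : ZMod c) * m ^ 2) * hq' - ((a : ZMod c) * (r.2 + m * q)) * hNm
      have h1 := (mul_eq_right₀ hS0).mp he
      rw [← AddChar.map_zero_eq_one (ZMod.stdAddChar (N := c))] at h1
      have h2 := ZMod.injective_stdAddChar h1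
      rw [ZMod.intCast_zmod_eq_zero_iff_dvd, hm] at h2
      push_cast at h2
      rw [mul_comm (N : ℤ) (m : ℤ)] at h2
      exact (mul_dvd_mul_iff_left (by
        have := NeZero.ne c; rw [hm] at this; exact_mod_cast (mul_ne_zero_iff.mp this).2)).mp h2
    obtain ⟨v1, hv1⟩ := key (2 * Q.c, -Q.b) (Or.inl ⟨by rw [← Q.disc]; ring, by ring⟩)
      ⟨Q.c, by rw [← Q.disc]; simp only [val]; ring⟩
    obtain ⟨v2, hv2⟩ := key (-Q.b, 2 * Q.a) (Or.inr ⟨by ring, by rw [← Q.disc]; ring⟩)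
      ⟨Q.a, by rw [← Q.disc]; simp only [val]; ring⟩
    refine hw ⟨(v1, v2), ?_⟩
    simp only at hv1 hv2
    refine Prod.ext (mul_left_cancel₀ hN0 ?_) (mul_left_cancel₀ hN0 ?_)
    · simp only [B]
      linear_combination -(2 * Q.a) * hv1 - Q.b * hv2 + w.1 * Q.disc
    · simp only [B]
      linear_combination -(2 * Q.c) * hv2 - Q.b * hv1 + w.2 * Q.disc
  have hkey : ∑' w : ℤ × ℤ, Q.ker a d c w * ee (τ * Q.dual.val w / N) =
      Q.gauss a c * Q.theta τ := by
    rw [← hB.tsum_eq (f := fun w => Q.ker a d c w * ee (τ * Q.dual.val w / N))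
      (Function.support_subset_iff'.mpr fun w hw => by rw [hout w hw, zero_mul]), theta,
      ← tsum_mul_left]
    refine tsum_congr fun v => ?_
    rw [hin, show Q.dual.val (B v) = (N : ℤ) * Q.val v from Q.dual_val_image v]
    congr 2
    push_cast; field_simp
  rw [Q.theta_transform hτ hdet, hkey]
  ring

end BForm

end FLTAgent.TH2

end
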